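import Mathlib
import Fermat.Agent.CFT.LC.Basic
import Fermat.Agent.CFT.D3.Core

/-!
# Cyclic 2-cocycles

`G` acts on a commutative group `A` (written multiplicatively), `χ : G →* Multiplicative (ZMod p)`
is a character with open kernel `V`, `χ σ = 1`.

* `norm_of_cyc_eq_mdiff` : if `cyc χ a` is a coboundary then `a = ∏ σ^i b` with `b ∈ A^V`;
* `cyc_eq_mdiff_of_norm` : the converse;
* `exists_eq_cyc_mul_mdiff` : a 2-cocycle whose restriction to `V` is a coboundary is
  cohomologous to `cyc χ a` for some `a ∈ A^G`;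
* `cyc_pow_char` : `cyc (χ^c) a` is cohomologous to `(cyc χ a)^c`.
-/

set_option autoImplicit false
set_option linter.unusedSectionVars false

namespace Fermat.Agent.CFT.Hasse

open Fermat.Agent.CFT.LC Fermat.Agent.CFT.D3

section Coc

variable {G : Type*} [Group G] {A : Type*} [CommGroup A] [MulDistribMulAction G A]

/-- multiplicative 2-cocycles -/
def IsCoc (z : G × G → A) : Prop :=
  ∀ g h j, z (g * h, j) * z (g, h) = g • z (h, j) * z (g, h * j)

theorem IsCoc.mul {z z' : G × G → A} (hz : IsCoc z) (hz' : IsCoc z') : IsCoc (z * z') := by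
  intro g h j
  simp only [Pi.mul_apply, smul_mul']
  rw [mul_mul_mul_comm, hz, hz', mul_mul_mul_comm]

theorem IsCoc.inv {z : G × G → A} (hz : IsCoc z) : IsCoc z⁻¹ := by
  intro g h j
  simp only [Pi.inv_apply, smul_inv']
  rw [← mul_inv, ← mul_inv, hz]

theorem IsCoc.div {z z' : G × G → A} (hz : IsCoc z) (hz' : IsCoc z') : IsCoc (z / z') := by
  rw [div_eq_mul_inv]
  exact hz.mul hz'.inv

theorem isCoc_mdiff (f : G → A) : IsCoc (mdiff f) := by
  intro g h j
  simp only [mdiff_apply, smul_div', smul_mul', mul_assoc, smul_smul]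
  rw [div_mul_div_comm, div_mul_div_comm, div_eq_div_iff_mul_eq_mul]
  simp only [mul_assoc, mul_comm, mul_left_comm]

/-- Hilbert 90 for level-constant 1-cocycles on the subgroup `V`. -/
def H90 (L : Lvl G) (V : Subgroup G) (A : Type*) [CommGroup A] [MulDistribMulAction G A] : Prop :=
  ∀ f : V → A, (∀ v w : V, f (v * w) = f v * (v : G) • f w) → IsLC₁ (L.restrict V) f →
    ∃ y : A, ∀ v : V, f v = (v : G) • y / y

theorem isLC₁_restrict {L : Lvl G} {X : Type*} {f : G → X} (hf : IsLC₁ L f) (V : Subgroup G) :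
    IsLC₁ (L.restrict V) (fun v : V => f v) :=
  hf.pullback (L.cont_comap V.subtype)

end Coc

section Cyc

variable {G : Type*} [Group G] {A : Type*} [CommGroup A] [MulDistribMulAction G A]
variable {p : ℕ} [hp : Fact p.Prime] {L : Lvl G} {χ : G →* Multiplicative (ZMod p)} {σ : G}

local instance : NeZero p := ⟨hp.out.ne_zero⟩

theorem ix_eq_zero {g : G} (h : χ g = 1) : ix χ g = 0 := by
  unfold ix
  rw [h]
  simp

theorem ix_eq_zero_iff {g : G} : ix χ g = 0 ↔ χ g = 1 := by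
  refine ⟨fun h => ?_, ix_eq_zero⟩
  unfold ix at h
  rw [ZMod.val_eq_zero] at h
  exact Multiplicative.toAdd.injective h

theorem ix_mul_of_ker {g v : G} (h : χ v = 1) : ix χ (g * v) = ix χ g := by
  unfold ix
  rw [map_mul, h, mul_one]

theorem ix_mul_of_ker' {g v : G} (h : χ v = 1) : ix χ (v * g) = ix χ g := by
  unfold ix
  rw [map_mul, h, one_mul]

theorem ix_pow_lt (hσ : χ σ = Multiplicative.ofAdd 1) {j : ℕ} (hj : j < p) : ix χ (σ ^ j) = j := by
  rw [ix_pow_sigma hσ, Nat.mod_eq_of_lt hj]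

theorem chi_sigma_pow_p : χ (σ ^ p) = 1 := by
  rw [map_pow]
  apply Multiplicative.toAdd.injective
  rw [toAdd_pow, toAdd_one, nsmul_eq_mul, CharP.cast_eq_zero, zero_mul]

theorem chi_pow_ix (hσ : χ σ = Multiplicative.ofAdd 1) (g : G) : χ (σ ^ ix χ g) = χ g := by
  rw [map_pow, hσ, ← ofAdd_nsmul]
  unfold ix
  rw [nsmul_one, ZMod.natCast_val, ZMod.cast_id', id, ofAdd_toAdd]

theorem chi_sec (hσ : χ σ = Multiplicative.ofAdd 1) (g : G) : χ ((σ ^ ix χ g)⁻¹ * g) = 1 := by
  rw [map_mul, map_inv, chi_pow_ix hσ, inv_mul_cancel]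

theorem conj_ker {g v : G} (h : χ v = 1) : χ (g⁻¹ * v * g) = 1 := by
  rw [map_mul, map_mul, h, map_inv, mul_one, inv_mul_cancel]

theorem cyc_ker_right {a : A} {g v : G} (h : χ v = 1) : cyc χ a (g, v) = 1 := by
  unfold cyc
  rw [if_neg]
  simp only [ix_eq_zero h, add_zero, not_le]
  exact ix_lt χ g

theorem cyc_ker_left {a : A} {g v : G} (h : χ v = 1) : cyc χ a (v, g) = 1 := by
  unfold cyc
  rw [if_neg]
  simp only [ix_eq_zero h, zero_add, not_le]
  exact ix_lt χ g

theorem isLC₁_ix (hχ : L.IsOpen χ.ker) : IsLC₁ L (ix χ) := by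
  obtain ⟨N, hN, h⟩ := hχ
  exact ⟨N, hN, fun g s hs => ix_mul_of_ker (h hs)⟩

theorem isLC₂_cyc (hχ : L.IsOpen χ.ker) (a : A) : IsLC₂ L (cyc χ a) :=
  ((isLC₁_ix hχ).fst.prod (isLC₁_ix hχ).snd).comp fun t : ℕ × ℕ => if p ≤ t.1 + t.2 then a else 1

theorem isLC₁_coboundary (hsm : ∀ x : A, SmoothEl L x) (y : A) :
    IsLC₁ L (fun g : G => g • y / y) :=
  (hsm y).isLC₁.comp fun t => t / y

/-- If `cyc χ a` is a coboundary, then `a` is a norm. -/
theorem norm_of_cyc_eq_mdiff (hσ : χ σ = Multiplicative.ofAdd 1) (h90 : H90 L χ.ker A) {a : A}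
    {f : G → A} (hf : IsLC₁ L f) (h : cyc χ a = mdiff f) :
    ∃ b : A, (∀ v : G, χ v = 1 → v • b = b) ∧ a = ∏ i ∈ Finset.range p, σ ^ i • b := by
  -- trivialise `f` on the kernel
  obtain ⟨y, hy⟩ := h90 (fun v => f v) (by
    intro v w
    have h1 := congrFun h ((v : G), (w : G))
    rw [cyc_ker_left v.2, mdiff_apply, eq_comm, div_eq_one, mul_comm] at h1
    exact h1.symm) (isLC₁_restrict hf _)
  set f' : G → A := fun g => f g / (g • y / y) with hf'
  have h' : cyc χ a = mdiff f' := by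
    have : f' = f / (fun g => g • y / y) := rfl
    rw [this, mdiff_div, mdiff_coboundary, div_one, h]
  have hV : ∀ v : G, χ v = 1 → f' v = 1 := by
    intro v hv
    rw [hf']
    have := hy ⟨v, hv⟩
    simp only at this
    simp only [this, div_self']
  have hr : ∀ g v : G, χ v = 1 → f' (g * v) = f' g := by
    intro g v hv
    have h1 := congrFun h' (g, v)
    rw [cyc_ker_right hv, mdiff_apply, hV v hv, smul_one, one_mul, eq_comm, div_eq_one] at h1
    exact h1.symm
  have hl : ∀ g v : G, χ v = 1 → v • f' g = f' g := by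
    intro g v hv
    have h1 := congrFun h' (v, g)
    rw [cyc_ker_left hv, mdiff_apply, hV v hv, mul_one, eq_comm, div_eq_one] at h1
    have h2 : v * g = g * (g⁻¹ * v * g) := by group
    simp only at h1
    rw [h1, h2, hr _ _ (conj_ker hv)]
  refine ⟨f' σ, fun v hv => hl σ v hv, ?_⟩
  have hind : ∀ i, i < p → f' (σ ^ i) = ∏ j ∈ Finset.range i, σ ^ j • f' σ := by
    intro i
    induction i with
    | zero =>
      intro _
      rw [pow_zero, Finset.prod_range_zero]
      exact hV 1 (map_one χ)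
    | succ i ih =>
      intro hi
      have h1 := congrFun h' (σ ^ i, σ)
      have h2 : cyc χ a (σ ^ i, σ) = 1 := by
        unfold cyc
        rw [if_neg]
        have h3 := ix_pow_lt hσ (j := 1) (by omega)
        rw [pow_one] at h3
        simp only [ix_pow_lt hσ (show i < p by omega), h3]
        omega
      rw [h2, mdiff_apply, eq_comm, div_eq_one] at h1
      rw [Finset.prod_range_succ, ← ih (by omega), pow_succ, ← h1, mul_comm]
  have h1 := congrFun h' (σ ^ (p - 1), σ)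
  have h2 : cyc χ a (σ ^ (p - 1), σ) = a := by
    unfold cyc
    rw [if_pos]
    have h3 := ix_pow_lt hσ (j := 1) hp.out.one_lt
    rw [pow_one] at h3
    simp only [ix_pow_lt hσ (show p - 1 < p by have := hp.out.pos; omega), h3]
    omega
  rw [h2, mdiff_apply] at h1
  have h3 : σ ^ (p - 1) * σ = σ ^ p := by rw [← pow_succ, Nat.sub_add_cancel hp.out.one_le]
  simp only at h1
  rw [h3, hV _ chi_sigma_pow_p, div_one] at h1
  rw [h1, hind (p - 1) (by have := hp.out.pos; omega), mul_comm, ← Finset.prod_range_succ,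
    Nat.sub_add_cancel hp.out.one_le]

/-- If `a` is a norm, then `cyc χ a` is a coboundary. -/
theorem cyc_eq_mdiff_of_norm (hσ : χ σ = Multiplicative.ofAdd 1) {a b : A}
    (hb : ∀ v : G, χ v = 1 → v • b = b) (ha : a = ∏ i ∈ Finset.range p, σ ^ i • b) :
    cyc χ a = mdiff (dlt χ σ b) := by
  ext x
  have h1 := qt_mdiff_dlt (E := (⊥ : Subgroup A)) (χ := χ) (σ := σ) (a := a) (d := b)
    (fun g x hx => by rw [Subgroup.mem_bot] at hx ⊢; rw [hx, smul_one]) hσ
    (fun g hg => by rw [hb g hg, div_self']; exact Subgroup.one_mem _)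
    (by rw [← ha, div_self']; exact Subgroup.one_mem _) x
  have h2 : qt (⊥ : Subgroup A) (cyc χ a x / mdiff (dlt χ σ b) x) = 1 := by
    rw [map_div, h1, div_self']
  rw [qt_eq_one_iff, Subgroup.mem_bot, div_eq_one] at h2
  exact h2

theorem isLC₁_dlt (hχ : L.IsOpen χ.ker) (b : A) : IsLC₁ L (dlt χ σ b) :=
  (isLC₁_ix hχ).comp fun n => ∏ j ∈ Finset.range n, σ ^ j • b

theorem cyc_mul (a b : A) : cyc χ (a * b) = cyc χ a * cyc χ b := by
  ext x
  simp only [cyc, Pi.mul_apply]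
  split_ifs <;> simp

theorem cyc_one : cyc χ (1 : A) = 1 := by
  ext x
  simp only [cyc, Pi.one_apply, ite_self]

theorem cyc_inv (a : A) : cyc χ a⁻¹ = (cyc χ a)⁻¹ := by
  ext x
  simp only [cyc, Pi.inv_apply]
  split_ifs <;> simp

theorem cyc_pow (a : A) (n : ℕ) : cyc χ (a ^ n) = cyc χ a ^ n := by
  ext x
  simp only [cyc, Pi.pow_apply]
  split_ifs <;> simp

/-- `cyc χ a` is a cocycle if `a` is invariant. -/
theorem isCoc_cyc {a : A} (ha : ∀ g : G, g • a = a) : IsCoc (cyc χ a) := by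
  intro g h j
  have h1 : ∀ x : G × G, g • cyc χ a x = cyc χ a x := by
    intro x
    unfold cyc
    split_ifs
    · exact ha g
    · exact smul_one g
  rw [h1]
  simp only [cyc, ix_mul]
  have hg := ix_lt χ g
  have hh := ix_lt χ h
  have hj := ix_lt χ j
  by_cases c1 : p ≤ ix χ g + ix χ h <;> by_cases c2 : p ≤ ix χ h + ix χ j <;>
    simp only [c1, c2, if_true, if_false] <;>
    by_cases c3 : p ≤ ix χ g + (ix χ h + ix χ j) <;>
    by_cases c4 : p ≤ ix χ g + (ix χ h + ix χ j) - p <;>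
    (try simp only [show (p ≤ ix χ g + ix χ h - p + ix χ j) = (p ≤ ix χ g + (ix χ h + ix χ j) - p) by
      apply propext; omega]) <;>
    (try simp only [show (p ≤ ix χ g + (ix χ h + ix χ j - p)) = (p ≤ ix χ g + (ix χ h + ix χ j) - p) by
      apply propext; omega]) <;>
    (try simp only [show (p ≤ ix χ g + ix χ h + ix χ j) = (p ≤ ix χ g + (ix χ h + ix χ j)) by
      apply propext; omega]) <;>
    simp only [c3, c4, if_true, if_false, mul_one, one_mul] <;> omega

theorem exists_carry (χ : G →* Multiplicative (ZMod p)) (g h : G) :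
    ∃ e : ℤ, (p : ℤ) * e = ix χ g + ix χ h - ix χ (g * h) := by
  rw [ix_mul]
  split_ifs with h1
  · exact ⟨1, by push_cast [h1]; ring⟩
  · exact ⟨0, by push_cast; ring⟩

theorem cyc_eq_zpow (χ : G →* Multiplicative (ZMod p)) (a : A) (g h : G) {e : ℤ}
    (he : (p : ℤ) * e = ix χ g + ix χ h - ix χ (g * h)) : cyc χ a (g, h) = a ^ e := by
  have hp0 : (p : ℤ) ≠ 0 := by exact_mod_cast hp.out.ne_zero
  rw [ix_mul] at he
  unfold cyc
  split_ifs at he ⊢ with h1
  · have : (p : ℤ) * e = p * 1 := by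
      rw [he]; push_cast [h1]; ring
    rw [mul_left_cancel₀ hp0 this, zpow_one]
  · have : (p : ℤ) * e = p * 0 := by
      rw [he]; push_cast; ring
    rw [mul_left_cancel₀ hp0 this, zpow_zero]

/-- `cyc (χ^c) a` is cohomologous to `(cyc χ a)^c`. -/
theorem cyc_pow_char {a : A} (ha : ∀ g : G, g • a = a) (c : ℕ) :
    cyc (χ ^ c) a = cyc χ a ^ c * mdiff (fun g => (a ^ (c * ix χ g / p))⁻¹) := by
  have hp0 : (p : ℤ) ≠ 0 := by exact_mod_cast hp.out.ne_zero
  have hix : ∀ g, (ix (χ ^ c) g : ℤ) = c * ix χ g - p * (c * ix χ g / p : ℕ) := by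
    intro g
    have h1 : ix (χ ^ c) g = c * ix χ g % p := by
      unfold ix
      rw [MonoidHom.pow_apply, toAdd_pow, nsmul_eq_mul, ZMod.val_mul, ZMod.val_natCast,
        Nat.mod_mul_mod]
    have h2 := Nat.div_add_mod (c * ix χ g) p
    rw [h1, eq_sub_iff_add_eq, add_comm]
    exact_mod_cast h2
  ext ⟨g, h⟩
  obtain ⟨e, he⟩ := exists_carry χ g h
  have he' : (p : ℤ) * (c * e - ((c * ix χ g / p : ℕ) + (c * ix χ h / p : ℕ)
      - (c * ix χ (g * h) / p : ℕ))) =
      ix (χ ^ c) g + ix (χ ^ c) h - ix (χ ^ c) (g * h) := by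
    rw [hix, hix, hix]
    linear_combination (c : ℤ) * he
  rw [cyc_eq_zpow _ _ _ _ he', Pi.mul_apply, Pi.pow_apply, cyc_eq_zpow _ _ _ _ he, mdiff_apply]
  simp only [smul_inv', smul_pow', ha, div_eq_mul_inv, inv_inv]
  simp only [← zpow_natCast, ← zpow_mul, ← zpow_neg, ← zpow_add]
  congr 1
  ring

/-- A 2-cocycle whose restriction to `V = ker χ` is a coboundary is cohomologous to a cyclic
cocycle. -/
theorem exists_eq_cyc_mul_mdiff (hsm : ∀ x : A, SmoothEl L x) (hχ : L.IsOpen χ.ker)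
    (hσ : χ σ = Multiplicative.ofAdd 1) (h90 : H90 L χ.ker A) {z : G × G → A} (hz : IsCoc z)
    (hzl : IsLC₂ L z) {w : χ.ker → A} (hwl : IsLC₁ (L.restrict χ.ker) w)
    (hw : ∀ v v' : χ.ker, z ((v : G), (v' : G)) = (v : G) • w v' * w v / w (v * v')) :
    ∃ a : A, (∀ g : G, g • a = a) ∧ ∃ f : G → A, IsLC₁ L f ∧ z = cyc χ a * mdiff f := by
  classical
  -- Step 1: make `z` trivial on `V × V`
  let w' : G → A := fun g => if h : g ∈ χ.ker then w ⟨g, h⟩ else 1
  have hw'V : ∀ (v : G) (h : v ∈ χ.ker), w' v = w ⟨v, h⟩ := fun v h => dif_pos h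
  have hw'l : IsLC₁ L w' := by
    obtain ⟨N, hN, hNχ⟩ := hχ
    obtain ⟨_, ⟨N', hN', rfl⟩, h1⟩ := hwl
    obtain ⟨W, hW, hWN, hWN'⟩ := L.directed N hN N' hN'
    refine ⟨W, hW, fun g s hs => ?_⟩
    have hsV : s ∈ χ.ker := hNχ (hWN hs)
    by_cases hg : g ∈ χ.ker
    · rw [hw'V _ (χ.ker.mul_mem hg hsV), hw'V _ hg]
      exact h1 ⟨g, hg⟩ ⟨s, hsV⟩ (hWN' hs)
    · have hgs : g * s ∉ χ.ker := fun h => hg ((χ.ker.mul_mem_cancel_right hsV).mp h)
      simp only [w', hg, hgs, dif_neg, not_false_eq_true]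
  set z1 : G × G → A := z / mdiff w' with hz1
  have hz1c : IsCoc z1 := hz.div (isCoc_mdiff w')
  have hz1l : IsLC₂ L z1 :=
    (hzl.prod (isLC₂_mdiff hw'l fun g => hsm _)).comp fun t : A × A => t.1 / t.2
  have hz1V : ∀ v v' : G, χ v = 1 → χ v' = 1 → z1 (v, v') = 1 := by
    intro v v' hv hv'
    rw [hz1, Pi.div_apply, div_eq_one, mdiff_apply]
    have h1 := hw ⟨v, hv⟩ ⟨v', hv'⟩
    simp only at h1 ⊢
    rw [h1, hw'V v hv, hw'V v' hv', hw'V (v * v') (χ.ker.mul_mem hv hv')]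
    rfl
  -- Step 2: make `z` trivial on `G × V`
  let f : G → A := fun g => z1 (σ ^ ix χ g, (σ ^ ix χ g)⁻¹ * g)
  have hfl : IsLC₁ L f := by
    obtain ⟨N, hN, hNχ⟩ := hχ
    obtain ⟨N', hN', h1⟩ := hz1l
    obtain ⟨W, hW, hWN, hWN'⟩ := L.directed N hN N' hN'
    refine ⟨W, hW, fun g s hs => ?_⟩
    have hsV : χ s = 1 := hNχ (hWN hs)
    simp only [f]
    rw [ix_mul_of_ker hsV, ← mul_assoc]
    have := h1 (σ ^ ix χ g) ((σ ^ ix χ g)⁻¹ * g) 1 N'.one_mem s (hWN' hs)
    rwa [mul_one] at this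
  have hfV : ∀ v, χ v = 1 → f v = 1 := by
    intro v hv
    simp only [f]
    rw [ix_eq_zero hv, pow_zero, inv_one, one_mul]
    exact hz1V _ _ (map_one χ) hv
  set z2 : G × G → A := z1 * mdiff f with hz2
  have hz2c : IsCoc z2 := hz1c.mul (isCoc_mdiff f)
  have hz2l : IsLC₂ L z2 :=
    (hz1l.prod (isLC₂_mdiff hfl fun g => hsm _)).comp fun t : A × A => t.1 * t.2
  have hz2r : ∀ g v, χ v = 1 → z2 (g, v) = 1 := by
    intro g v hv
    rw [hz2, Pi.mul_apply, mdiff_apply]
    simp only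
    rw [hfV v hv, smul_one, one_mul]
    have h1 := hz1c (σ ^ ix χ g) ((σ ^ ix χ g)⁻¹ * g) v
    rw [mul_inv_cancel_left, hz1V _ _ (chi_sec hσ g) hv, smul_one, one_mul] at h1
    have h2 : f (g * v) = z1 (g, v) * f g := by
      simp only [f]
      rw [ix_mul_of_ker hv, ← mul_assoc, h1]
    rw [h2, mul_div_assoc', div_self']
  have hz2rr : ∀ g h v, χ v = 1 → z2 (g, h * v) = z2 (g, h) := by
    intro g h v hv
    have h1 := hz2c g h v
    rw [hz2r _ v hv, hz2r _ v hv, smul_one, one_mul, one_mul] at h1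
    exact h1.symm
  -- Step 3: make `z` trivial on `V × G`
  have hY : ∀ i : ℕ, ∃ y : A, (i = 0 → y = 1) ∧ ∀ v, χ v = 1 → z2 (v, σ ^ i) = v • y / y := by
    intro i
    rcases Nat.eq_zero_or_pos i with rfl | hi
    · exact ⟨1, fun _ => rfl, fun v _ => by
        rw [pow_zero, hz2r _ _ (map_one χ), smul_one, div_self']⟩
    · obtain ⟨y, hy⟩ := h90 (fun v => z2 ((v : G), σ ^ i)) (by
        intro v w
        have h1 := hz2c v w (σ ^ i)
        rw [hz2r _ _ w.2, mul_one] at h1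
        have h2 : (w : G) * σ ^ i = σ ^ i * ((σ ^ i)⁻¹ * w * σ ^ i) := by group
        rw [h2, hz2rr _ _ _ (conj_ker w.2), mul_comm] at h1
        exact h1) (by
        obtain ⟨N, hN, h1⟩ := hz2l
        exact ⟨_, ⟨N, hN, rfl⟩, fun v s hs => by
          have := h1 v (σ ^ i) s hs 1 N.one_mem
          rwa [mul_one] at this⟩)
      exact ⟨y, fun h => absurd h hi.ne', fun v hv => hy ⟨v, hv⟩⟩
  choose Y hY0 hY1 using hY
  have hz2ix : ∀ g h, z2 (g, h) = z2 (g, σ ^ ix χ h) := by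
    intro g h
    have := hz2rr g (σ ^ ix χ h) ((σ ^ ix χ h)⁻¹ * h) (chi_sec hσ h)
    rwa [mul_inv_cancel_left] at this
  let f2 : G → A := fun g => Y (ix χ g)
  have hf2l : IsLC₁ L f2 := (isLC₁_ix hχ).comp Y
  have hf2V : ∀ v, χ v = 1 → f2 v = 1 := fun v hv => hY0 _ (ix_eq_zero hv)
  set z3 : G × G → A := z2 / mdiff f2 with hz3
  have hz3c : IsCoc z3 := hz2c.div (isCoc_mdiff f2)
  have hz3l' : ∀ v j, χ v = 1 → z3 (v, j) = 1 := by
    intro v j hv
    rw [hz3, Pi.div_apply, div_eq_one, mdiff_apply]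
    simp only
    rw [hf2V v hv, mul_one, hz2ix, hY1 _ v hv]
    simp only [f2, ix_mul_of_ker' hv]
  have hz3r' : ∀ g v, χ v = 1 → z3 (g, v) = 1 := by
    intro g v hv
    rw [hz3, Pi.div_apply, div_eq_one, mdiff_apply]
    simp only
    rw [hf2V v hv, smul_one, one_mul, hz2r _ _ hv]
    simp only [f2, ix_mul_of_ker hv, div_self']
  have hz3r : ∀ g h v, χ v = 1 → z3 (g, h * v) = z3 (g, h) := by
    intro g h v hv
    have h1 := hz3c g h v
    rw [hz3r' _ v hv, hz3r' _ v hv, smul_one, one_mul, one_mul] at h1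
    exact h1.symm
  have hz3l : ∀ g h v, χ v = 1 → z3 (g * v, h) = z3 (g, h) := by
    intro g h v hv
    have h1 := hz3c g v h
    rw [hz3r' _ v hv, hz3l' v _ hv, smul_one, mul_one, one_mul] at h1
    have h2 : v * h = h * (h⁻¹ * v * h) := by group
    rw [h1, h2, hz3r _ _ _ (conj_ker hv)]
  have hz3inv : ∀ g h v, χ v = 1 → v • z3 (g, h) = z3 (g, h) := by
    intro g h v hv
    have h1 := hz3c v g h
    rw [hz3l' v _ hv, hz3l' v _ hv, mul_one, mul_one] at h1
    have h2 : v * g = g * (g⁻¹ * v * g) := by group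
    rw [← h1, h2, hz3l _ _ _ (conj_ker hv)]
  have hz3ix : ∀ g h, z3 (g, h) = z3 (σ ^ ix χ g, σ ^ ix χ h) := by
    intro g h
    have e1 := hz3r g (σ ^ ix χ h) ((σ ^ ix χ h)⁻¹ * h) (chi_sec hσ h)
    have e2 := hz3l (σ ^ ix χ g) (σ ^ ix χ h) ((σ ^ ix χ g)⁻¹ * g) (chi_sec hσ g)
    rw [mul_inv_cancel_left] at e1 e2
    rw [e1, e2]
  -- Step 4: the cyclic group
  let F : ℕ → A := fun n => ∏ j ∈ Finset.range n, z3 (σ ^ j, σ)
  have hFinv : ∀ n v, χ v = 1 → v • F n = F n := by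
    intro n v hv
    simp only [F]
    rw [Finset.smul_prod']
    exact Finset.prod_congr rfl fun j _ => hz3inv _ _ _ hv
  have hF : ∀ m n, F (m + n) = z3 (σ ^ m, σ ^ n) * F m * σ ^ m • F n := by
    intro m n
    induction n with
    | zero =>
      rw [pow_zero, hz3r' _ _ (map_one χ), add_zero, one_mul]
      simp only [F, Finset.prod_range_zero, smul_one, mul_one]
    | succ n ih =>
      have e1 : F (m + (n + 1)) = F (m + n) * z3 (σ ^ (m + n), σ) := by
        simp only [F]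
        rw [← add_assoc, Finset.prod_range_succ]
      have e2 : F (n + 1) = F n * z3 (σ ^ n, σ) := by
        simp only [F]
        rw [Finset.prod_range_succ]
      have e3 := hz3c (σ ^ m) (σ ^ n) σ
      rw [← pow_add, ← pow_succ] at e3
      rw [e1, ih, e2, smul_mul']
      calc z3 (σ ^ m, σ ^ n) * F m * σ ^ m • F n * z3 (σ ^ (m + n), σ)
          = (z3 (σ ^ (m + n), σ) * z3 (σ ^ m, σ ^ n)) * (F m * σ ^ m • F n) := by
            rw [mul_comm (z3 (σ ^ (m + n), σ))]
            simp only [mul_assoc, mul_comm, mul_left_comm]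
        _ = _ := by
            rw [e3]
            simp only [mul_assoc, mul_comm, mul_left_comm]
  have hFp : ∀ m, F (p + m) = F p * F m := by
    intro m
    rw [hF, hz3l' _ _ chi_sigma_pow_p, one_mul, hFinv m _ chi_sigma_pow_p]
  have haσ : σ • F p = F p := by
    have h1 := hF 1 p
    rw [hz3r' _ _ chi_sigma_pow_p, one_mul, add_comm, hFp, pow_one, mul_comm] at h1
    exact (mul_left_cancel h1).symm
  have ha : ∀ g : G, g • F p = F p := by
    intro g
    have h1 : ∀ i : ℕ, σ ^ i • F p = F p := by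
      intro i
      induction i with
      | zero => rw [pow_zero, one_smul]
      | succ i ih => rw [pow_succ, mul_smul, haσ, ih]
    have h2 : g = σ ^ ix χ g * ((σ ^ ix χ g)⁻¹ * g) := by rw [mul_inv_cancel_left]
    rw [h2, mul_smul, hFinv _ _ (chi_sec hσ g), h1]
  let f3 : G → A := fun g => F (ix χ g)
  have hf3l : IsLC₁ L f3 := (isLC₁_ix hχ).comp F
  have hz4 : z3 * mdiff f3 = cyc χ (F p) := by
    ext ⟨g, h⟩
    rw [Pi.mul_apply, mdiff_apply, hz3ix]
    simp only [f3, cyc]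
    have e1 : g • F (ix χ h) = σ ^ ix χ g • F (ix χ h) := by
      have h2 : g = σ ^ ix χ g * ((σ ^ ix χ g)⁻¹ * g) := by rw [mul_inv_cancel_left]
      conv_lhs => rw [h2]
      rw [mul_smul, hFinv _ _ (chi_sec hσ g)]
    rw [e1, mul_comm (σ ^ ix χ g • F (ix χ h)), mul_div_assoc', ← mul_assoc, ← hF, ix_mul]
    split_ifs with hc
    · obtain ⟨k, hk⟩ := Nat.exists_eq_add_of_le hc
      rw [hk, Nat.add_sub_cancel_left, hFp, mul_div_cancel_right]
    · rw [div_self']
  refine ⟨F p, ha, w' * f⁻¹ * f2 * f3⁻¹, ?_, ?_⟩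
  · exact (((hw'l.prod hfl).prod hf2l).prod hf3l).comp
      fun t : ((A × A) × A) × A => t.1.1.1 * t.1.1.2⁻¹ * t.1.2 * t.2⁻¹
  · rw [← hz4, mdiff_mul, mdiff_mul, mdiff_mul, mdiff_inv, mdiff_inv, hz3, hz2, hz1]
    ext x
    simp only [Pi.mul_apply, Pi.div_apply, Pi.inv_apply]
    generalize z x = a
    generalize mdiff w' x = b
    generalize mdiff f x = c
    generalize mdiff f2 x = d
    generalize mdiff f3 x = e
    simp only [div_eq_mul_inv]
    have : a * b⁻¹ * c * d⁻¹ * e * (b * c⁻¹ * d * e⁻¹) =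
        a * (b⁻¹ * b) * (c * c⁻¹) * (d⁻¹ * d) * (e * e⁻¹) := by
      simp only [mul_assoc, mul_comm, mul_left_comm]
    rw [this, inv_mul_cancel, inv_mul_cancel, mul_inv_cancel, mul_inv_cancel]
    simp only [mul_one]

end Cyc

end Fermat.Agent.CFT.Hasse
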