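import Mathlib
import Fermat.Agent.CFT.Hasse.Cyclic

/-!
# Hilbert 90 for level-constant cocycles
-/

set_option autoImplicit false

namespace Fermat.Agent.CFT.Hasse

open Fermat.Agent.CFT.LC Fermat.Agent.CFT.D3 IntermediateField

variable {k Ω : Type*} [Field k] [Field Ω] [Algebra k Ω]

/-- Hilbert 90 in the presence of a finite normal subextension trivialising the cocycle. -/
theorem exists_coboundary {H : Type*} [Group H] (j : H →* (Ω ≃ₐ[k] Ω)) (V : Subgroup H)
    (E : IntermediateField k Ω) [FiniteDimensional k E] [Normal k E] (f : V → Ωˣ)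
    (hf : ∀ v w : V, f (v * w) = f v * j v • f w)
    (hE : ∀ v s : V, (∀ x ∈ E, j s x = x) → f (v * s) = f v) :
    ∃ y : Ωˣ, ∀ v : V, f v = j v • y / y := by
  classical
  let h : V →* (E ≃ₐ[k] E) := (AlgEquiv.restrictNormalHom E).comp (j.comp V.subtype)
  have hh : ∀ (v : V) (x : E), ((h v x : E) : Ω) = j v x := fun v x =>
    AlgEquiv.restrictNormal_commutes (j v) E x
  let R := h.range
  have : Finite R := inferInstance
  have : Fintype R := Fintype.ofFinite R
  have ht : ∀ ρ : R, ∃ v : V, h v = ρ := fun ρ => ρ.2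
  choose t ht using ht
  have hfac : ∀ v w : V, h v = h w → f v = f w := by
    intro v w hvw
    have h1 : v = w * (w⁻¹ * v) := by group
    rw [h1]
    apply hE
    intro x hx
    have h2 : h (w⁻¹ * v) = 1 := by rw [map_mul, map_inv, hvw, inv_mul_cancel]
    have h3 := hh (w⁻¹ * v) ⟨x, hx⟩
    rw [h2] at h3
    exact h3.symm
  let F : R → Ωˣ := fun ρ => f (t ρ)
  have hF : ∀ v : V, f v = F ⟨h v, ⟨v, rfl⟩⟩ := fun v =>
    hfac v (t ⟨h v, ⟨v, rfl⟩⟩) (ht ⟨h v, ⟨v, rfl⟩⟩).symm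
  -- independence of characters
  let ev : R → (E →* Ω) := fun ρ => (algebraMap E Ω : E →* Ω).comp ((ρ : E ≃ₐ[k] E) : E →* E)
  have hev : Function.Injective ev := by
    intro ρ ρ' h1
    apply Subtype.ext
    ext x
    exact congrArg (fun e : E →* Ω => e x) h1
  have hli := (linearIndependent_monoidHom E Ω).comp ev hev
  rw [Fintype.linearIndependent_iff] at hli
  have hne : ∑ ρ : R, (F ρ : Ω) • ((fun e : E →* Ω => (e : E → Ω)) ∘ ev) ρ ≠ 0 := by
    intro h0
    exact (F 1).ne_zero (hli (fun ρ => (F ρ : Ω)) h0 1)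
  obtain ⟨c, hc⟩ : ∃ c : E, ∑ ρ : R, (F ρ : Ω) * ((ρ : E ≃ₐ[k] E) c : E) ≠ 0 := by
    by_contra hcon
    push Not at hcon
    apply hne
    ext x
    rw [Finset.sum_apply]
    exact hcon x
  set b : Ω := ∑ ρ : R, (F ρ : Ω) * ((ρ : E ≃ₐ[k] E) c : E) with hb
  have hvb : ∀ v : V, (f v : Ω) * j v b = b := by
    intro v
    rw [hb, map_sum, Finset.mul_sum]
    refine Fintype.sum_equiv (Equiv.mulLeft (⟨h v, ⟨v, rfl⟩⟩ : R)) _ _ fun ρ => ?_
    rw [map_mul, ← mul_assoc, Equiv.coe_mulLeft]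
    congr 1
    · have h1 : F (⟨h v, ⟨v, rfl⟩⟩ * ρ) = f (v * t ρ) := by
        have h2 := hF (v * t ρ)
        rw [h2]
        congr 1
        apply Subtype.ext
        show h v * (ρ : E ≃ₐ[k] E) = h (v * t ρ)
        rw [map_mul, ht]
      rw [h1, hf]
      rfl
    · rw [← hh]
      rfl
  refine ⟨(Units.mk0 b hc)⁻¹, fun v => ?_⟩
  have h1 : f v * j v • Units.mk0 b hc = Units.mk0 b hc := Units.ext (hvb v)
  rw [smul_inv', div_inv_eq_mul, mul_comm, ← div_eq_mul_inv, eq_div_iff_mul_eq', mul_comm,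
    mul_comm]
  exact h1

/-- Hilbert 90 for level-constant cocycles, for a group `H` acting on `Ωˣ` through
`j : H →* Gal(Ω/k)`. -/
theorem h90_of_hom [Normal k Ω] {H : Type*} [Group H] [MulDistribMulAction H Ωˣ]
    (j : H →* (Ω ≃ₐ[k] Ω)) (hj : ∀ (h : H) (x : Ωˣ), h • x = j h • x) (L : Lvl H)
    (hL : ∀ N ∈ L.levels, ∃ E : IntermediateField k Ω, FiniteDimensional k E ∧
      E.fixingSubgroup.comap j ≤ N) (V : Subgroup H) : H90 L V Ωˣ := by
  intro f hf ⟨_, ⟨N, hN, rfl⟩, h1⟩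
  obtain ⟨E0, hE0, hle⟩ := hL N hN
  let E : IntermediateField k Ω := IntermediateField.normalClosure k E0 Ω
  have hE0E : E0 ≤ E := IntermediateField.le_normalClosure E0
  have : FiniteDimensional k E := normalClosure.is_finiteDimensional k E0 Ω
  have : Normal k E := normalClosure.normal k E0 Ω
  obtain ⟨y, hy⟩ := exists_coboundary j V E f (fun v w => by rw [hf, hj]) (fun v s hs => by
    apply h1
    refine hle ?_
    rw [Subgroup.mem_comap, IntermediateField.mem_fixingSubgroup_iff]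
    exact fun x hx => hs x (hE0E hx))
  exact ⟨y, fun v => by rw [hy, hj]⟩

/-- Hilbert 90 for subgroups of the Galois group. -/
theorem h90_gal [Normal k Ω] (L : Lvl (Ω ≃ₐ[k] Ω))
    (hL : ∀ N ∈ L.levels, ∃ E : IntermediateField k Ω, FiniteDimensional k E ∧
      E.fixingSubgroup ≤ N) (V : Subgroup (Ω ≃ₐ[k] Ω)) : H90 L V Ωˣ :=
  h90_of_hom (MonoidHom.id _) (fun _ _ => rfl) L hL V

/-- Hilbert 90 for subgroups of a subgroup `U` of `H`. -/
theorem h90_restrict [Normal k Ω] {H : Type*} [Group H] [MulDistribMulAction H Ωˣ]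
    (j : H →* (Ω ≃ₐ[k] Ω)) (hj : ∀ (h : H) (x : Ωˣ), h • x = j h • x) (L : Lvl H)
    (hL : ∀ N ∈ L.levels, ∃ E : IntermediateField k Ω, FiniteDimensional k E ∧
      E.fixingSubgroup.comap j ≤ N) (U : Subgroup H) (V : Subgroup U) :
    H90 (L.restrict U) V Ωˣ := by
  refine h90_of_hom (j.comp U.subtype) (fun h x => hj h x) (L.restrict U) ?_ V
  rintro _ ⟨N, hN, rfl⟩
  obtain ⟨E, hE, hle⟩ := hL N hN
  exact ⟨E, hE, fun x hx => hle hx⟩

end Fermat.Agent.CFT.Hasse
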