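import Mathlib
import Fermat.Agent.CFT.Hasse.Cyclic
import Fermat.Agent.CFT.LC.Map
import Fermat.Agent.CFT.PT.Defs

/-!
# The `μ_p`-coefficients inside a divisible module
-/

set_option autoImplicit false
set_option linter.unusedSectionVars false

namespace Fermat.Agent.CFT.Hasse

open Fermat.Agent.CFT.LC Fermat.Agent.CFT.D3 Fermat.Agent.CFT.PT

/-- `ζ ^ c` for `c : ZMod p` -/
def zp {A : Type*} [CommGroup A] {p : ℕ} (ζ : A) (c : ZMod p) : A := ζ ^ c.val

/-- A Kummer datum: a divisible smooth `G`-module `A` with `A[p] = ⟨ζ⟩ ≅ μ(χ)`. -/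
structure KData (p : ℕ) {G : Type*} [Group G] (L : Lvl G) (χc : G →* (ZMod p)ˣ) (A : Type*)
    [CommGroup A] [MulDistribMulAction G A] (ζ : A) : Prop where
  pow : ζ ^ p = 1
  inj : ∀ c : ZMod p, zp ζ c = 1 → c = 0
  tors : ∀ x : A, x ^ p = 1 → ∃ c : ZMod p, zp ζ c = x
  act : ∀ g : G, g • ζ = zp ζ (χc g : ZMod p)
  div : ∀ x : A, ∃ y : A, y ^ p = x
  sm : ∀ x : A, SmoothEl L x

section ZP

variable {A : Type*} [CommGroup A] {p : ℕ} [hp : Fact p.Prime] {ζ : A} (h : ζ ^ p = 1)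

local instance : NeZero p := ⟨hp.out.ne_zero⟩

include h in
theorem zp_natCast (n : ℕ) : zp ζ (n : ZMod p) = ζ ^ n := by
  unfold zp
  rw [ZMod.val_natCast, ← pow_eq_pow_mod n h]

theorem zp_zero : zp ζ (0 : ZMod p) = 1 := by
  unfold zp
  rw [ZMod.val_zero, pow_zero]

include h in
theorem zp_add (a b : ZMod p) : zp ζ (a + b) = zp ζ a * zp ζ b := by
  unfold zp
  rw [ZMod.val_add, ← pow_eq_pow_mod _ h, pow_add]

include h in
theorem zp_neg (a : ZMod p) : zp ζ (-a) = (zp ζ a)⁻¹ := by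
  rw [eq_inv_iff_mul_eq_one, ← zp_add h, neg_add_cancel, zp_zero]

include h in
theorem zp_sub (a b : ZMod p) : zp ζ (a - b) = zp ζ a / zp ζ b := by
  rw [sub_eq_add_neg, zp_add h, zp_neg h, div_eq_mul_inv]

include h in
theorem zp_mul (a b : ZMod p) : zp ζ (a * b) = zp ζ b ^ a.val := by
  unfold zp
  rw [ZMod.val_mul, ← pow_eq_pow_mod _ h, ← pow_mul, mul_comm]

include h in
theorem zp_pow (c : ZMod p) : zp ζ c ^ p = 1 := by
  unfold zp
  rw [← pow_mul, mul_comm, pow_mul, h, one_pow]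

theorem map_zp {B : Type*} [CommGroup B] (φ : A →* B) (c : ZMod p) : φ (zp ζ c) = zp (φ ζ) c := by
  unfold zp
  rw [map_pow]

end ZP

namespace KData

variable {p : ℕ} [hp : Fact p.Prime] {G : Type*} [Group G] {L : Lvl G} {χc : G →* (ZMod p)ˣ}
  {A : Type*} [CommGroup A] [MulDistribMulAction G A] {ζ : A} (K : KData p L χc A ζ)

include K in
theorem zp_injective : Function.Injective (zp (p := p) ζ) := by
  intro a b hab
  have h1 : zp ζ (a - b) = 1 := by rw [zp_sub K.pow, hab, div_self']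
  exact sub_eq_zero.mp (K.inj _ h1)

include K in
theorem smul_zp (g : G) (c : ZMod p) : g • zp ζ c = zp ζ ((χc g : ZMod p) * c) := by
  rw [mul_comm, zp_mul K.pow]
  show g • ζ ^ c.val = _
  rw [smul_pow', K.act]

/-- restriction of a Kummer datum along a homomorphism -/
theorem restrict {H : Type*} [Group H] (f : H →* G) (LH : Lvl H)
    (hf : LH.Cont L f) (χ' : H →* (ZMod p)ˣ)
    (hχ' : ∀ h, χ' h = χc (f h)) [MulDistribMulAction H A] (hact : ∀ (h : H) (x : A), h • x = f h • x)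
    (K : KData p L χc A ζ) : KData p LH χ' A ζ where
  pow := K.pow
  inj := K.inj
  tors := K.tors
  act h := by rw [hact, K.act, hχ']
  div := K.div
  sm x := by
    obtain ⟨N, hN, h1⟩ := K.sm x
    obtain ⟨N', hN', h2⟩ := hf N hN
    exact ⟨N', hN', fun s hs => by rw [hact]; exact h1 _ (h2 hs)⟩

include K in
/-- the multiplicative cocycle attached to an additive one -/
theorem isCoc_zp {z : G × G → ZMod p}
    (hz : ∀ g h j, z (g * h, j) + z (g, h) = (χc g : ZMod p) * z (h, j) + z (g, h * j)) :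
    IsCoc (A := A) (fun x => zp ζ (z x)) := by
  intro g h j
  simp only [K.smul_zp, ← zp_add K.pow, hz]

include K in
theorem zp_d1 (w : G → ZMod p) (g h : G) :
    zp ζ ((χc g : ZMod p) * w h - w (g * h) + w g) = mdiff (fun g => zp ζ (w g)) (g, h) := by
  rw [mdiff_apply, K.smul_zp, zp_add K.pow, zp_sub K.pow, div_mul_eq_mul_div]

include K in
/-- Injectivity of `H²(G, μ) → H²(G, A)`. -/
theorem exists_cob (h90 : H90 L ⊤ A) {z : G × G → ZMod p} {f : G → A} (hf : IsLC₁ L f)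
    (h : ∀ x, zp ζ (z x) = mdiff f x) :
    ∃ w : G → ZMod p, IsLC₁ L w ∧
      ∀ g h, z (g, h) = (χc g : ZMod p) * w h - w (g * h) + w g := by
  classical
  have h1 : ∀ g h, f (g * h) ^ p = f g ^ p * g • f h ^ p := by
    intro g h'
    have h2 := congrArg (· ^ p) (h (g, h'))
    simp only [zp_pow K.pow, mdiff_apply, div_pow, mul_pow] at h2
    rw [eq_comm, div_eq_one] at h2
    rw [← h2, mul_comm, smul_pow']
  obtain ⟨y, hy⟩ := h90 (fun g => f g ^ p) (fun v w => h1 v w)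
    ((isLC₁_restrict hf ⊤).comp fun t => t ^ p)
  obtain ⟨x, rfl⟩ := K.div y
  set f' : G → A := fun g => f g / (g • x / x) with hf'
  have hf'p : ∀ g, f' g ^ p = 1 := by
    intro g
    have := hy ⟨g, Subgroup.mem_top g⟩
    simp only at this
    rw [hf', div_pow, this, div_pow, smul_pow', div_self']
  have hf'l : IsLC₁ L f' := (hf.prod (isLC₁_coboundary K.sm x)).comp fun t => t.1 / t.2
  choose c hc using fun x : {x : A // x ^ p = 1} => K.tors x x.2
  refine ⟨fun g => c ⟨f' g, hf'p g⟩, ?_, ?_⟩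
  · obtain ⟨N, hN, h2⟩ := hf'l
    refine ⟨N, hN, fun g s hs => ?_⟩
    have h3 : (⟨f' (g * s), hf'p (g * s)⟩ : {x : A // x ^ p = 1}) = ⟨f' g, hf'p g⟩ :=
      Subtype.ext (h2 g s hs)
    exact congrArg c h3
  · intro g h'
    apply K.zp_injective
    rw [K.zp_d1 (fun g => c ⟨f' g, hf'p g⟩), h]
    have h2 : (fun g => zp ζ (c ⟨f' g, hf'p g⟩)) = f' := funext fun g => hc _
    rw [h2]
    have h3 : f' = f / (fun g => g • x / x) := rfl
    rw [h3, mdiff_div, mdiff_coboundary, div_one]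

include K in
/-- A `p`-torsion multiplicative cocycle comes from `μ`. -/
theorem exists_z2 {u : G × G → A} (hu : IsCoc u) (hul : IsLC₂ L u) (hup : ∀ x, u x ^ p = 1) :
    ∃ z : G × G → ZMod p, IsLC₂ L z ∧ (∀ x, zp ζ (z x) = u x) ∧
      ∀ g h j, z (g * h, j) + z (g, h) = (χc g : ZMod p) * z (h, j) + z (g, h * j) := by
  classical
  choose c hc using fun x : {x : A // x ^ p = 1} => K.tors x x.2
  refine ⟨fun x => c ⟨u x, hup x⟩, ?_, fun x => hc _, ?_⟩
  · obtain ⟨N, hN, h2⟩ := hul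
    refine ⟨N, hN, fun g g' s hs s' hs' => ?_⟩
    have h3 : (⟨u (g * s, g' * s'), hup _⟩ : {x : A // x ^ p = 1}) = ⟨u (g, g'), hup _⟩ :=
      Subtype.ext (h2 g g' s hs s' hs')
    exact congrArg c h3
  · intro g h j
    apply K.zp_injective
    rw [zp_add K.pow, zp_add K.pow, ← K.smul_zp, hc, hc, hc, hc]
    exact hu g h j

include K in
/-- Every cyclic class comes from `μ`. -/
theorem exists_z2_cyc {θ : G →* Multiplicative (ZMod p)} (hθ : L.IsOpen θ.ker) {a : A}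
    (ha : ∀ g : G, g • a = a) :
    ∃ z : G × G → ZMod p, IsLC₂ L z ∧
      (∀ g h j, z (g * h, j) + z (g, h) = (χc g : ZMod p) * z (h, j) + z (g, h * j)) ∧
      ∃ f : G → A, IsLC₁ L f ∧ ∀ x, zp ζ (z x) = cyc θ a x * mdiff f x := by
  obtain ⟨α, hα⟩ := K.div a
  let f : G → A := fun g => ((g • α) ^ ix θ g)⁻¹
  have hfl : IsLC₁ L f := ((K.sm α).isLC₁.prod (isLC₁_ix hθ)).comp fun t => (t.1 ^ t.2)⁻¹
  have hcoc : IsCoc (cyc θ a * mdiff f) := (isCoc_cyc ha).mul (isCoc_mdiff f)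
  have hlc : IsLC₂ L (cyc θ a * mdiff f) :=
    ((isLC₂_cyc hθ a).prod (isLC₂_mdiff hfl fun g => K.sm _)).comp fun t : A × A => t.1 * t.2
  have hp1 : ∀ x, (cyc θ a * mdiff f) x ^ p = 1 := by
    have h1 : mdiff f ^ p = (cyc θ a ^ p)⁻¹ := by
      rw [← mdiff_pow_ix θ ha, ← mdiff_pow, ← mdiff_inv]
      congr 1
      ext g
      simp only [f, Pi.pow_apply, Pi.inv_apply, inv_pow]
      rw [← pow_mul, mul_comm (ix θ g), pow_mul, ← smul_pow', hα, ha]
    intro x
    have h2 : ((cyc θ a * mdiff f) ^ p) x = 1 := by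
      rw [mul_pow, h1, mul_inv_cancel, Pi.one_apply]
    exact h2
  obtain ⟨z, hz1, hz2, hz3⟩ := K.exists_z2 hcoc hlc hp1
  exact ⟨z, hz1, hz3, f, hfl, fun x => by rw [hz2]; rfl⟩

end KData

end Fermat.Agent.CFT.Hasse
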