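import Mathlib
import Fermat.Agent.CFT.Hasse.Mu
import Fermat.Agent.CFT.LC.Tools

/-!
# The Hasse principle for `H²(U, μ_p)`: abstract form

From the Hasse norm principle for cyclic extensions of degree `p` we deduce that a class in
`H²(U, μ_p)` (`U` open) which is locally trivial everywhere is trivial.
-/

set_option autoImplicit false
set_option linter.unusedSectionVars false

namespace Fermat.Agent.CFT.Hasse

open Fermat.Agent.CFT.LC Fermat.Agent.CFT.D3 Fermat.Agent.CFT.PT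

section Defs

variable {p : ℕ} {G : Type*} [Group G]

/-- `z` restricted to `U` is a level-constant 2-cocycle with values in `μ(χc)` -/
def CocOn (L : Lvl G) (χc : G →* (ZMod p)ˣ) (U : Subgroup G) (z : G × G → ZMod p) : Prop :=
  IsLC₂ (L.restrict U) (fun x : U × U => z (x.1, x.2)) ∧
  ∀ g ∈ U, ∀ h ∈ U, ∀ j ∈ U, z (g * h, j) + z (g, h) = (χc g : ZMod p) * z (h, j) + z (g, h * j)

/-- `z` restricted to `U` is the coboundary of a level-constant 1-cochain. -/
def CobOn (L : Lvl G) (χc : G →* (ZMod p)ˣ) (U : Subgroup G) (z : G × G → ZMod p) : Prop :=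
  ∃ w : U → ZMod p, IsLC₁ (L.restrict U) w ∧
    ∀ g h : U, z (g, h) = (χc g : ZMod p) * w h - w (g * h) + w g

variable {L : Lvl G} {χc : G →* (ZMod p)ˣ} {U V : Subgroup G} {z : G × G → ZMod p}

theorem cont_inclusion (h : V ≤ U) : (L.restrict V).Cont (L.restrict U) (Subgroup.inclusion h) := by
  rintro _ ⟨N, hN, rfl⟩
  exact ⟨_, ⟨N, hN, rfl⟩, fun x hx => hx⟩

theorem CocOn.mono (hz : CocOn L χc U z) (h : V ≤ U) : CocOn L χc V z :=
  ⟨hz.1.pullback (cont_inclusion h), fun g hg k hk j hj => hz.2 g (h hg) k (h hk) j (h hj)⟩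

theorem CobOn.mono (hz : CobOn L χc U z) (h : V ≤ U) : CobOn L χc V z := by
  obtain ⟨w, hw, h1⟩ := hz
  exact ⟨w ∘ Subgroup.inclusion h, hw.pullback (cont_inclusion h),
    fun g k => h1 (Subgroup.inclusion h g) (Subgroup.inclusion h k)⟩

end Defs

section Local

variable {p : ℕ} {G : Type*} [Group G] {A : Type*} [CommGroup A] [MulDistribMulAction G A]
  {I : Type*} {Γ : I → Type*} [∀ i, Group (Γ i)] {B : I → Type*} [∀ i, CommGroup (B i)]
  [∀ i, MulDistribMulAction (Γ i) (B i)]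

/-- local triviality -/
def LocTriv (LΓ : ∀ i, Lvl (Γ i)) (r : ∀ i, Γ i →* G) (χc : G →* (ZMod p)ˣ) (U : Subgroup G)
    (z : G × G → ZMod p) : Prop :=
  ∀ i, CobOn (LΓ i) (χc.comp (r i)) (U.comap (r i)) (fun x => z (r i x.1, r i x.2))

theorem LocTriv.mono {LΓ : ∀ i, Lvl (Γ i)} {r : ∀ i, Γ i →* G} {χc : G →* (ZMod p)ˣ}
    {U V : Subgroup G} {z : G × G → ZMod p} (hz : LocTriv LΓ r χc U z) (h : V ≤ U) :
    LocTriv LΓ r χc V z :=
  fun i => (hz i).mono (Subgroup.comap_mono h)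

/-- The Hasse norm principle for a cyclic "extension" `(U, ker θ)` of degree `p`. -/
def HasseNormAt (p : ℕ) (A : Type*) [CommGroup A] [MulDistribMulAction G A] (r : ∀ i, Γ i →* G)
    (ι : ∀ i, A →* B i) (U : Subgroup G) (θ : U →* Multiplicative (ZMod p)) : Prop :=
  ∀ σ : U, θ σ = Multiplicative.ofAdd 1 → ∀ a : A, (∀ g : U, (g : G) • a = a) →
    (∀ i, ∀ (s : Γ i) (hs : r i s ∈ U), θ ⟨r i s, hs⟩ = Multiplicative.ofAdd 1 →
      ∃ b : B i, (∀ (v : Γ i) (hv : r i v ∈ U), θ ⟨r i v, hv⟩ = 1 → v • b = b) ∧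
        ι i a = ∏ j ∈ Finset.range p, s ^ j • b) →
    ∃ b : A, (∀ v : U, θ v = 1 → (v : G) • b = b) ∧ a = ∏ j ∈ Finset.range p, (σ : G) ^ j • b

end Local

section GroupTheory

variable {p : ℕ} [hp : Fact p.Prime] {G : Type*} [Group G]

theorem exists_index_p (N U : Subgroup G) [hN : N.Normal] (h : N ≤ U) {k : ℕ}
    (hidx : N.relIndex U = p ^ (k + 1)) :
    ∃ V : Subgroup G, N ≤ V ∧ V ≤ U ∧ (V.subgroupOf U).Normal ∧ (V.subgroupOf U).index = p ∧
      N.relIndex V = p ^ k := by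
  have hcard : Nat.card (U ⧸ N.subgroupOf U) = p ^ (k + 1) := hidx
  have hfin : Finite (U ⧸ N.subgroupOf U) :=
    Nat.finite_of_card_ne_zero (by rw [hcard]; exact pow_ne_zero _ hp.out.ne_zero)
  obtain ⟨K0, hK0⟩ := Sylow.exists_subgroup_card_pow_prime (G := U ⧸ N.subgroupOf U) p (n := k)
    (by rw [hcard, pow_succ]; exact Dvd.intro _ rfl)
  have hidx0 : K0.index = p := by
    have h1 := K0.card_mul_index
    rw [hK0, hcard, pow_succ] at h1
    exact Nat.eq_of_mul_eq_mul_left (pow_pos hp.out.pos k) h1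
  have hK0n : K0.Normal := by
    apply Subgroup.normal_of_index_eq_minFac_card
    rw [hidx0, hcard, Nat.Prime.pow_minFac hp.out (Nat.succ_ne_zero k)]
  set V' : Subgroup U := K0.comap (QuotientGroup.mk' _) with hV'
  have hV'i : V'.index = p := by
    rw [hV', Subgroup.index_comap_of_surjective _ (QuotientGroup.mk'_surjective _), hidx0]
  have hNV' : N.subgroupOf U ≤ V' := by
    intro x hx
    rw [hV', Subgroup.mem_comap]
    have : QuotientGroup.mk' (N.subgroupOf U) x = 1 := (QuotientGroup.eq_one_iff x).mpr hx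
    rw [this]
    exact K0.one_mem
  have hsub : (V'.map U.subtype).subgroupOf U = V' := by
    rw [Subgroup.subgroupOf, Subgroup.comap_map_eq_self_of_injective U.subtype_injective]
  have hVU : V'.map U.subtype ≤ U := by
    rintro _ ⟨x, -, rfl⟩
    exact x.2
  have hNV : N ≤ V'.map U.subtype := fun x hx => ⟨⟨x, h hx⟩, hNV' hx, rfl⟩
  refine ⟨V'.map U.subtype, hNV, hVU, ?_, ?_, ?_⟩
  · rw [hsub]
    exact hK0n.comap _
  · rw [hsub, hV'i]
  · have h1 := Subgroup.relIndex_mul_relIndex N (V'.map U.subtype) U hNV hVU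
    have h2 : (V'.map U.subtype).relIndex U = p := by
      rw [Subgroup.relIndex, hsub, hV'i]
    rw [h2, hidx, pow_succ] at h1
    exact Nat.eq_of_mul_eq_mul_right hp.out.pos h1

theorem exists_sylow_between (N U : Subgroup G) [hN : N.Normal] (h : N ≤ U)
    (hidx : N.relIndex U ≠ 0) :
    ∃ P : Subgroup G, N ≤ P ∧ P ≤ U ∧ (∃ k, N.relIndex P = p ^ k) ∧ ¬ p ∣ P.relIndex U := by
  have hfin : Finite (U ⧸ N.subgroupOf U) := Nat.finite_of_card_ne_zero hidx
  set n := Nat.card (U ⧸ N.subgroupOf U) with hn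
  have hn0 : n ≠ 0 := hidx
  obtain ⟨K0, hK0⟩ := Sylow.exists_subgroup_card_pow_prime (G := U ⧸ N.subgroupOf U) p
    (n := n.factorization p) (Nat.ordProj_dvd n p)
  have hidx0 : ¬ p ∣ K0.index := by
    have h1 := K0.card_mul_index
    rw [hK0, ← hn] at h1
    have h2 : K0.index = n / p ^ n.factorization p :=
      (Nat.div_eq_of_eq_mul_right (pow_pos hp.out.pos _) h1.symm).symm
    rw [h2]
    exact Nat.not_dvd_ordCompl hp.out hn0
  set V' : Subgroup U := K0.comap (QuotientGroup.mk' _) with hV'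
  have hV'i : V'.index = K0.index := by
    rw [hV', Subgroup.index_comap_of_surjective _ (QuotientGroup.mk'_surjective _)]
  have hNV' : N.subgroupOf U ≤ V' := by
    intro x hx
    rw [hV', Subgroup.mem_comap]
    have : QuotientGroup.mk' (N.subgroupOf U) x = 1 := (QuotientGroup.eq_one_iff x).mpr hx
    rw [this]
    exact K0.one_mem
  have hsub : (V'.map U.subtype).subgroupOf U = V' := by
    rw [Subgroup.subgroupOf, Subgroup.comap_map_eq_self_of_injective U.subtype_injective]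
  have hVU : V'.map U.subtype ≤ U := by
    rintro _ ⟨x, -, rfl⟩
    exact x.2
  have hNV : N ≤ V'.map U.subtype := fun x hx => ⟨⟨x, h hx⟩, hNV' hx, rfl⟩
  have h2 : (V'.map U.subtype).relIndex U = K0.index := by
    rw [Subgroup.relIndex, hsub, hV'i]
  refine ⟨V'.map U.subtype, hNV, hVU, ⟨n.factorization p, ?_⟩, by rwa [h2]⟩
  have h1 := Subgroup.relIndex_mul_relIndex N (V'.map U.subtype) U hNV hVU
  rw [h2] at h1
  have h3 := K0.card_mul_index
  rw [hK0] at h3
  have h4 : N.relIndex U = n := rfl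
  rw [h4, hn, ← h3] at h1
  exact Nat.eq_of_mul_eq_mul_right (Nat.pos_of_ne_zero K0.index_ne_zero_of_finite) h1

end GroupTheory

section Main

variable {p : ℕ} [hp : Fact p.Prime] {G : Type*} [Group G] {L : Lvl G} {χc : G →* (ZMod p)ˣ}
  {A : Type*} [CommGroup A] [MulDistribMulAction G A] {ζ : A} (K : KData p L χc A ζ)
  (h90 : ∀ (U : Subgroup G) (V : Subgroup U), H90 (L.restrict U) V A)
  {I : Type*} {Γ : I → Type*} [∀ i, Group (Γ i)] {B : I → Type*} [∀ i, CommGroup (B i)]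
  [∀ i, MulDistribMulAction (Γ i) (B i)] (LΓ : ∀ i, Lvl (Γ i)) (r : ∀ i, Γ i →* G)
  (hr : ∀ i, (LΓ i).Cont L (r i)) (ι : ∀ i, A →* B i)
  (hι : ∀ i (γ : Γ i) (x : A), ι i (r i γ • x) = γ • ι i x)
  (h90B : ∀ i (U : Subgroup (Γ i)) (V : Subgroup U), H90 ((LΓ i).restrict U) V (B i))

include K in
theorem kdata_restrict (U : Subgroup G) : KData p (L.restrict U) (χc.comp U.subtype) A ζ :=
  K.restrict U.subtype (L.restrict U) (L.cont_comap U.subtype) (χc.comp U.subtype) (fun _ => rfl)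
    (fun _ _ => rfl)

include K h90 hr hι h90B in
/-- The main step: from a cyclic subextension of degree `p` to the whole group. -/
theorem main_step {U : Subgroup G} (θ : U →* Multiplicative (ZMod p))
    (hθo : (L.restrict U).IsOpen θ.ker) (σ : U) (hσ : θ σ = Multiplicative.ofAdd 1)
    (hasse : HasseNormAt p A r ι U θ) {z : G × G → ZMod p} (hz : CocOn L χc U z)
    (hloc : LocTriv LΓ r χc U z)
    (hV : ∃ w : θ.ker → ZMod p, IsLC₁ ((L.restrict U).restrict θ.ker) w ∧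
      ∀ g h : θ.ker, z ((g : U), (h : U)) = (χc (g : U) : ZMod p) * w h - w (g * h) + w g) :
    CobOn L χc U z := by
  have KU := kdata_restrict K U
  -- the multiplicative cocycle
  set u : U × U → A := fun x => zp ζ (z (x.1, x.2)) with hu
  have huc : IsCoc u := KU.isCoc_zp (z := fun x : U × U => z (x.1, x.2))
    fun g h j => hz.2 g g.2 h h.2 j j.2
  have hul : IsLC₂ (L.restrict U) u := hz.1.comp (zp ζ)
  obtain ⟨w, hwl, hw⟩ := hV
  obtain ⟨a, ha, f, hfl, hf⟩ := exists_eq_cyc_mul_mdiff (L := L.restrict U) (χ := θ) (σ := σ)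
    KU.sm hθo hσ (h90 U θ.ker) huc hul (w := fun v => zp ζ (w v)) (hwl.comp (zp ζ)) (by
      intro v v'
      show zp ζ (z ((v : U), (v' : U))) = _
      have e : (v : U) • zp ζ (w v') = zp ζ ((χc (v : U) : ZMod p) * w v') :=
        KU.smul_zp (v : U) (w v')
      rw [hw, zp_add K.pow, zp_sub K.pow, e, div_mul_eq_mul_div])
  -- `a` is a local norm everywhere
  have hnorm : ∀ i, ∀ (s : Γ i) (hs : r i s ∈ U), θ ⟨r i s, hs⟩ = Multiplicative.ofAdd 1 →
      ∃ b : B i, (∀ (v : Γ i) (hv : r i v ∈ U), θ ⟨r i v, hv⟩ = 1 → v • b = b) ∧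
        ι i a = ∏ j ∈ Finset.range p, s ^ j • b := by
    intro i s hs hθs
    obtain ⟨w', hw'l, hw'⟩ := hloc i
    let ρ : U.comap (r i) →* U := (r i).subgroupComap U
    have hρ : ((LΓ i).restrict (U.comap (r i))).Cont (L.restrict U) ρ := by
      rintro _ ⟨N, hN, rfl⟩
      obtain ⟨N', hN', hle⟩ := hr i N hN
      exact ⟨_, ⟨N', hN', rfl⟩, fun x hx => hle hx⟩
    let θ' : U.comap (r i) →* Multiplicative (ZMod p) := θ.comp ρ
    have hact : ∀ (x : U.comap (r i)) (y : A), ι i ((ρ x : U) • y) = x • ι i y :=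
      fun x y => hι i x y
    have hzp : ∀ (x : U.comap (r i)) (c : ZMod p),
        x • zp (ι i ζ) c = zp (ι i ζ) ((χc (r i x) : ZMod p) * c) := by
      intro x c
      rw [← map_zp (ι i), ← hact, KU.smul_zp, map_zp]
      rfl
    have hpow : (ι i ζ) ^ p = 1 := by rw [← map_pow, K.pow, map_one]
    obtain ⟨b, hb1, hb2⟩ := norm_of_cyc_eq_mdiff (L := (LΓ i).restrict (U.comap (r i)))
      (χ := θ') (σ := ⟨s, hs⟩) hθs (h90B i _ _) (a := ι i a)
      (f := (fun x => zp (ι i ζ) (w' x)) / (fun x => ι i (f (ρ x))))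
      (((hw'l.comp (zp (ι i ζ))).prod ((hfl.pullback hρ).comp (ι i))).comp
        fun t : B i × B i => t.1 / t.2) (by
        rw [mdiff_div]
        ext ⟨x, y⟩
        have e1 : cyc θ' (ι i a) (x, y) = ι i (cyc θ a (ρ x, ρ y)) := by
          unfold cyc
          have e2 : ∀ x, ix θ' x = ix θ (ρ x) := fun x => rfl
          simp only [e2]
          split_ifs
          · rfl
          · rw [map_one]
        have e3 := congrFun hf (ρ x, ρ y)
        rw [Pi.mul_apply, ← div_eq_iff_eq_mul] at e3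
        rw [e1, ← e3, map_div, Pi.div_apply]
        congr 1
        · rw [hu]
          simp only
          rw [map_zp]
          have e4 := hw' x y
          simp only at e4
          show zp (ι i ζ) (z (r i x, r i y)) = _
          rw [e4, zp_add hpow, zp_sub hpow, mdiff_apply]
          simp only
          rw [hzp, div_mul_eq_mul_div]
          rfl
        · rw [mdiff_apply, mdiff_apply]
          simp only
          rw [map_div, map_mul, hact, map_mul])
    refine ⟨b, fun v hv hv' => hb1 ⟨v, hv⟩ hv', ?_⟩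
    rw [hb2]
    rfl
  obtain ⟨b, hb1, hb2⟩ := hasse σ hσ a ha hnorm
  have h1 : cyc θ a = mdiff (dlt θ σ b) := cyc_eq_mdiff_of_norm hσ hb1 hb2
  obtain ⟨w, hw1, hw2⟩ := KU.exists_cob (h90 U ⊤) (z := fun x : U × U => z (x.1, x.2))
    (f := dlt θ σ b * f) (((isLC₁_dlt hθo b).prod hfl).comp fun t => t.1 * t.2) (by
      intro x
      have h2 := congrFun hf x
      rw [h1] at h2
      rw [mdiff_mul]
      exact h2)
  exact ⟨w, hw1, hw2⟩

include K h90 hr hι h90B in
/-- one step of a `p`-tower -/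
theorem step_p {U V : Subgroup G} (hVo : L.IsOpen V) (_hVU : V ≤ U)
    (hn : (V.subgroupOf U).Normal) (hidx : (V.subgroupOf U).index = p)
    (hasse : ∀ θ : U →* Multiplicative (ZMod p), (L.restrict U).IsOpen θ.ker →
      HasseNormAt p A r ι U θ) {z : G × G → ZMod p} (hz : CocOn L χc U z)
    (hloc : LocTriv LΓ r χc U z) (hV : CobOn L χc V z) : CobOn L χc U z := by
  have hcard : Nat.card (U ⧸ V.subgroupOf U) = p := hidx
  let e : (U ⧸ V.subgroupOf U) ≃* Multiplicative (ZMod p) :=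
    mulEquivOfPrimeCardEq hcard (by
      rw [Nat.card_congr (Multiplicative.toAdd (α := ZMod p)), Nat.card_zmod])
  let θ : U →* Multiplicative (ZMod p) := e.toMonoidHom.comp (QuotientGroup.mk' _)
  have hker : θ.ker = V.subgroupOf U := by
    ext x
    rw [MonoidHom.mem_ker]
    show e (QuotientGroup.mk' _ x) = 1 ↔ _
    rw [map_eq_one_iff e e.injective]
    exact QuotientGroup.eq_one_iff x
  obtain ⟨σ, hσ⟩ : ∃ σ : U, θ σ = Multiplicative.ofAdd 1 := by
    obtain ⟨q, hq⟩ := e.surjective (Multiplicative.ofAdd 1)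
    obtain ⟨σ, rfl⟩ := QuotientGroup.mk'_surjective _ q
    exact ⟨σ, hq⟩
  have hθo : (L.restrict U).IsOpen θ.ker := by
    rw [hker]
    obtain ⟨N, hN, hle⟩ := hVo
    exact ⟨_, ⟨N, hN, rfl⟩, fun x hx => hle hx⟩
  refine main_step K h90 LΓ r hr ι hι h90B θ hθo σ hσ (hasse θ hθo) hz hloc ?_
  obtain ⟨w, ⟨_, ⟨N, hN, rfl⟩, hw1⟩, hw⟩ := hV
  have hmem : ∀ x : θ.ker, ((x : U) : G) ∈ V := fun x =>
    (SetLike.ext_iff.mp hker (x : U)).mp x.2
  refine ⟨fun x => w ⟨((x : U) : G), hmem x⟩, ?_, fun g h => hw ⟨_, hmem g⟩ ⟨_, hmem h⟩⟩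
  exact ⟨_, ⟨_, ⟨N, hN, rfl⟩, rfl⟩, fun g s hs => hw1 ⟨_, hmem g⟩ ⟨_, hmem s⟩ hs⟩

include K h90 hr hι h90B in
theorem induct (hasse : ∀ U : Subgroup G, L.IsOpen U → U ≤ χc.ker →
      ∀ θ : U →* Multiplicative (ZMod p), (L.restrict U).IsOpen θ.ker → HasseNormAt p A r ι U θ)
    {N : Subgroup G} (hN : N ∈ L.levels) (k : ℕ) :
    ∀ U : Subgroup G, N ≤ U → U ≤ χc.ker → N.relIndex U = p ^ k → ∀ z : G × G → ZMod p,
      CocOn L χc U z → LocTriv LΓ r χc U z → CobOn L χc N z → CobOn L χc U z := by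
  have hNn := L.normal N hN
  induction k with
  | zero =>
    intro U hNU hUχ hidx z hz hloc hNz
    rw [pow_zero, Subgroup.relIndex_eq_one] at hidx
    exact hNz.mono hidx
  | succ k ih =>
    intro U hNU hUχ hidx z hz hloc hNz
    obtain ⟨V, hNV, hVU, hVn, hVi, hk⟩ := exists_index_p N U hNU hidx
    have hVz := ih V hNV (hVU.trans hUχ) hk z (hz.mono hVU) (hloc.mono hVU) hNz
    exact step_p K h90 LΓ r hr ι hι h90B ⟨N, hN, hNV⟩ hVU hVn hVi
      (hasse U ⟨N, hN, hNU⟩ hUχ) hz hloc hVz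

end Main

section Final

variable {p : ℕ} [hp : Fact p.Prime] {G : Type} [Group G] {L : Lvl G} {χc : G →* (ZMod p)ˣ}

/-- Restriction to a subgroup of index prime to `p` is injective. -/
theorem cobOn_of_relIndex {U P : Subgroup G} (hPo : L.IsOpen P) (_hPU : P ≤ U)
    (hidx : ¬ p ∣ P.relIndex U) {z : G × G → ZMod p} (hz : CocOn L χc U z)
    (hPz : CobOn L χc P z) : CobOn L χc U z := by
  let ρ : Representation (ZMod p) U (ZMod p) := mu (χc.comp U.subtype)
  let zU : Z2 ρ (L.restrict U) := ⟨fun x => z (x.1, x.2), by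
    rw [mem_Z2]
    refine ⟨fun g h j => ?_, hz.1⟩
    simp only [ρ, mu_apply]
    exact hz.2 g g.2 h h.2 j j.2⟩
  have hPo' : (L.restrict U).IsOpen (P.subgroupOf U) := by
    obtain ⟨N, hN, hle⟩ := hPo
    exact ⟨_, ⟨N, hN, rfl⟩, fun x hx => hle hx⟩
  have hinj := res_injective_H2 ρ (L := L.restrict U) (U := P.subgroupOf U) hPo' (by
    have h1 : ((P.subgroupOf U).index : ZMod p) ≠ 0 := by
      rw [Ne, ZMod.natCast_eq_zero_iff]
      exact hidx
    exact h1.isUnit)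
  have h0 : (Mor.resSub ρ (L.restrict U) (P.subgroupOf U)).H2 (H2.mk ρ (L.restrict U) zU) = 0 := by
    rw [Mor.H2_mk, H2.mk_eq_zero_iff]
    obtain ⟨w, ⟨_, ⟨N, hN, rfl⟩, hw1⟩, hw⟩ := hPz
    refine ⟨fun x => w ⟨((x : U) : G), x.2⟩, ?_, ?_⟩
    · exact ⟨_, ⟨_, ⟨N, hN, rfl⟩, rfl⟩, fun g s hs => hw1 ⟨_, g.2⟩ ⟨_, s.2⟩ hs⟩
    · ext ⟨g, h⟩
      rw [d1_apply]
      show mu (χc.comp U.subtype) (g : U) _ - _ + _ = z _
      rw [mu_apply]
      exact (hw ⟨_, g.2⟩ ⟨_, h.2⟩).symm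
  have h1 := hinj (h0.trans (map_zero _).symm)
  rw [H2.mk_eq_zero_iff] at h1
  obtain ⟨w, hw1, hw2⟩ := h1
  refine ⟨w, hw1, fun g h => ?_⟩
  have h2 := congrFun hw2 (g, h)
  rw [d1_apply] at h2
  simp only [ρ, mu_apply] at h2
  exact h2.symm

variable {A : Type*} [CommGroup A] [MulDistribMulAction G A] {ζ : A} (K : KData p L χc A ζ)
  (h90 : ∀ (U : Subgroup G) (V : Subgroup U), H90 (L.restrict U) V A)
  {I : Type*} {Γ : I → Type*} [∀ i, Group (Γ i)] {B : I → Type*} [∀ i, CommGroup (B i)]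
  [∀ i, MulDistribMulAction (Γ i) (B i)] (LΓ : ∀ i, Lvl (Γ i)) (r : ∀ i, Γ i →* G)
  (hr : ∀ i, (LΓ i).Cont L (r i)) (ι : ∀ i, A →* B i)
  (hι : ∀ i (γ : Γ i) (x : A), ι i (r i γ • x) = γ • ι i x)
  (h90B : ∀ i (U : Subgroup (Γ i)) (V : Subgroup U), H90 ((LΓ i).restrict U) V (B i))

include K h90 hr hι h90B in
/-- **Abstract Hasse principle** for `H²(U, μ_p)`. -/
theorem hasse_abstract (hχc : L.IsOpen χc.ker)
    (hasse : ∀ U : Subgroup G, L.IsOpen U → U ≤ χc.ker →
      ∀ θ : U →* Multiplicative (ZMod p), (L.restrict U).IsOpen θ.ker → HasseNormAt p A r ι U θ)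
    {U : Subgroup G} (hU : L.IsOpen U) {z : G × G → ZMod p}
    (hz : CocOn L χc U z) (hloc : LocTriv LΓ r χc U z) : CobOn L χc U z := by
  -- reduce to `U ≤ ker χc`
  have hU' : L.IsOpen (U ⊓ χc.ker) := hU.inf hχc
  have hcop : ¬ p ∣ (U ⊓ χc.ker).relIndex U := by
    rw [Subgroup.inf_relIndex_left, Subgroup.relIndex_ker]
    intro hdvd
    have h1 : Nat.card (U.map χc) ∣ Nat.card (ZMod p)ˣ := Subgroup.card_subgroup_dvd_card _
    have h2 := hdvd.trans h1
    rw [Nat.card_eq_fintype_card, ZMod.card_units] at h2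
    have := Nat.le_of_dvd (Nat.sub_pos_of_lt hp.out.one_lt) h2
    have := hp.out.pos
    omega
  refine cobOn_of_relIndex hU' inf_le_left hcop hz ?_
  have hz' := hz.mono (inf_le_left : U ⊓ χc.ker ≤ U)
  have hloc' := hloc.mono (inf_le_left : U ⊓ χc.ker ≤ U)
  generalize hU1 : U ⊓ χc.ker = U1 at *
  have hU1χ : U1 ≤ χc.ker := hU1 ▸ inf_le_right
  -- choose a level
  obtain ⟨N0, hN0, hN0U⟩ := hU'
  obtain ⟨_, ⟨N1, hN1, rfl⟩, hlc⟩ := hz'.1
  obtain ⟨N, hN, hNN0, hNN1⟩ := L.directed N0 hN0 N1 hN1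
  have hNU : N ≤ U1 := hNN0.trans hN0U
  have hNn := L.normal N hN
  have hNfi := L.finiteIndex N hN
  -- trivial on `N`
  have hNz : CobOn L χc N z := by
    refine ⟨fun _ => z (1, 1), isLC₁_const _, fun g h => ?_⟩
    have h1 := hlc 1 1 ⟨g, hNU g.2⟩ (hNN1 g.2) ⟨h, hNU h.2⟩ (hNN1 h.2)
    simp only [one_mul] at h1
    have h2 : χc (g : G) = 1 := hU1χ (hNU g.2)
    rw [h2]
    simp only [Units.val_one, one_mul, sub_self, zero_add]
    exact h1
  obtain ⟨P, hNP, hPU, ⟨k, hk⟩, hPi⟩ := exists_sylow_between (p := p) N U1 hNU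
    (by
      have h1 := Subgroup.relIndex_mul_index hNU
      intro h0
      rw [h0, zero_mul] at h1
      exact hNfi.index_ne_zero h1.symm)
  have hPz := induct K h90 LΓ r hr ι hι h90B hasse hN k P hNP (hPU.trans hU1χ) hk z
    (hz'.mono hPU) (hloc'.mono hPU) hNz
  exact cobOn_of_relIndex ⟨N, hN, hNP⟩ hPU hPi hz' hPz

end Final

end Fermat.Agent.CFT.Hasse
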