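import Mathlib
import Fermat.Agent.CFT.Hasse.Abstract
import Fermat.Agent.CFT.Hasse.Hilbert90
import Fermat.Agent.CFT.LC.Levels
import Fermat.Agent.CFT.LC.Criterion
import Fermat.Agent.CFT.W.Global
import Fermat.Agent.CFT.Local.Krasner

/-!
# The Hasse principle over `ℚ`: concrete Kummer data
-/

set_option autoImplicit false
set_option linter.unusedSectionVars false

open ExtCitation

namespace Fermat.Agent.CFT.Hasse

open Fermat.Agent.CFT.LC Fermat.Agent.CFT.D3 Fermat.Agent.CFT.PT Fermat.Agent.CFT.W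

/-- An algebraic closure of `ℚ`. -/
local notation "Qb" => AlgebraicClosure ℚ

section General

variable {p : ℕ} [hp : Fact p.Prime]

/-- A Kummer datum from a primitive root of unity. -/
theorem kdata_of_primitive {k Ω : Type*} [Field k] [Field Ω] [Algebra k Ω] [IsAlgClosed Ω]
    {ζ : Ωˣ} (hζ : IsPrimitiveRoot ζ p) {L : Lvl (Ω ≃ₐ[k] Ω)} {χc : (Ω ≃ₐ[k] Ω) →* (ZMod p)ˣ}
    (hact : ∀ g : Ω ≃ₐ[k] Ω, g • ζ = ζ ^ (χc g : ZMod p).val)
    (hsm : ∀ x : Ωˣ, SmoothEl L x) : KData p L χc Ωˣ ζ where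
  pow := hζ.pow_eq_one
  inj c hc := by
    have h1 := hζ.dvd_of_pow_eq_one c.val hc
    have h2 := Nat.eq_zero_of_dvd_of_lt h1 (ZMod.val_lt c)
    exact (ZMod.val_eq_zero c).mp h2
  tors x hx := by
    have : NeZero p := ⟨hp.out.ne_zero⟩
    have hζ' : IsPrimitiveRoot (ζ : Ω) p := hζ.map_of_injective (f := Units.coeHom Ω)
      Units.val_injective
    obtain ⟨i, hi, h2⟩ := hζ'.eq_pow_of_pow_eq_one (ξ := (x : Ω)) (by
      rw [← Units.val_pow_eq_pow_val, hx, Units.val_one])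
    refine ⟨(i : ZMod p), ?_⟩
    rw [zp_natCast hζ.pow_eq_one]
    apply Units.ext
    rw [Units.val_pow_eq_pow_val, h2]
  act := hact
  div x := by
    obtain ⟨y, hy⟩ := IsAlgClosed.exists_pow_nat_eq (x : Ω) hp.out.pos
    have hy0 : y ≠ 0 := by
      rintro rfl
      rw [zero_pow hp.out.ne_zero] at hy
      exact x.ne_zero hy.symm
    exact ⟨Units.mk0 y hy0, Units.ext (by rw [Units.val_pow_eq_pow_val]; exact hy)⟩
  sm := hsm

end General

section Global

variable {p : ℕ} [hp : Fact p.Prime]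

theorem smoothEl_Qb (x : Qbˣ) : SmoothEl (krull ℚ Qb) x := by
  have h1 : (krull ℚ Qb).IsOpen (IntermediateField.adjoin ℚ {(x : Qb)}).fixingSubgroup := by
    rw [isOpen_krull_iff]
    exact ⟨_, IntermediateField.adjoin.finiteDimensional (Algebra.IsIntegral.isIntegral _), le_rfl⟩
  obtain ⟨N, hN, hle⟩ := h1
  refine ⟨N, hN, fun s hs => Units.ext ?_⟩
  exact (IntermediateField.mem_fixingSubgroup_iff _ _).mp (hle hs) _
    (IntermediateField.mem_adjoin_simple_self ℚ (x : Qb))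

theorem cyclo_act {ζ : Qbˣ} (hζ : IsPrimitiveRoot ζ p) (g : Qb ≃ₐ[ℚ] Qb) :
    g • ζ = ζ ^ (cycloChar p g : ZMod p).val := by
  have : NeZero p := ⟨hp.out.ne_zero⟩
  apply Units.ext
  rw [Units.val_pow_eq_pow_val]
  exact modularCyclotomicCharacter.spec Qb (card_rootsOfUnity_eq_self p)
    (g : Qb ≃+* Qb) (t := ζ) (by rw [mem_rootsOfUnity]; exact hζ.pow_eq_one)

/-- The Kummer datum of `G_ℚ` acting on `Q̄ˣ`. -/
theorem kdataQ {ζ : Qbˣ} (hζ : IsPrimitiveRoot ζ p) :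
    KData p (krull ℚ Qb) (cycloChar p) Qbˣ ζ :=
  kdata_of_primitive hζ (cyclo_act hζ) smoothEl_Qb

theorem h90Q (U : Subgroup (Qb ≃ₐ[ℚ] Qb)) (V : Subgroup U) :
    H90 ((krull ℚ Qb).restrict U) V Qbˣ := by
  refine h90_restrict (MonoidHom.id _) (fun _ _ => rfl) (krull ℚ Qb) ?_ U V
  rintro _ ⟨F, hF, -, rfl⟩
  exact ⟨F, hF, fun x hx => hx⟩

end Global

section Local

variable {p : ℕ} [hp : Fact p.Prime] (q : ℕ) [hq : Fact q.Prime]

/-- the local embedding of units -/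
noncomputable def locUnits (g : Qb ≃ₐ[ℚ] Qb) : Qbˣ →* (PadicAlgCl q)ˣ :=
  Units.map ((padicEmbedding q : Qb →* PadicAlgCl q).comp (g : Qb →* Qb))

@[simp] theorem coe_locUnits (g : Qb ≃ₐ[ℚ] Qb) (x : Qbˣ) :
    ((locUnits q g x : (PadicAlgCl q)ˣ) : PadicAlgCl q) = padicEmbedding q (g (x : Qb)) := rfl

/-- the local map `τ ↦ g⁻¹ loc(τ) g` -/
noncomputable def locConj (g : Qb ≃ₐ[ℚ] Qb) :
    (PadicAlgCl q ≃ₐ[ℚ_[q]] PadicAlgCl q) →* (Qb ≃ₐ[ℚ] Qb) :=
  (MulAut.conj g⁻¹).toMonoidHom.comp (localGaloisToGlobal q)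

theorem locConj_apply (g : Qb ≃ₐ[ℚ] Qb) (τ : PadicAlgCl q ≃ₐ[ℚ_[q]] PadicAlgCl q) :
    locConj q g τ = g⁻¹ * localGaloisToGlobal q τ * g := by
  simp [locConj]

theorem locUnits_smul (g : Qb ≃ₐ[ℚ] Qb) (τ : PadicAlgCl q ≃ₐ[ℚ_[q]] PadicAlgCl q) (x : Qbˣ) :
    locUnits q g (locConj q g τ • x) = τ • locUnits q g x := by
  apply Units.ext
  rw [locConj_apply, coe_locUnits]
  show padicEmbedding q (g (g⁻¹ (localGaloisToGlobal q τ (g (x : Qb))))) = τ (padicEmbedding q (g x))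
  have h : ∀ y, g (g⁻¹ y) = y := fun y => g.apply_symm_apply y
  rw [h, padicEmbedding_localGaloisToGlobal]

theorem cont_locConj (g : Qb ≃ₐ[ℚ] Qb) :
    (lvlOver (localGaloisToGlobal q)).Cont (krull ℚ Qb) (locConj q g) := by
  intro N hN
  have := (krull ℚ Qb).normal N hN
  refine ⟨_, ⟨N, hN, rfl⟩, fun x hx => ?_⟩
  rw [Subgroup.mem_comap, locConj_apply]
  have h1 := this.conj_mem _ (show localGaloisToGlobal q x ∈ N from hx) g⁻¹
  rwa [inv_inv] at h1

theorem h90Loc (U : Subgroup (PadicAlgCl q ≃ₐ[ℚ_[q]] PadicAlgCl q)) (V : Subgroup U) :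
    H90 ((lvlOver (localGaloisToGlobal q)).restrict U) V (PadicAlgCl q)ˣ := by
  refine h90_restrict (MonoidHom.id _) (fun _ _ => rfl) (lvlOver (localGaloisToGlobal q)) ?_ U V
  rintro _ ⟨_, ⟨F, hF, -, rfl⟩, rfl⟩
  have : FiniteDimensional ℚ F := hF
  have hopen := Local.isOpen_comap_localGaloisToGlobal q F
  obtain ⟨E, hE, hle⟩ := (krullTopology_mem_nhds_one_iff ℚ_[q] (PadicAlgCl q) _).mp
    (hopen.mem_nhds (Subgroup.one_mem _))
  exact ⟨E, hE, fun x hx => hle hx⟩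

theorem smoothEl_loc (x : (PadicAlgCl q)ˣ) : SmoothEl (lvlOver (localGaloisToGlobal q)) x := by
  have hfd : FiniteDimensional ℚ_[q] (IntermediateField.adjoin ℚ_[q] {(x : PadicAlgCl q)}) :=
    IntermediateField.adjoin.finiteDimensional (Algebra.IsAlgebraic.isAlgebraic _).isIntegral
  have hopen := (InfiniteGalois.isOpen_iff_finite
    (IntermediateField.adjoin ℚ_[q] {(x : PadicAlgCl q)})).mpr hfd
  obtain ⟨F, hF, -, hle⟩ := Local.exists_comap_localGaloisToGlobal_le q hopen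
  obtain ⟨F', h1, h2, h3⟩ := exists_normal_ge (F := F) hF
  refine ⟨_, ⟨_, ⟨F', h2, h3, rfl⟩, rfl⟩, fun s hs => Units.ext ?_⟩
  have hs' : s ∈ F.fixingSubgroup.comap (localGaloisToGlobal q) :=
    IntermediateField.fixingSubgroup_antitone h1 hs
  exact (IntermediateField.mem_fixingSubgroup_iff _ _).mp (hle hs') _
    (IntermediateField.mem_adjoin_simple_self _ (x : PadicAlgCl q))

theorem isPrimitiveRoot_locUnits {ζ : Qbˣ} (hζ : IsPrimitiveRoot ζ p) (g : Qb ≃ₐ[ℚ] Qb) :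
    IsPrimitiveRoot (locUnits q g ζ) p := by
  refine hζ.map_of_injective (f := locUnits q g) ?_
  refine Units.map_injective ?_
  intro x y hxy
  exact g.injective ((padicEmbedding q).injective hxy)

/-- The local Kummer datum. -/
theorem kdataLoc {ζ : Qbˣ} (hζ : IsPrimitiveRoot ζ p) :
    KData p (lvlOver (localGaloisToGlobal q)) ((cycloChar p).comp (localGaloisToGlobal q))
      (PadicAlgCl q)ˣ (locUnits q 1 ζ) := by
  refine kdata_of_primitive (isPrimitiveRoot_locUnits q hζ 1) (fun τ => ?_) (smoothEl_loc q)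
  rw [← locUnits_smul, cyclo_act hζ, map_pow, locConj_apply]
  simp

end Local

end Fermat.Agent.CFT.Hasse
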