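import Mathlib
import Fermat.Agent.CFT.Hasse.NormInput
import Fermat.Agent.CFT.Unram.Global

/-!
# The Hasse principle for `H²(U, μ_p)`, `U` open in `G_ℚ`
-/

set_option autoImplicit false
set_option linter.unusedSectionVars false

open ExtCitation NumberField

namespace Fermat.Agent.CFT.Hasse

open Fermat.Agent.CFT.LC Fermat.Agent.CFT.D3 Fermat.Agent.CFT.PT Fermat.Agent.CFT.W
open Fermat.Agent.CFT.Unram

/-- An algebraic closure of `ℚ`. -/
local notation "Qb" => AlgebraicClosure ℚ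

local instance instFactPrimes' (q : Nat.Primes) : Fact (q : ℕ).Prime := ⟨q.2⟩

section

variable {p : ℕ} [hp : Fact p.Prime]

theorem exists_primitiveRoot_units : ∃ ζ : Qbˣ, IsPrimitiveRoot ζ p := by
  have : NeZero p := ⟨hp.out.ne_zero⟩
  obtain ⟨ζ, hζ⟩ := HasEnoughRootsOfUnity.exists_primitiveRoot Qb p
  obtain ⟨u, rfl⟩ := hζ.isUnit hp.out.ne_zero
  exact ⟨u, (IsPrimitiveRoot.coe_units_iff).mp hζ⟩

theorem isOpen_krull_ker_cycloChar : (krull ℚ Qb).IsOpen (cycloChar p).ker := by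
  obtain ⟨ζ, hζ⟩ := exists_primitiveRoot_units (p := p)
  obtain ⟨N, hN, h⟩ := smoothEl_Qb ζ
  refine ⟨N, hN, fun g hg => ?_⟩
  rw [MonoidHom.mem_ker]
  have h1 := h g hg
  rw [cyclo_act hζ] at h1
  have h2 : zp ζ (cycloChar p g : ZMod p) = zp ζ ((1 : ZMod p)) := by
    show ζ ^ _ = ζ ^ _
    rw [h1, ZMod.val_one_eq_one_mod, Nat.mod_eq_of_lt hp.out.one_lt, pow_one]
  exact Units.ext ((kdataQ hζ).zp_injective h2)

/-- **The Hasse principle** for 2-cocycles of open subgroups of `G_ℚ` with values in `μ_p`. -/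
theorem hasse_Q (hp2 : p ≠ 2) {U : Subgroup (Qb ≃ₐ[ℚ] Qb)} (hU : (krull ℚ Qb).IsOpen U)
    {z : (Qb ≃ₐ[ℚ] Qb) × (Qb ≃ₐ[ℚ] Qb) → ZMod p} (hz : CocOn (krull ℚ Qb) (cycloChar p) U z)
    (hloc : LocTriv (fun i : Idx => lvlOver (localGaloisToGlobal (i.1 : ℕ)))
      (fun i : Idx => locConj (i.1 : ℕ) i.2) (cycloChar p) U z) :
    CobOn (krull ℚ Qb) (cycloChar p) U z := by
  obtain ⟨ζ, hζ⟩ := exists_primitiveRoot_units (p := p)
  exact hasse_abstract (I := Idx)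
    (Γ := fun i : Idx => PadicAlgCl (i.1 : ℕ) ≃ₐ[ℚ_[(i.1 : ℕ)]] PadicAlgCl (i.1 : ℕ))
    (B := fun i : Idx => (PadicAlgCl (i.1 : ℕ))ˣ) (kdataQ hζ) h90Q
    (fun i : Idx => lvlOver (localGaloisToGlobal (i.1 : ℕ)))
    (fun i : Idx => locConj (i.1 : ℕ) i.2) (fun i => cont_locConj (i.1 : ℕ) i.2)
    (fun i : Idx => locUnits (i.1 : ℕ) i.2) (fun i γ x => locUnits_smul (i.1 : ℕ) i.2 γ x)
    (fun i U V => h90Loc (i.1 : ℕ) U V) isOpen_krull_ker_cycloChar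
    (fun U hU hUχ θ hθ => hasseNormAt_Q hp2 hζ hU hUχ θ hθ) hU hz hloc

/-- the local map `τ ↦ g⁻¹ loc(τ) g` -/
noncomputable def conjLoc (q : Nat.Primes) (g : Qb ≃ₐ[ℚ] Qb) :
    primeLocalGaloisGroup q →* (Qb ≃ₐ[ℚ] Qb) :=
  (MulAut.conj g⁻¹).toMonoidHom.comp (primeLocalToGlobal q)

theorem conjLoc_apply (q : Nat.Primes) (g : Qb ≃ₐ[ℚ] Qb) (τ : primeLocalGaloisGroup q) :
    conjLoc q g τ = g⁻¹ * primeLocalToGlobal q τ * g := by
  simp [conjLoc]

theorem cont_conjLoc (q : Nat.Primes) (g : Qb ≃ₐ[ℚ] Qb) :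
    (lvlOver (primeLocalToGlobal q)).Cont (krull ℚ Qb) (conjLoc q g) :=
  cont_locConj (q : ℕ) g

theorem comap_conjLoc (q : Nat.Primes) (g : Qb ≃ₐ[ℚ] Qb) {N : Subgroup (Qb ≃ₐ[ℚ] Qb)}
    (hN : N.Normal) : N.comap (conjLoc q g) = N.comap (primeLocalToGlobal q) := by
  ext τ
  rw [Subgroup.mem_comap, Subgroup.mem_comap, conjLoc_apply]
  constructor
  · intro h
    have h1 := hN.conj_mem _ h g
    convert h1 using 1
    group
  · intro h
    have h1 := hN.conj_mem _ h g⁻¹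
    rwa [inv_inv] at h1

theorem cont_conjLoc_unram (S : Finset Nat.Primes) (q : Nat.Primes) (g : Qb ≃ₐ[ℚ] Qb) :
    (lvlOver (primeLocalToGlobal q)).Cont (unram S) (conjLoc q g) := by
  have h := (cont_krull_unram S).comp (cont_conjLoc q g)
  rwa [MonoidHom.id_comp] at h

/-- continuity of the map induced on subgroups -/
theorem cont_subgroupComap {G H : Type*} [Group G] [Group H] {L : Lvl G} {LH : Lvl H} {f : H →* G}
    (hf : LH.Cont L f) (U : Subgroup G) :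
    (LH.restrict (U.comap f)).Cont (L.restrict U) (f.subgroupComap U) := by
  rintro _ ⟨N, hN, rfl⟩
  obtain ⟨N', hN', hle⟩ := hf N hN
  exact ⟨_, ⟨N', hN', rfl⟩, fun x hx => hle hx⟩

/-- localisation at `(q, g)` for the trivial representation of `U` -/
noncomputable def locMor (p : ℕ) [Fact p.Prime] (U : Subgroup (Qb ≃ₐ[ℚ] Qb)) (q : Nat.Primes)
    (g : Qb ≃ₐ[ℚ] Qb) :
    Mor (Representation.trivial (ZMod p) U (ZMod p)) ((krull ℚ Qb).restrict U)
      (Representation.trivial (ZMod p) (U.comap (conjLoc q g)) (ZMod p))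
      ((lvlOver (primeLocalToGlobal q)).restrict (U.comap (conjLoc q g))) where
  f := (conjLoc q g).subgroupComap U
  φ := LinearMap.id
  cont := cont_subgroupComap (cont_conjLoc q g) U
  comm _ _ := rfl

/-- localisation at `(q, g)` for the trivial representation of `U`, from `G_{ℚ,S}` -/
noncomputable def locMorS (p : ℕ) [Fact p.Prime] (S : Finset Nat.Primes)
    (U : Subgroup (Qb ≃ₐ[ℚ] Qb)) (q : Nat.Primes) (g : Qb ≃ₐ[ℚ] Qb) :
    Mor (Representation.trivial (ZMod p) U (ZMod p)) ((unram S).restrict U)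
      (Representation.trivial (ZMod p) (U.comap (conjLoc q g)) (ZMod p))
      ((lvlOver (primeLocalToGlobal q)).restrict (U.comap (conjLoc q g))) where
  f := (conjLoc q g).subgroupComap U
  φ := LinearMap.id
  cont := cont_subgroupComap (cont_conjLoc_unram S q g) U
  comm _ _ := rfl

/-- inflation from `G_{ℚ,S}` to `G_ℚ` -/
noncomputable def inflMor (p : ℕ) [Fact p.Prime] (S : Finset Nat.Primes)
    (U : Subgroup (Qb ≃ₐ[ℚ] Qb)) :
    Mor (Representation.trivial (ZMod p) U (ZMod p)) ((unram S).restrict U)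
      (Representation.trivial (ZMod p) U (ZMod p)) ((krull ℚ Qb).restrict U) where
  f := MonoidHom.id U
  φ := LinearMap.id
  cont := by
    rintro _ ⟨N, hN, rfl⟩
    obtain ⟨N', hN', hle⟩ := cont_krull_unram S N hN
    exact ⟨_, ⟨N', hN', rfl⟩, fun x hx => hle hx⟩
  comm _ _ := rfl

/-- **The Hasse principle** for `H²(U, μ_p)`, `U ≤ ker χ_cyc` open in `G_ℚ`. -/
theorem hasse_H2 (hp2 : p ≠ 2) {U : Subgroup (Qb ≃ₐ[ℚ] Qb)} (hU : (krull ℚ Qb).IsOpen U)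
    (hUχ : U ≤ (cycloChar p).ker)
    (z : LC.H2 (Representation.trivial (ZMod p) U (ZMod p)) ((krull ℚ Qb).restrict U))
    (h : ∀ (q : Nat.Primes) (g : Qb ≃ₐ[ℚ] Qb), (locMor p U q g).H2 z = 0) : z = 0 := by
  classical
  obtain ⟨c, rfl⟩ := H2.mk_surjective z
  have hc := (mem_Z2 _ _).mp c.2
  set z : (Qb ≃ₐ[ℚ] Qb) × (Qb ≃ₐ[ℚ] Qb) → ZMod p :=
    fun x => if hx : x.1 ∈ U ∧ x.2 ∈ U then c.1 (⟨x.1, hx.1⟩, ⟨x.2, hx.2⟩) else 0 with hz
  have hzU : ∀ x y : U, z (x, y) = c.1 (x, y) := by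
    intro x y
    simp only [hz]
    rw [dif_pos ⟨x.2, y.2⟩]
  have hχ1 : ∀ u : U, (cycloChar p u : ZMod p) = 1 := by
    intro u
    have h1 : cycloChar p (u : Qb ≃ₐ[ℚ] Qb) = 1 := hUχ u.2
    rw [h1, Units.val_one]
  have hcoc : CocOn (krull ℚ Qb) (cycloChar p) U z := by
    refine ⟨?_, fun g hg k hk j hj => ?_⟩
    · have h1 : (fun x : U × U => z (x.1, x.2)) = c.1 := funext fun x => hzU x.1 x.2
      rw [h1]
      exact hc.2
    · have h1 := hc.1 ⟨g, hg⟩ ⟨k, hk⟩ ⟨j, hj⟩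
      have h2 := hzU (⟨g, hg⟩ * ⟨k, hk⟩) ⟨j, hj⟩
      have h3 := hzU ⟨g, hg⟩ ⟨k, hk⟩
      have h4 := hzU ⟨k, hk⟩ ⟨j, hj⟩
      have h5 := hzU ⟨g, hg⟩ (⟨k, hk⟩ * ⟨j, hj⟩)
      have h6 := hχ1 ⟨g, hg⟩
      simp only at h2 h3 h4 h5 h6
      rw [← h2, ← h3, ← h4, ← h5] at h1
      rw [h6, one_mul]
      exact h1
  obtain ⟨w, hw1, hw2⟩ := hasse_Q hp2 hU hcoc (fun i => by
    have h1 := h i.1 i.2
    rw [Mor.H2_mk, H2.mk_eq_zero_iff] at h1
    obtain ⟨w, hw1, hw2⟩ := h1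
    refine ⟨w, hw1, fun x y => ?_⟩
    have h2 := congrFun hw2 (x, y)
    rw [d1_apply] at h2
    have h3 := hχ1 ⟨locConj (i.1 : ℕ) i.2 x, x.2⟩
    show z (locConj (i.1 : ℕ) i.2 x, locConj (i.1 : ℕ) i.2 y) =
      (cycloChar p (locConj (i.1 : ℕ) i.2 x) : ZMod p) * w y - w (x * y) + w x
    rw [h3, one_mul]
    refine (hzU ⟨_, x.2⟩ ⟨_, y.2⟩).trans ?_
    exact h2.symm)
  rw [H2.mk_eq_zero_iff]
  refine ⟨w, hw1, ?_⟩
  ext ⟨x, y⟩
  rw [d1_apply]
  have h1 := hw2 x y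
  rw [hzU, hχ1, one_mul] at h1
  exact h1.symm

/-- Classes of `G_{ℚ,S}` are locally trivial outside `S`: cocycle version -/
theorem exists_cob_of_unram {S : Finset Nat.Primes} {U : Subgroup (Qb ≃ₐ[ℚ] Qb)}
    (hU : (unram S).IsOpen U) {z : U × U → ZMod p}
    (hz : ∀ g h j, z (g * h, j) + z (g, h) = z (h, j) + z (g, h * j))
    (hzl : IsLC₂ ((unram S).restrict U) z) {q : Nat.Primes} (hq : q ∉ S) (g : Qb ≃ₐ[ℚ] Qb) :
    ∃ β : U.comap (locConj (q : ℕ) g) → ZMod p,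
      IsLC₁ ((lvlOver (localGaloisToGlobal (q : ℕ))).restrict (U.comap (locConj (q : ℕ) g))) β ∧
      ∀ x y, z ((locConj (q : ℕ) g).subgroupComap U x, (locConj (q : ℕ) g).subgroupComap U y) =
        β y - β (x * y) + β x := by
  obtain ⟨_, ⟨N, hN, rfl⟩, hN2⟩ := hzl
  obtain ⟨N1, hN1, hN1U⟩ := hU
  obtain ⟨N2, hN2', hle1, hle2⟩ := (unram S).directed N hN N1 hN1
  have hN2n := (unram S).normal N2 hN2'
  have hkr : (krull ℚ Qb).IsOpen N2 := by
    obtain ⟨N', hN', h1⟩ := cont_krull_unram S N2 hN2'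
    exact ⟨N', hN', h1⟩
  have hNc : N2.comap (locConj (q : ℕ) g) = N2.comap (localGaloisToGlobal (q : ℕ)) :=
    comap_conjLoc q g hN2n
  have hNopen := isOpen_comap_loc (q := (q : ℕ)) hkr
  rw [← hNc] at hNopen
  have hNU : N2.comap (locConj (q : ℕ) g) ≤ U.comap (locConj (q : ℕ) g) :=
    Subgroup.comap_mono (hle2.trans hN1U)
  have hI : inertiaLoc (q : ℕ) ≤ N2.comap (locConj (q : ℕ) g) := by
    rw [hNc]
    exact inertiaLoc_le_comap (U := N2) ⟨N2, hN2', le_rfl⟩ q hq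
  obtain ⟨N', hN'o, hN'le, -, β, hβ1, hβ2⟩ := exists_unram_coboundary (q := (q : ℕ))
    (U := U.comap (locConj (q : ℕ) g)) (N := N2.comap (locConj (q : ℕ) g))
    (Subgroup.isOpen_mono hNU hNopen) hNopen (inf_le_right.trans hI)
    hp.out.ne_zero (V := ZMod p) (fun v => by rw [nsmul_eq_mul, CharP.cast_eq_zero, zero_mul])
    (Representation.trivial (ZMod p) (U.comap (locConj (q : ℕ) g)) (ZMod p)) (fun _ _ => rfl)
    (z := fun x => z ((locConj (q : ℕ) g).subgroupComap U x.1,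
      (locConj (q : ℕ) g).subgroupComap U x.2))
    (fun x y t => by
      show z ((locConj (q : ℕ) g).subgroupComap U (x * y), (locConj (q : ℕ) g).subgroupComap U t) +
        z ((locConj (q : ℕ) g).subgroupComap U x, (locConj (q : ℕ) g).subgroupComap U y) =
        z ((locConj (q : ℕ) g).subgroupComap U y, (locConj (q : ℕ) g).subgroupComap U t) +
        z ((locConj (q : ℕ) g).subgroupComap U x, (locConj (q : ℕ) g).subgroupComap U (y * t))
      rw [map_mul, map_mul]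
      exact hz _ _ _)
    (fun x y s t hs ht => by
      show z ((locConj (q : ℕ) g).subgroupComap U (x * s),
        (locConj (q : ℕ) g).subgroupComap U (y * t)) = _
      rw [map_mul, map_mul]
      exact hN2 _ _ _ (hle1 hs) _ (hle1 ht))
  refine ⟨β, ?_, fun x y => (hβ2 x y).symm⟩
  obtain ⟨N3, hN3, hle3⟩ := isOpen_lvlOver_iff.mpr hN'o
  exact ⟨_, ⟨N3, hN3, rfl⟩, fun x s hs => hβ1 x s (hle3 hs)⟩

/-- Classes of `G_{ℚ,S}` are locally trivial outside `S`. -/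
theorem locMorS_H2_eq_zero {S : Finset Nat.Primes} {U : Subgroup (Qb ≃ₐ[ℚ] Qb)}
    (hU : (unram S).IsOpen U)
    (z : LC.H2 (Representation.trivial (ZMod p) U (ZMod p)) ((unram S).restrict U))
    {q : Nat.Primes} (hq : q ∉ S) (g : Qb ≃ₐ[ℚ] Qb) : (locMorS p S U q g).H2 z = 0 := by
  obtain ⟨c, rfl⟩ := H2.mk_surjective z
  have hc := (mem_Z2 _ _).mp c.2
  obtain ⟨β, hβ1, hβ2⟩ : ∃ β : U.comap (conjLoc q g) → ZMod p,
      IsLC₁ ((lvlOver (primeLocalToGlobal q)).restrict (U.comap (conjLoc q g))) β ∧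
      ∀ x y, c.1 ((conjLoc q g).subgroupComap U x, (conjLoc q g).subgroupComap U y) =
        β y - β (x * y) + β x := exists_cob_of_unram hU hc.1 hc.2 hq g
  rw [Mor.H2_mk, H2.mk_eq_zero_iff]
  refine ⟨β, hβ1, ?_⟩
  ext ⟨x, y⟩
  rw [d1_apply]
  exact (hβ2 x y).symm

/-- **The Hasse principle** for classes of `G_{ℚ,S}`: local triviality at the primes of `S`
suffices. -/
theorem hasse_H2_unram (hp2 : p ≠ 2) {S : Finset Nat.Primes} {U : Subgroup (Qb ≃ₐ[ℚ] Qb)}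
    (hU : (unram S).IsOpen U) (hUχ : U ≤ (cycloChar p).ker)
    (z : LC.H2 (Representation.trivial (ZMod p) U (ZMod p)) ((unram S).restrict U))
    (h : ∀ q ∈ S, ∀ g : Qb ≃ₐ[ℚ] Qb, (locMorS p S U q g).H2 z = 0) :
    (inflMor p S U).H2 z = 0 := by
  have hU' : (krull ℚ Qb).IsOpen U := by
    obtain ⟨N, hN, hle⟩ := hU
    obtain ⟨N', hN', h1⟩ := cont_krull_unram S N hN
    exact ⟨N', hN', h1.trans hle⟩
  refine hasse_H2 hp2 hU' hUχ _ fun q g => ?_
  have h1 : (locMor p U q g).H2 ((inflMor p S U).H2 z) = (locMorS p S U q g).H2 z := by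
    rw [← Mor.H2_comp]
    rfl
  rw [h1]
  by_cases hq : q ∈ S
  · exact h q hq g
  · exact locMorS_H2_eq_zero hU z hq g

end

end Fermat.Agent.CFT.Hasse
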