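import Mathlib
import Fermat.Agent.Density.Frobenius

/-!
# Auxiliary primes for the reciprocity law over `ℚ`

For `p` prime and a finite set `S` of primes, there is a prime `r ≡ 1 mod p`, `r ∉ S`, such that no
`q ∈ S` is a `p`-th power modulo `r`.
-/

set_option autoImplicit false

open IntermediateField Module IsDedekindDomain NumberField

namespace Fermat.Agent.CFT.Hasse

local notation "Qb" => AlgebraicClosure ℚ

local instance isAlgebraic_Qb : Algebra.IsAlgebraic ℚ (AlgebraicClosure ℚ) :=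
  AlgebraicClosure.isAlgebraic ℚ
local instance isIntegral_Qb : Algebra.IsIntegral ℚ (AlgebraicClosure ℚ) :=
  Algebra.IsAlgebraic.isIntegral
local instance isAlgClosure_Qb : IsAlgClosure ℚ (AlgebraicClosure ℚ) :=
  ⟨inferInstance, inferInstance⟩
local instance normal_Qb : Normal ℚ (AlgebraicClosure ℚ) :=
  IsAlgClosure.normal ℚ (AlgebraicClosure ℚ)

section Kummer

variable {p : ℕ} [hp : Fact p.Prime] {ζ : Qb} (hζ : IsPrimitiveRoot ζ p) (S : Finset ℕ)
  (hS : ∀ q ∈ S, q.Prime) (β : ℕ → Qb) (hβ : ∀ q, β q ^ p = (q : Qb))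

include hζ in
theorem finrank_adjoin_zeta : finrank ℚ ℚ⟮ζ⟯ = p - 1 := by
  rw [IntermediateField.adjoin.finrank (Algebra.IsIntegral.isIntegral ζ)]
  have h1 := Polynomial.cyclotomic_eq_minpoly_rat hζ hp.out.pos
  have h2 : minpoly ℚ ζ = Polynomial.cyclotomic p ℚ := by
    rw [h1]
  rw [h2, Polynomial.natDegree_cyclotomic, Nat.totient_prime hp.out]

include hζ hβ in
theorem exists_zeta_pow (σ : Qb ≃ₐ[ℚ] Qb) (q : ℕ) (hq : q ≠ 0) :
    ∃ i < p, σ (β q) = ζ ^ i * β q := by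
  have hb0 : β q ≠ 0 := by
    intro h
    have := hβ q
    rw [h, zero_pow hp.out.ne_zero] at this
    exact hq (by exact_mod_cast this.symm)
  have h1 : (σ (β q) / β q) ^ p = 1 := by
    rw [div_pow, ← map_pow, hβ, map_natCast, div_self]
    exact_mod_cast hq
  have : NeZero p := ⟨hp.out.ne_zero⟩
  obtain ⟨i, hi, h2⟩ := hζ.eq_pow_of_pow_eq_one h1
  refine ⟨i, hi, ?_⟩
  rw [h2, div_mul_cancel₀ _ hb0]

include hζ hS hβ in
/-- If `∏ β_q ^ n_q` is in `ℚ(ζ_p)` then all `n_q` are divisible by `p`. -/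
theorem dvd_of_prod_mem (n : ℕ → ℕ) (h : ∏ q ∈ S, β q ^ n q ∈ ℚ⟮ζ⟯) :
    ∀ q ∈ S, p ∣ n q := by
  classical
  intro q hq
  have := Fact.mk (hS q hq)
  set B : ℚ⟮ζ⟯ := ⟨_, h⟩ with hB
  have : FiniteDimensional ℚ ℚ⟮ζ⟯ := by
    apply FiniteDimensional.of_finrank_pos
    rw [finrank_adjoin_zeta hζ]
    exact Nat.sub_pos_of_lt hp.out.one_lt
  set x : ℕ := ∏ q ∈ S, q ^ n q with hx
  have h1 : B ^ p = algebraMap ℚ ℚ⟮ζ⟯ (x : ℚ) := by
    apply Subtype.ext
    rw [hB]
    show (∏ q ∈ S, β q ^ n q) ^ p = algebraMap ℚ Qb (x : ℚ)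
    rw [map_natCast, hx, ← Finset.prod_pow]
    push_cast
    refine Finset.prod_congr rfl fun q _ => ?_
    rw [← pow_mul, mul_comm, pow_mul, hβ]
  have h2 : (Algebra.norm ℚ B) ^ p = (x : ℚ) ^ (p - 1) := by
    rw [← map_pow, h1, Algebra.norm_algebraMap, finrank_adjoin_zeta hζ]
  have h3 := congrArg (padicValRat q) h2
  have hx0 : (x : ℚ) ≠ 0 := by
    rw [hx]
    exact_mod_cast Finset.prod_ne_zero_iff.mpr fun q hq => pow_ne_zero _ (hS q hq).ne_zero
  have hN0 : Algebra.norm ℚ B ≠ 0 := by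
    intro h0
    rw [h0, zero_pow hp.out.ne_zero] at h2
    exact pow_ne_zero _ hx0 h2.symm
  rw [padicValRat.pow, padicValRat.pow, padicValRat.of_nat] at h3
  have h4 : padicValNat q x = n q := by
    rw [hx, ← Nat.factorization_def _ (hS q hq), Nat.factorization_prod
      (fun q hq => pow_ne_zero _ (hS q hq).ne_zero)]
    rw [Finsupp.finsetSum_apply, Finset.sum_eq_single q]
    · rw [(hS q hq).factorization_pow, Finsupp.single_eq_same]
    · intro q' hq' hne
      rw [(hS q' hq').factorization_pow, Finsupp.single_eq_of_ne]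
      exact fun h => hne h.symm
    · exact fun h => absurd hq h
  rw [h4] at h3
  have h5 : (p : ℤ) ∣ ((p - 1 : ℕ) : ℤ) * (n q : ℤ) := ⟨_, h3.symm⟩
  have h6 : p ∣ (p - 1) * n q := by exact_mod_cast h5
  refine (Nat.Coprime.dvd_mul_left ?_).mp h6
  exact (Nat.coprime_self_sub_right hp.out.one_le).mpr (Nat.coprime_one_right p)

include hζ in
theorem zeta_pow_eq_of_cast_eq {i j : ℕ} (h : (i : ZMod p) = (j : ZMod p)) : ζ ^ i = ζ ^ j := by
  have h2 : i % p = j % p := (ZMod.natCast_eq_natCast_iff _ _ _).mp h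
  rw [pow_eq_pow_mod i hζ.pow_eq_one, pow_eq_pow_mod j hζ.pow_eq_one, h2]

/-- The image of the Kummer map on the absolute Galois group of `ℚ(ζ)`. -/
def kummerImage (ζ : Qb) (S : Finset ℕ) (β : ℕ → Qb) : Submodule (ZMod p) (S → ZMod p) where
  carrier := {f | ∃ σ : Qb ≃ₐ[ℚ] Qb, σ ζ = ζ ∧ ∀ q : S, ∃ i : ℕ, (i : ZMod p) = f q ∧
    σ (β q) = ζ ^ i * β q}
  add_mem' := by
    rintro f g ⟨σ, hσ, h⟩ ⟨τ, hτ, h'⟩
    refine ⟨σ * τ, by rw [AlgEquiv.mul_apply, hτ, hσ], fun q => ?_⟩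
    obtain ⟨i, hi, h1⟩ := h q
    obtain ⟨j, hj, h2⟩ := h' q
    refine ⟨i + j, by rw [Nat.cast_add, hi, hj]; rfl, ?_⟩
    rw [AlgEquiv.mul_apply, h2, map_mul, map_pow, hσ, h1, pow_add]
    ring
  zero_mem' := ⟨1, rfl, fun q => ⟨0, by simp, by simp⟩⟩
  smul_mem' := by
    have key : ∀ (n : ℕ) (f : S → ZMod p), (∃ σ : Qb ≃ₐ[ℚ] Qb, σ ζ = ζ ∧ ∀ q : S, ∃ i : ℕ,
        (i : ZMod p) = f q ∧ σ (β q) = ζ ^ i * β q) → (∃ σ : Qb ≃ₐ[ℚ] Qb, σ ζ = ζ ∧ ∀ q : S,
        ∃ i : ℕ, (i : ZMod p) = ((n : ZMod p) • f) q ∧ σ (β q) = ζ ^ i * β q) := by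
      intro n f ⟨σ, hσ, h⟩
      induction n with
      | zero => exact ⟨1, rfl, fun q => ⟨0, by simp, by simp⟩⟩
      | succ n ih =>
        obtain ⟨τ, hτ, h'⟩ := ih
        refine ⟨σ * τ, by rw [AlgEquiv.mul_apply, hτ, hσ], fun q => ?_⟩
        obtain ⟨i, hi, h1⟩ := h q
        obtain ⟨j, hj, h2⟩ := h' q
        refine ⟨i + j, ?_, ?_⟩
        · rw [Nat.cast_add, hi, hj]
          simp only [Pi.smul_apply, smul_eq_mul]
          push_cast
          ring
        · rw [AlgEquiv.mul_apply, h2, map_mul, map_pow, hσ, h1, pow_add]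
          ring
    intro c f hf
    have := key c.val f hf
    rwa [ZMod.natCast_zmod_val] at this

include hζ hS hβ in
theorem exists_sigma : ∃ σ : Qb ≃ₐ[ℚ] Qb, σ ζ = ζ ∧ ∀ q ∈ S, σ (β q) = ζ * β q := by
  classical
  have htop : kummerImage (p := p) ζ S β = ⊤ := by
    by_contra hne
    obtain ⟨ℓ, hℓ0, hℓ⟩ := Submodule.exists_le_ker_of_lt_top _ (lt_top_iff_ne_top.mpr hne)
    set c : S → ZMod p := fun q => ℓ (Pi.single q 1) with hc
    have hℓc : ∀ f, ℓ f = ∑ q, f q * c q := by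
      intro f
      conv_lhs => rw [← Finset.univ_sum_single f, map_sum]
      refine Finset.sum_congr rfl fun q _ => ?_
      have : (Pi.single q (f q) : S → ZMod p) = f q • Pi.single q 1 := by
        rw [← Pi.single_smul, smul_eq_mul, mul_one]
      rw [this, map_smul, smul_eq_mul]
    set n : ℕ → ℕ := fun q => if h : q ∈ S then (c ⟨q, h⟩).val else 0 with hn
    have hmem : ∏ q ∈ S, β q ^ n q ∈ ℚ⟮ζ⟯ := by
      rw [← InfiniteGalois.fixedField_fixingSubgroup ℚ⟮ζ⟯, IntermediateField.mem_fixedField_iff]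
      intro σ hσ
      have hσζ : σ ζ = ζ := by
        rw [IntermediateField.mem_fixingSubgroup_iff] at hσ
        exact hσ ζ (IntermediateField.mem_adjoin_simple_self ℚ ζ)
      have hex : ∀ q : S, ∃ i < p, σ (β q) = ζ ^ i * β q := fun q =>
        exists_zeta_pow hζ β hβ σ q (hS q q.2).ne_zero
      choose i hi h1 using hex
      have h2 : (fun q => (i q : ZMod p)) ∈ kummerImage (p := p) ζ S β :=
        ⟨σ, hσζ, fun q => ⟨i q, rfl, h1 q⟩⟩
      have h3 : ∑ q, (i q : ZMod p) * c q = 0 := by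
        rw [← hℓc fun q => (i q : ZMod p)]
        exact hℓ h2
      rw [← Finset.prod_coe_sort, map_prod]
      have h4 : ∀ q : S, σ (β q ^ n q) = ζ ^ (i q * n q) * β q ^ n q := by
        intro q
        rw [map_pow, h1, mul_pow, ← pow_mul]
      rw [Finset.prod_congr rfl fun q _ => h4 q, Finset.prod_mul_distrib, Finset.prod_pow_eq_pow_sum]
      have h5 : ζ ^ (∑ q : S, i q * n q) = ζ ^ 0 := by
        apply zeta_pow_eq_of_cast_eq hζ
        rw [Nat.cast_zero, ← h3, Nat.cast_sum]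
        refine Finset.sum_congr rfl fun q _ => ?_
        rw [Nat.cast_mul, hn]
        simp only [q.2, dite_true, Subtype.coe_eta, ZMod.natCast_val, ZMod.cast_id', id_eq]
      rw [h5, pow_zero, one_mul]
    have h6 := dvd_of_prod_mem hζ S hS β hβ n hmem
    apply hℓ0
    ext f
    have hc0 : ∀ q, c q = 0 := by
      intro q
      have h7 := h6 q q.2
      have h8 : n q = (c q).val := by
        rw [hn]
        simp only [q.2, dite_true, Subtype.coe_eta]
      rw [h8] at h7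
      have h9 : (c q).val = 0 := Nat.eq_zero_of_dvd_of_lt h7 (ZMod.val_lt _)
      exact (ZMod.val_eq_zero _).mp h9
    simp only [LinearMap.zero_comp, LinearMap.zero_apply]
    exact hc0 f
  have h1 : (fun _ => 1 : S → ZMod p) ∈ kummerImage (p := p) ζ S β := htop ▸ Submodule.mem_top
  obtain ⟨σ, hσ, h⟩ := h1
  refine ⟨σ, hσ, fun q hq => ?_⟩
  obtain ⟨i, hi, h2⟩ := h ⟨q, hq⟩
  have h3 : ζ ^ i = ζ ^ 1 := zeta_pow_eq_of_cast_eq hζ (by rw [hi, Nat.cast_one])
  rw [h2, h3, pow_one]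

end Kummer

section Main

open Polynomial in
/-- Existence of auxiliary primes. -/
theorem exists_aux_prime (p : ℕ) [hp : Fact p.Prime] (S : Finset ℕ)
    (hS : ∀ q ∈ S, q.Prime) :
    ∃ r : ℕ, r.Prime ∧ r ∉ S ∧ r ≠ p ∧ p ∣ r - 1 ∧ ∀ q ∈ S, (q : ZMod r) ^ ((r - 1) / p) ≠ 1 := by
  classical
  -- roots
  have : NeZero (p : Qb) := ⟨by exact_mod_cast hp.out.ne_zero⟩
  obtain ⟨ζ, hζ⟩ : ∃ ζ : Qb, IsPrimitiveRoot ζ p := by
    obtain ⟨ζ, h⟩ := IsAlgClosed.exists_root (cyclotomic p Qb)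
      (by rw [degree_cyclotomic]; exact_mod_cast (Nat.totient_pos.mpr hp.out.pos).ne')
    exact ⟨ζ, isRoot_cyclotomic_iff.mp h⟩
  have hβ' : ∀ q : ℕ, ∃ b : Qb, b ^ p = (q : Qb) := fun q =>
    IsAlgClosed.exists_pow_nat_eq _ hp.out.pos
  choose β hβ using hβ'
  obtain ⟨σ, hσζ, hσβ⟩ := exists_sigma hζ S hS β hβ
  -- the number field
  set T : Set Qb := insert ζ (β '' (S : Set ℕ)) with hT
  have hTfin : T.Finite := (S.finite_toSet.image β).insert ζ
  let E0 : IntermediateField ℚ Qb := IntermediateField.adjoin ℚ T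
  have : Finite T := hTfin
  have hE0fin : FiniteDimensional ℚ E0 :=
    IntermediateField.finiteDimensional_adjoin fun x _ => Algebra.IsIntegral.isIntegral x
  let E : IntermediateField ℚ Qb := IntermediateField.normalClosure ℚ E0 Qb
  have hE0E : E0 ≤ E := IntermediateField.le_normalClosure E0
  have : FiniteDimensional ℚ E := normalClosure.is_finiteDimensional ℚ E0 Qb
  have : NumberField E := ⟨⟩
  have : Normal ℚ E := normalClosure.normal ℚ E0 Qb
  have : IsGalois ℚ E := ⟨⟩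
  have hζE : ζ ∈ E := hE0E (IntermediateField.subset_adjoin ℚ T (Set.mem_insert _ _))
  have hβE : ∀ q ∈ S, β q ∈ E := fun q hq => hE0E (IntermediateField.subset_adjoin ℚ T
    (Set.mem_insert_of_mem _ (Set.mem_image_of_mem _ hq)))
  set z : E := ⟨ζ, hζE⟩ with hz
  have hzprim : IsPrimitiveRoot z p := by
    have h1 : algebraMap E Qb z = ζ := rfl
    exact IsPrimitiveRoot.of_map_of_injective (f := algebraMap E Qb) (h1 ▸ hζ)
      (algebraMap E Qb).injective
  let g : E ≃ₐ[ℚ] E := AlgEquiv.restrictNormalHom E σ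
  have hg : ∀ x : E, ((g x : E) : Qb) = σ x := fun x =>
    AlgEquiv.restrictNormal_commutes σ E x
  have hgz : g z = z := Subtype.ext (by rw [hg]; exact hσζ)
  obtain ⟨r, hr, hrS, Q, hQr, -, τ, hτ, hτg⟩ := Agent.Density.frobenius_density E g
    (↑(insert p S) : Set ℕ) (Finset.finite_toSet _)
  have hrS' : r ∉ S := fun h => hrS (by simp [h])
  have hrp : r ≠ p := fun h => hrS (by simp [h])
  -- relation between `τ` and `g`
  have hτmem : τ ∈ Subgroup.zpowers g := hτg ▸ Subgroup.mem_zpowers τ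
  have hgmem : g ∈ Subgroup.zpowers τ := hτg.symm ▸ Subgroup.mem_zpowers g
  have hτz : τ z = z := by
    obtain ⟨k, hk⟩ := hτmem
    have : ∀ k : ℤ, (g ^ k) z = z := by
      intro k
      exact (Subgroup.zpow_mem (MulAction.stabilizer (E ≃ₐ[ℚ] E) z) (show g ∈ _ from hgz) k)
    have h1 := this k
    simp only at hk
    rwa [hk] at h1
  have hτfix : ∀ x : E, τ x = x → g x = x := by
    intro x hx
    obtain ⟨k, hk⟩ := hgmem
    have h1 : (τ ^ k) x = x :=
      Subgroup.zpow_mem (MulAction.stabilizer (E ≃ₐ[ℚ] E) x) (show τ ∈ _ from hx) k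
    simp only at hk
    rwa [hk] at h1
  -- the residue field
  have hzint : IsIntegral ℤ z := hzprim.isIntegral hp.out.pos
  set zO : 𝓞 E := ⟨z, hzint⟩ with hzO
  have hQprime : Q.asIdeal.IsPrime := Q.isPrime
  obtain ⟨k, _, _, π, hπ⟩ : ∃ (k : Type) (_ : CommRing k) (_ : IsDomain k) (π : 𝓞 E →+* k),
      ∀ x, π x = 0 ↔ x ∈ Q.asIdeal :=
    ⟨𝓞 E ⧸ Q.asIdeal, inferInstance, inferInstance, Ideal.Quotient.mk _,
      fun x => Ideal.Quotient.eq_zero_iff_mem⟩
  have hinj : Function.Injective (algebraMap (𝓞 E) E) := FaithfulSMul.algebraMap_injective _ _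
  have hrk : (r : k) = 0 := by
    have := (hπ _).mpr hQr
    rwa [map_natCast] at this
  have hcast : ∀ n : ℤ, (r : ℤ) ∣ n → (n : k) = 0 := by
    rintro _ ⟨m, rfl⟩
    push_cast
    rw [hrk, zero_mul]
  have hcop : ∀ q : ℕ, q.Prime → q ≠ r → (q : k) ≠ 0 := by
    intro q hq hqr h0
    have h1 : Nat.Coprime q r := (Nat.coprime_primes hq hr).mpr hqr
    have h2 : (q : ℤ) * Nat.gcdA q r + (r : ℤ) * Nat.gcdB q r = 1 := by
      rw [← Nat.gcd_eq_gcd_ab, h1]
      rfl
    have h3 := congrArg (Int.cast : ℤ → k) h2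
    push_cast at h3
    rw [h0, hrk, zero_mul, zero_mul, zero_add] at h3
    exact zero_ne_one h3
  have hfrob : ∀ x : 𝓞 E, π (τ • x) = π x ^ r := by
    intro x
    rw [← map_pow, ← sub_eq_zero, ← map_sub]
    exact (hπ _).mpr (hτ x)
  have hcoe : ∀ x : 𝓞 E, ((τ • x : 𝓞 E) : E) = τ x := fun x => rfl
  have hzO1 : zO ^ p = 1 := by
    apply hinj
    rw [map_pow, map_one]
    exact hzprim.pow_eq_one
  have hzsum : ∑ i ∈ Finset.range p, zO ^ i = 0 := by
    apply hinj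
    rw [map_sum]
    simp only [map_pow, map_zero]
    exact hzprim.geom_sum_eq_zero hp.out.one_lt
  have hzk1 : π zO ≠ 1 := by
    intro h1
    have h2 := congrArg π hzsum
    rw [map_sum, map_zero] at h2
    simp only [map_pow, h1, one_pow, Finset.sum_const, Finset.card_range, nsmul_eq_mul,
      mul_one] at h2
    exact hcop p hp.out hrp.symm h2
  have hzk : IsPrimitiveRoot (π zO) p := by
    have h1 := orderOf_eq_prime (x := π zO) (p := p) (by rw [← map_pow, hzO1, map_one]) hzk1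
    rw [← h1]
    exact IsPrimitiveRoot.orderOf _
  have hzk0 : π zO ≠ 0 := hzk.ne_zero hp.out.ne_zero
  have hdvd : p ∣ r - 1 := by
    apply hzk.dvd_of_pow_eq_one
    have h1 := hfrob zO
    have h2 : τ • zO = zO := RingOfIntegers.ext hτz
    rw [h2] at h1
    have h3 : π zO * π zO ^ (r - 1) = π zO * 1 := by
      rw [← pow_succ', Nat.sub_add_cancel hr.one_le, mul_one, ← h1]
    exact mul_left_cancel₀ hzk0 h3
  refine ⟨r, hr, hrS', hrp, hdvd, fun q hq hq1 => ?_⟩
  have hqr : q ≠ r := fun h => hrS' (h ▸ hq)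
  set b : E := ⟨β q, hβE q hq⟩ with hb
  have hbp : b ^ p = (q : E) := by
    apply Subtype.ext
    push_cast
    exact hβ q
  have hbint : IsIntegral ℤ b := by
    refine ⟨X ^ p - C (q : ℤ), monic_X_pow_sub_C _ hp.out.ne_zero, ?_⟩
    rw [eval₂_sub, eval₂_X_pow, eval₂_C, hbp]
    simp
  set bO : 𝓞 E := ⟨b, hbint⟩ with hbO
  have hbOp : bO ^ p = (q : 𝓞 E) := by
    apply hinj
    rw [map_pow, map_natCast]
    exact hbp
  have hbkp : π bO ^ p = (q : k) := by
    rw [← map_pow, hbOp, map_natCast]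
  have hbk0 : π bO ≠ 0 := by
    intro h0
    rw [h0, zero_pow hp.out.ne_zero] at hbkp
    exact hcop q (hS q hq) hqr hbkp.symm
  have hb0 : b ≠ 0 := by
    intro h0
    rw [h0, zero_pow hp.out.ne_zero] at hbp
    have : q ≠ 0 := (hS q hq).ne_zero
    exact this (by exact_mod_cast hbp.symm)
  obtain ⟨i, hi, hi2⟩ : ∃ i < p, τ b = z ^ i * b := by
    have h1 : (τ b / b) ^ p = 1 := by
      rw [div_pow, ← map_pow, hbp, map_natCast, div_self]
      rw [← hbp]
      exact pow_ne_zero _ hb0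
    have : NeZero p := ⟨hp.out.ne_zero⟩
    obtain ⟨i, hi, h2⟩ := hzprim.eq_pow_of_pow_eq_one h1
    exact ⟨i, hi, by rw [h2, div_mul_cancel₀ _ hb0]⟩
  have h1 : τ • bO = zO ^ i * bO := by
    apply hinj
    rw [map_mul, map_pow]
    exact hi2
  have h2 := hfrob bO
  rw [h1, map_mul, map_pow] at h2
  have h3 : π bO ^ r = (π bO ^ p) ^ ((r - 1) / p) * π bO := by
    rw [← pow_mul, Nat.mul_div_cancel' hdvd, ← pow_succ, Nat.sub_add_cancel hr.one_le]
  rw [h3] at h2
  have h4 := mul_right_cancel₀ hbk0 h2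
  have h5 : ((q : k)) ^ ((r - 1) / p) = 1 := by
    have h6 : (r : ℤ) ∣ (q : ℤ) ^ ((r - 1) / p) - 1 := by
      rw [← ZMod.intCast_zmod_eq_zero_iff_dvd _ r]
      push_cast
      rw [hq1, sub_self]
    have h7 := hcast _ h6
    push_cast at h7
    exact sub_eq_zero.mp h7
  rw [hbkp, h5] at h4
  have h6 : p ∣ i := hzk.dvd_of_pow_eq_one i h4
  have h7 : i = 0 := Nat.eq_zero_of_dvd_of_lt h6 hi
  rw [h7, pow_zero, one_mul] at hi2
  have h8 := hτfix b hi2
  have h9 : σ (β q) = β q := by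
    have := hg b
    rw [h8] at this
    exact this.symm
  rw [hσβ q hq] at h9
  have hβ0 : β q ≠ 0 := fun h => hb0 (Subtype.ext h)
  have h10 : ζ = 1 := by
    have : ζ * β q = 1 * β q := by rw [h9, one_mul]
    exact mul_right_cancel₀ hβ0 this
  rw [h10] at hζ
  exact hp.out.one_lt.ne' (hζ.unique IsPrimitiveRoot.one)

end Main

end Fermat.Agent.CFT.Hasse
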