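import Mathlib
import Fermat.Agent.CFT.Hasse.Abstract

/-!
# Cyclic classes and functionals on `H²(μ_p)`
-/

set_option autoImplicit false
set_option linter.unusedSectionVars false

namespace Fermat.Agent.CFT.Hasse

open Fermat.Agent.CFT.LC Fermat.Agent.CFT.D3 Fermat.Agent.CFT.PT

section CycRel

variable {p : ℕ} [hp : Fact p.Prime] {G : Type*} [Group G] {A : Type*} [CommGroup A]
  [MulDistribMulAction G A]

/-- the additive cochain `z` represents the cyclic class of `a` -/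
def CycRel (L : Lvl G) (θ : G →* Multiplicative (ZMod p)) (ζ : A) (z : G × G → ZMod p) (a : A) :
    Prop :=
  ∃ f : G → A, IsLC₁ L f ∧ ∀ x, zp ζ (z x) = cyc θ a x * mdiff f x

variable {L : Lvl G} {θ : G →* Multiplicative (ZMod p)} {ζ : A} {z z' : G × G → ZMod p} {a a' : A}

theorem CycRel.add (hζ : ζ ^ p = 1) (h : CycRel L θ ζ z a) (h' : CycRel L θ ζ z' a') :
    CycRel L θ ζ (z + z') (a * a') := by
  obtain ⟨f, hf, h1⟩ := h
  obtain ⟨f', hf', h1'⟩ := h'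
  refine ⟨f * f', (hf.prod hf').comp fun t => t.1 * t.2, fun x => ?_⟩
  rw [Pi.add_apply, zp_add hζ, h1, h1', cyc_mul, mdiff_mul, Pi.mul_apply, Pi.mul_apply,
    mul_mul_mul_comm]

theorem CycRel.neg (hζ : ζ ^ p = 1) (h : CycRel L θ ζ z a) : CycRel L θ ζ (-z) a⁻¹ := by
  obtain ⟨f, hf, h1⟩ := h
  refine ⟨f⁻¹, hf.comp fun t => t⁻¹, fun x => ?_⟩
  rw [Pi.neg_apply, zp_neg hζ, h1, cyc_inv, mdiff_inv, Pi.inv_apply, Pi.inv_apply, mul_inv]

theorem CycRel.sub (hζ : ζ ^ p = 1) (h : CycRel L θ ζ z a) (h' : CycRel L θ ζ z' a') :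
    CycRel L θ ζ (z - z') (a / a') := by
  rw [sub_eq_add_neg, div_eq_mul_inv]
  exact h.add hζ (h'.neg hζ)

theorem CycRel.of_cob {χc : G →* (ZMod p)ˣ} (K : KData p L χc A ζ) {w : G → ZMod p}
    (hw : IsLC₁ L w) (h : ∀ g h, z (g, h) = (χc g : ZMod p) * w h - w (g * h) + w g) :
    CycRel L θ ζ z 1 := by
  refine ⟨fun g => zp ζ (w g), hw.comp (zp ζ), fun x => ?_⟩
  rw [cyc_one, Pi.one_apply, one_mul, ← K.zp_d1, ← h]

theorem CycRel.pow_p (hθ : L.IsOpen θ.ker) (ha : ∀ g : G, g • a = a) :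
    CycRel L θ ζ 0 (a ^ p) := by
  refine ⟨(fun g => a ^ ix θ g)⁻¹, (isLC₁_ix hθ).comp fun n => (a ^ n)⁻¹, fun x => ?_⟩
  rw [Pi.zero_apply, zp_zero, mdiff_inv, mdiff_pow_ix θ ha, cyc_pow, Pi.inv_apply,
    mul_inv_cancel]

theorem CycRel.exists_of_zero (h : CycRel L θ ζ 0 a) : ∃ f : G → A, IsLC₁ L f ∧ cyc θ a = mdiff f := by
  obtain ⟨f, hf, h1⟩ := h
  refine ⟨f⁻¹, hf.comp fun t => t⁻¹, funext fun x => ?_⟩
  have h2 := h1 x
  rw [Pi.zero_apply, zp_zero] at h2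
  rw [mdiff_inv, Pi.inv_apply]
  exact eq_inv_of_mul_eq_one_left h2.symm

theorem CycRel.pullback {H : Type*} [Group H] {B : Type*} [CommGroup B] [MulDistribMulAction H B]
    {LH : Lvl H} {ρ : H →* G} (hρ : LH.Cont L ρ) (ι : A →* B)
    (hι : ∀ (h : H) (x : A), ι (ρ h • x) = h • ι x) (h : CycRel L θ ζ z a) :
    CycRel LH (θ.comp ρ) (ι ζ) (fun x => z (ρ x.1, ρ x.2)) (ι a) := by
  obtain ⟨f, hf, h1⟩ := h
  refine ⟨fun x => ι (f (ρ x)), (hf.pullback hρ).comp ι, fun x => ?_⟩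
  have e1 : cyc (θ.comp ρ) (ι a) x = ι (cyc θ a (ρ x.1, ρ x.2)) := by
    unfold cyc
    have e2 : ∀ x, ix (θ.comp ρ) x = ix θ (ρ x) := fun x => rfl
    simp only [e2]
    split_ifs
    · rfl
    · rw [map_one]
  rw [← map_zp, h1, map_mul, e1, mdiff_apply, mdiff_apply]
  simp only
  rw [map_div, map_mul, hι, map_mul]

end CycRel

section Functional

variable {p : ℕ} [hp : Fact p.Prime] {G : Type*} [Group G] {V : Type*} [AddCommGroup V]
  [Module (ZMod p) V] {ρ : Representation (ZMod p) G V} {L : Lvl G}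

/-- Construction of functionals on `H²` from a relation. -/
theorem exists_functional (P : (G × G → V) → ZMod p → Prop)
    (hex : ∀ z ∈ Z2 ρ L, ∃ c, P z c) (hwd : ∀ z c c', P z c → P z c' → c = c')
    (hadd : ∀ z z' c c', P z c → P z' c' → P (z + z') (c + c'))
    (hB : ∀ z ∈ B2 ρ L, P z 0) :
    ∃ l : LC.H2 ρ L →ₗ[ZMod p] ZMod p, ∀ (z : Z2 ρ L) (c : ZMod p), P z.1 c →
      l (H2.mk ρ L z) = c := by
  choose c hc using fun z : Z2 ρ L => hex z.1 z.2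
  let l0 : Z2 ρ L →+ ZMod p :=
    AddMonoidHom.mk' c fun z z' => hwd _ _ _ (hc (z + z')) (hadd _ _ _ _ (hc z) (hc z'))
  let l1 : Z2 ρ L →ₗ[ZMod p] ZMod p := l0.toZModLinearMap p
  have hl1 : (B2 ρ L).comap (Z2 ρ L).subtype ≤ LinearMap.ker l1 := by
    intro z hz
    rw [LinearMap.mem_ker]
    exact hwd _ _ _ (hc z) (hB _ hz)
  exact ⟨Submodule.liftQ _ l1 hl1, fun z d hd => hwd _ _ _ (hc z) hd⟩

end Functional

end Fermat.Agent.CFT.Hasse
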