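import Mathlib

/-!
# A discrete logarithm modulo `r` with values in `ZMod p`
-/

set_option autoImplicit false
set_option linter.unusedSectionVars false

namespace Fermat.Agent.CFT.Hasse

section Dlog

variable {p r : ℕ} [hp : Fact p.Prime] [hr : Fact r.Prime]

theorem exists_dlog (h : p ∣ r - 1) :
    ∃ Λ : (ZMod r)ˣ →* Multiplicative (ZMod p), Function.Surjective Λ ∧
      ∀ x, Λ x = 1 ↔ x ^ ((r - 1) / p) = 1 := by
  let pw : (ZMod r)ˣ →* (ZMod r)ˣ := powMonoidHom ((r - 1) / p)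
  have hr1 : 0 < r - 1 := Nat.sub_pos_of_lt hr.out.one_lt
  have hcard : Nat.card pw.range = p := by
    rw [IsCyclic.card_powMonoidHom_range, Nat.card_eq_fintype_card, ZMod.card_units,
      Nat.gcd_eq_right (Nat.div_dvd_of_dvd h), Nat.div_div_self h hr1.ne']
  have hcard' : Nat.card (Multiplicative (ZMod p)) = p := by
    rw [Nat.card_congr (Multiplicative.toAdd (α := ZMod p)), Nat.card_zmod]
  let e : pw.range ≃* Multiplicative (ZMod p) := mulEquivOfPrimeCardEq hcard hcard'
  refine ⟨e.toMonoidHom.comp pw.rangeRestrict,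
    e.surjective.comp pw.rangeRestrict_surjective, fun x => ?_⟩
  show e (pw.rangeRestrict x) = 1 ↔ _
  rw [map_eq_one_iff e e.injective]
  constructor
  · intro h1
    exact congrArg Subtype.val h1
  · intro h1
    exact Subtype.ext h1

variable (Λ : (ZMod r)ˣ →* Multiplicative (ZMod p))

open Classical in
/-- the discrete logarithm of a natural number -/
noncomputable def ell (n : ℕ) : ZMod p :=
  if h : n.Coprime r then Multiplicative.toAdd (Λ (ZMod.unitOfCoprime n h)) else 0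

theorem ell_of_coprime {n : ℕ} (h : n.Coprime r) :
    ell Λ n = Multiplicative.toAdd (Λ (ZMod.unitOfCoprime n h)) := dif_pos h

theorem ell_self : ell Λ r = 0 := by
  refine dif_neg fun h => ?_
  rw [Nat.coprime_self] at h
  exact hr.out.one_lt.ne' h

theorem ell_mul {m n : ℕ} (hm : m.Coprime r) (hn : n.Coprime r) :
    ell Λ (m * n) = ell Λ m + ell Λ n := by
  rw [ell_of_coprime Λ (hm.mul_left hn), ell_of_coprime Λ hm, ell_of_coprime Λ hn, ← toAdd_mul,
    ← map_mul]
  congr 2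
  apply Units.ext
  simp

theorem ell_one : ell Λ 1 = 0 := by
  rw [ell_of_coprime Λ (Nat.coprime_one_left r)]
  have : ZMod.unitOfCoprime 1 (Nat.coprime_one_left r) = 1 := Units.ext (by simp)
  rw [this, map_one, toAdd_one]

theorem ell_eq_sum {n : ℕ} (hn0 : n ≠ 0) (hn : n.Coprime r) (T : Finset ℕ)
    (hT : n.primeFactors ⊆ T) :
    ell Λ n = ∑ q ∈ T, (n.factorization q : ZMod p) * ell Λ q := by
  induction n using Nat.recOnMul generalizing T with
  | zero => exact absurd rfl hn0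
  | one => simp [ell_one]
  | prime q hq =>
    rw [hq.factorization, Finset.sum_eq_single q]
    · simp
    · intro b _ hb
      rw [Finsupp.single_eq_of_ne hb]
      simp
    · intro h
      exact absurd (hT (by simp [hq])) h
  | mul a b iha ihb =>
    have ha0 : a ≠ 0 := fun h => hn0 (by rw [h, zero_mul])
    have hb0 : b ≠ 0 := fun h => hn0 (by rw [h, mul_zero])
    have ha : a.Coprime r := Nat.Coprime.coprime_mul_right hn
    have hb : b.Coprime r := Nat.Coprime.coprime_mul_left hn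
    rw [Nat.primeFactors_mul ha0 hb0] at hT
    rw [ell_mul Λ ha hb, iha ha0 ha T (Finset.union_subset_left hT),
      ihb hb0 hb T (Finset.union_subset_right hT), ← Finset.sum_add_distrib]
    refine Finset.sum_congr rfl fun q _ => ?_
    rw [Nat.factorization_mul ha0 hb0, Finsupp.add_apply]
    push_cast
    ring

/-- the product formula for the discrete logarithm -/
theorem sum_ell_eq_zero (hΛ : ∀ x, Λ x = 1 ↔ x ^ ((r - 1) / p) = 1) (hpr : p ∣ r - 1) {n : ℕ}
    (hn0 : n ≠ 0) {v : ℤ}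
    (hv : ‖((n : ℚ_[r]) * (r : ℚ_[r]) ^ (-v)) ^ ((r - 1) / p) - 1‖ < 1) (T : Finset ℕ)
    (hT : n.primeFactors ⊆ T) :
    ∑ q ∈ T, (n.factorization q : ZMod p) * ell Λ q = 0 := by
  have hr1 : 0 < r - 1 := Nat.sub_pos_of_lt hr.out.one_lt
  have hk : 0 < (r - 1) / p := Nat.div_pos (Nat.le_of_dvd hr1 hpr) hp.out.pos
  set k := (r - 1) / p with hkdef
  set i := n.factorization r with hi
  set N := n / r ^ i with hN
  have hnN : r ^ i * N = n := Nat.ordProj_mul_ordCompl_eq_self n r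
  have hNr : r.Coprime N := Nat.coprime_ordCompl hr.out hn0
  have hN0 : N ≠ 0 := by
    intro h
    rw [h, mul_zero] at hnN
    exact hn0 hnN.symm
  have hrr : (r : ℚ_[r]) ≠ 0 := by exact_mod_cast hr.out.ne_zero
  have hr0 : (0 : ℝ) < r := by exact_mod_cast hr.out.pos
  have hr1' : (r : ℝ) ≠ 1 := by exact_mod_cast hr.out.one_lt.ne'
  have hNnorm : ‖(N : ℚ_[r])‖ = 1 := Padic.norm_natCast_eq_one_iff.mpr hNr
  have hcast : (n : ℚ_[r]) * (r : ℚ_[r]) ^ (-v) = (r : ℚ_[r]) ^ ((i : ℤ) - v) * N := by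
    rw [← hnN, sub_eq_add_neg, zpow_add₀ hrr, zpow_natCast]
    push_cast
    ring
  have hone : ‖(n : ℚ_[r]) * (r : ℚ_[r]) ^ (-v)‖ = 1 := by
    have h1 : ‖((n : ℚ_[r]) * (r : ℚ_[r]) ^ (-v)) ^ k‖ = 1 := by
      have h2 : ‖((n : ℚ_[r]) * (r : ℚ_[r]) ^ (-v)) ^ k‖ =
          max ‖((n : ℚ_[r]) * (r : ℚ_[r]) ^ (-v)) ^ k - 1‖ ‖(1 : ℚ_[r])‖ := by
        conv_lhs => rw [← sub_add_cancel (((n : ℚ_[r]) * (r : ℚ_[r]) ^ (-v)) ^ k) 1]
        refine IsUltrametricDist.norm_add_eq_max_of_norm_ne_norm ?_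
        rw [norm_one]
        exact hv.ne
      rw [h2, norm_one, max_eq_right hv.le]
    rw [norm_pow] at h1
    exact (pow_eq_one_iff_of_nonneg (norm_nonneg _) hk.ne').mp h1
  have hiv : (i : ℤ) - v = 0 := by
    rw [hcast, norm_mul, hNnorm, mul_one, norm_zpow, Padic.norm_p, inv_zpow, ← zpow_neg] at hone
    have h1 : (r : ℝ) ^ (-((i : ℤ) - v)) = (r : ℝ) ^ (0 : ℤ) := by rw [hone, zpow_zero]
    have h2 := zpow_right_injective₀ hr0 hr1' h1
    omega
  rw [hcast, hiv, zpow_zero, one_mul] at hv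
  have hdvd : (r : ℤ) ∣ (N : ℤ) ^ k - 1 := by
    rw [← Padic.norm_intCast_lt_one_iff]
    push_cast
    exact hv
  have hNk : (N : ZMod r) ^ k = 1 := by
    have h1 := (ZMod.intCast_zmod_eq_zero_iff_dvd ((N : ℤ) ^ k - 1) r).mpr hdvd
    push_cast at h1
    exact sub_eq_zero.mp h1
  have hell : ell Λ N = 0 := by
    rw [ell_of_coprime Λ hNr.symm]
    have h1 : Λ (ZMod.unitOfCoprime N hNr.symm) = 1 := by
      rw [hΛ]
      apply Units.ext
      simpa using hNk
    rw [h1, toAdd_one]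
  have hfac : N.factorization = n.factorization.erase r := Nat.factorization_ordCompl n r
  have hsub : N.primeFactors ⊆ T := by
    refine (Nat.primeFactors_mono ?_ hn0).trans hT
    exact Dvd.intro_left _ hnN
  rw [← hell, ell_eq_sum Λ hN0 hNr.symm T hsub]
  refine Finset.sum_congr rfl fun q _ => ?_
  rcases eq_or_ne q r with rfl | hq
  · rw [ell_self, mul_zero, mul_zero]
  · rw [hfac, Finsupp.erase_ne hq]

end Dlog

end Fermat.Agent.CFT.Hasse
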