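import Mathlib

/-!
# Values of elements of unramified cyclotomic extensions of `ℚ_q`

If `ζ ^ n = 1` with `n` prime to `q` then every nonzero element of `ℚ_q(ζ)` has norm in `q ^ ℤ`.
-/

set_option autoImplicit false
set_option linter.unusedSectionVars false

open Polynomial IntermediateField

namespace Fermat.Agent.CFT.Hasse

section UnrVal

variable {q : ℕ} [hq : Fact q.Prime]

theorem norm_gal (σ : PadicAlgCl q ≃ₐ[ℚ_[q]] PadicAlgCl q) (x : PadicAlgCl q) : ‖σ x‖ = ‖x‖ :=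
  (spectralNorm_eq_of_equiv σ x).symm

theorem norm_natCast_self : ‖(q : PadicAlgCl q)‖ = (q : ℝ)⁻¹ := by
  have h := PadicAlgCl.norm_extends q (q : ℚ_[q])
  rw [Padic.norm_p] at h
  rw [← h]
  simp

theorem norm_padicInt_le_one (c : ℤ_[q]) : ‖algebraMap ℤ_[q] (PadicAlgCl q) c‖ ≤ 1 := by
  rw [IsScalarTower.algebraMap_apply ℤ_[q] ℚ_[q] (PadicAlgCl q), norm_algebraMap']
  exact c.2

theorem padicInt_pow_sub (c : ℤ_[q]) (k : ℕ) : ∃ d : ℤ_[q], c ^ q ^ k - c = q * d := by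
  have h1 : c ^ q ^ k - c ∈ RingHom.ker (PadicInt.toZMod (p := q)) := by
    rw [RingHom.mem_ker, map_sub, map_pow, ZMod.pow_card_pow, sub_self]
  rw [PadicInt.ker_toZMod, PadicInt.maximalIdeal_eq_span_p, Ideal.mem_span_singleton] at h1
  exact h1

/-- the ring `ℤ_q[ζ]` -/
noncomputable def zq (ζ : PadicAlgCl q) : Subalgebra ℤ_[q] (PadicAlgCl q) :=
  Algebra.adjoin ℤ_[q] {ζ}

theorem norm_le_one_of_mem_zq {ζ : PadicAlgCl q} (hζ : ‖ζ‖ ≤ 1) {x : PadicAlgCl q}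
    (hx : x ∈ zq ζ) : ‖x‖ ≤ 1 := by
  refine Algebra.adjoin_induction (p := fun x _ => ‖x‖ ≤ 1) ?_ ?_ ?_ ?_ hx
  · rintro x rfl
    exact hζ
  · exact norm_padicInt_le_one
  · intro x y _ _ hx hy
    exact (IsUltrametricDist.norm_add_le_max x y).trans (max_le hx hy)
  · intro x y _ _ hx hy
    rw [norm_mul]
    exact mul_le_one₀ hx (norm_nonneg _) hy

/-- the Frobenius congruence in `ℤ_q[ζ]` -/
theorem pow_sub_mem_zq {ζ : PadicAlgCl q} {k : ℕ} (hζ : ζ ^ q ^ k = ζ) {x : PadicAlgCl q}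
    (hx : x ∈ zq ζ) : ∃ y ∈ zq ζ, x ^ q ^ k - x = q * y := by
  refine Algebra.adjoin_induction (p := fun x _ => ∃ y ∈ zq ζ, x ^ q ^ k - x = q * y)
    ?_ ?_ ?_ ?_ hx
  · rintro x rfl
    exact ⟨0, (zq _).zero_mem, by rw [hζ]; ring⟩
  · intro c
    obtain ⟨d, hd⟩ := padicInt_pow_sub c k
    refine ⟨algebraMap _ _ d, (zq ζ).algebraMap_mem d, ?_⟩
    rw [← map_pow, ← map_sub, hd, map_mul, map_natCast]
  · rintro x y hx hy ⟨x', hx', hx1⟩ ⟨y', hy', hy1⟩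
    obtain ⟨r, hr⟩ := exists_add_pow_prime_pow_eq hq.out (⟨x, hx⟩ : zq ζ) ⟨y, hy⟩ k
    have hr1 : (x + y) ^ q ^ k = x ^ q ^ k + y ^ q ^ k + q * x * y * r := congrArg Subtype.val hr
    refine ⟨x' + y' + x * y * r, add_mem (add_mem hx' hy') (mul_mem (mul_mem hx hy) r.2), ?_⟩
    rw [hr1]
    linear_combination hx1 + hy1
  · rintro x y hx hy ⟨x', hx', hx1⟩ ⟨y', hy', hy1⟩
    refine ⟨x ^ q ^ k * y' + x' * y, add_mem (mul_mem (pow_mem hx _) hy') (mul_mem hx' hy), ?_⟩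
    rw [mul_pow]
    linear_combination x ^ q ^ k * hy1 + y * hx1

theorem mem_range_of_mem_adjoin {ζ : PadicAlgCl q} {n : ℕ} (hn : n ≠ 0) (hζ : ζ ^ n = 1)
    {x : PadicAlgCl q} (hx : x ∈ ℚ_[q]⟮ζ⟯) :
    ∃ c : Fin n → ℚ_[q], Fintype.linearCombination ℚ_[q] (fun i : Fin n => ζ ^ (i : ℕ)) c = x := by
  have h1 : x ∈ Algebra.adjoin ℚ_[q] {ζ} := by
    rw [← IntermediateField.adjoin_simple_toSubalgebra_of_isAlgebraic
      (Algebra.IsAlgebraic.isAlgebraic ζ)]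
    exact hx
  rw [Algebra.adjoin_singleton_eq_range_aeval] at h1
  obtain ⟨P, rfl⟩ := h1
  have hmon : (X ^ n - C 1 : ℚ_[q][X]).Monic := monic_X_pow_sub_C _ hn
  set P' := P %ₘ (X ^ n - C 1) with hP'
  have h2 : aeval ζ P = aeval ζ P' := by
    conv_lhs => rw [← modByMonic_add_div P (X ^ n - C 1)]
    rw [map_add, map_mul]
    have : aeval ζ (X ^ n - C 1 : ℚ_[q][X]) = 0 := by simp [hζ]
    rw [this, zero_mul, add_zero]
  have hne : (X ^ n - C 1 : ℚ_[q][X]) ≠ 1 := by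
    intro h
    have := natDegree_X_pow_sub_C (n := n) (r := (1 : ℚ_[q]))
    rw [h, natDegree_one] at this
    exact hn this.symm
  have h3 : P'.natDegree < n := by
    have := natDegree_modByMonic_lt P hmon hne
    rwa [natDegree_X_pow_sub_C] at this
  refine ⟨fun i => P'.coeff i, ?_⟩
  rw [Fintype.linearCombination_apply]
  show _ = aeval ζ P
  rw [h2, aeval_eq_sum_range' h3, ← Fin.sum_univ_eq_sum_range (fun i => P'.coeff i • ζ ^ i)]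

/-- Small elements of `ℚ_q(ζ)` are in `q ℤ_q[ζ]`. -/
theorem exists_delta {ζ : PadicAlgCl q} {n : ℕ} (hn : n ≠ 0) (hζ : ζ ^ n = 1) :
    ∃ δ : ℝ, 0 < δ ∧ ∀ x ∈ ℚ_[q]⟮ζ⟯, ‖x‖ < δ → ∃ y ∈ zq ζ, x = q * y := by
  set T : (Fin n → ℚ_[q]) →ₗ[ℚ_[q]] PadicAlgCl q :=
    Fintype.linearCombination ℚ_[q] (fun i : Fin n => ζ ^ (i : ℕ)) with hT
  let V := LinearMap.range T
  have hV : CompleteSpace V := FiniteDimensional.complete ℚ_[q] V
  let T1 : (Fin n → ℚ_[q]) →L[ℚ_[q]] V := LinearMap.toContinuousLinearMap T.rangeRestrict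
  have hT1 : Function.Surjective T1 := T.surjective_rangeRestrict
  obtain ⟨C, hC, h1⟩ := T1.exists_preimage_norm_le hT1
  have hq0 : (0 : ℝ) < q := by exact_mod_cast hq.out.pos
  refine ⟨(C * q)⁻¹, by positivity, fun x hx hxδ => ?_⟩
  obtain ⟨c, hc⟩ := mem_range_of_mem_adjoin hn hζ hx
  obtain ⟨d, hd1, hd2⟩ := h1 ⟨x, ⟨c, hc⟩⟩
  have hd3 : ‖d‖ ≤ (q : ℝ)⁻¹ := by
    refine hd2.trans ?_
    have : ‖(⟨x, ⟨c, hc⟩⟩ : V)‖ = ‖x‖ := rfl
    rw [this]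
    calc C * ‖x‖ ≤ C * (C * q)⁻¹ := by gcongr
      _ = (q : ℝ)⁻¹ := by
        rw [mul_inv, ← mul_assoc, mul_inv_cancel₀ hC.ne', one_mul]
  have hqq : (q : ℚ_[q]) ≠ 0 := by exact_mod_cast hq.out.ne_zero
  have hd4 : ∀ i, ‖d i / q‖ ≤ 1 := by
    intro i
    rw [norm_div, Padic.norm_p, div_inv_eq_mul]
    have := (norm_le_pi_norm d i).trans hd3
    calc ‖d i‖ * q ≤ (q : ℝ)⁻¹ * q := by gcongr
      _ = 1 := inv_mul_cancel₀ hq0.ne'
  let e : Fin n → ℤ_[q] := fun i => ⟨d i / q, hd4 i⟩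
  have he : ∀ i, algebraMap ℤ_[q] ℚ_[q] (e i) = d i / q := fun i => rfl
  refine ⟨∑ i : Fin n, algebraMap ℤ_[q] (PadicAlgCl q) (e i) * ζ ^ (i : ℕ), ?_, ?_⟩
  · refine sum_mem fun i _ => mul_mem ((zq ζ).algebraMap_mem _) (pow_mem ?_ _)
    exact Algebra.subset_adjoin rfl
  · have h2 : T d = x := congrArg Subtype.val hd1
    rw [← h2, hT, Fintype.linearCombination_apply, Finset.mul_sum]
    refine Finset.sum_congr rfl fun i _ => ?_
    rw [IsScalarTower.algebraMap_apply ℤ_[q] ℚ_[q] (PadicAlgCl q), Algebra.smul_def, ← mul_assoc,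
      he]
    congr 1
    rw [← map_natCast (algebraMap ℚ_[q] (PadicAlgCl q)) q, ← map_mul, mul_div_cancel₀ _ hqq]

/-- Every nonzero element of an unramified cyclotomic extension of `ℚ_q` has norm in `q ^ ℤ`. -/
theorem exists_norm_eq_zpow {ζ : PadicAlgCl q} {n : ℕ} (hn : n ≠ 0) (hqn : q.Coprime n)
    (hζ : ζ ^ n = 1) {x : PadicAlgCl q} (hx : x ∈ ℚ_[q]⟮ζ⟯) (hx0 : x ≠ 0) :
    ∃ m : ℤ, ‖x‖ = (q : ℝ) ^ m := by
  have hq1 : (1 : ℝ) < q := by exact_mod_cast hq.out.one_lt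
  have hq0 : (0 : ℝ) < q := by linarith
  have hqq : (q : PadicAlgCl q) ≠ 0 := by exact_mod_cast hq.out.ne_zero
  have hqK : (q : PadicAlgCl q) ∈ ℚ_[q]⟮ζ⟯ := _root_.natCast_mem _ q
  have hζ1 : ‖ζ‖ = 1 := by
    have h1 : ‖ζ‖ ^ n = 1 := by rw [← norm_pow, hζ, norm_one]
    exact (pow_eq_one_iff_of_nonneg (norm_nonneg _) hn).mp h1
  have hζ1' := hζ1.le
  obtain ⟨δ, hδ, hsmall⟩ := exists_delta hn hζ
  -- the maximal power of `q` dividing `x`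
  have hqm : ∀ m : ℤ, ‖(q : PadicAlgCl q) ^ m‖ = (q : ℝ) ^ (-m) := by
    intro m
    rw [norm_zpow, norm_natCast_self, inv_zpow, zpow_neg]
  obtain ⟨m, ⟨y, hy, hxy⟩, hmax⟩ := Int.exists_greatest_of_bdd
    (P := fun m : ℤ => ∃ y ∈ zq ζ, x = (q : PadicAlgCl q) ^ m * y) (by
      obtain ⟨N, hN⟩ := exists_pow_lt_of_lt_one (y := (q : ℝ)⁻¹) (norm_pos_iff.mpr hx0)
        (inv_lt_one_of_one_lt₀ hq1)
      refine ⟨N, fun m hm => ?_⟩
      obtain ⟨y, hy, hxy⟩ := hm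
      by_contra hlt
      rw [not_le] at hlt
      have h1 : ‖x‖ ≤ (q : ℝ) ^ (-m) := by
        rw [hxy, norm_mul, hqm]
        exact mul_le_of_le_one_right (by positivity) (norm_le_one_of_mem_zq hζ1' hy)
      have h2 : (q : ℝ) ^ (-m) ≤ (q : ℝ) ^ (-(N : ℤ)) :=
        zpow_le_zpow_right₀ hq1.le (by omega)
      rw [inv_pow, ← zpow_natCast, ← zpow_neg] at hN
      linarith) (by
      obtain ⟨N, hN⟩ := exists_pow_lt_of_lt_one (y := (q : ℝ)⁻¹)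
        (div_pos hδ (norm_pos_iff.mpr hx0)) (inv_lt_one_of_one_lt₀ hq1)
      obtain ⟨y, hy, hy2⟩ := hsmall (q ^ N * x) (mul_mem (pow_mem hqK N) hx) (by
        rw [norm_mul, norm_pow, norm_natCast_self]
        calc (q : ℝ)⁻¹ ^ N * ‖x‖ < δ / ‖x‖ * ‖x‖ := by
              have := norm_pos_iff.mpr hx0
              gcongr
          _ = δ := div_mul_cancel₀ _ (norm_ne_zero_iff.mpr hx0))
      refine ⟨1 - N, y, hy, ?_⟩
      rw [sub_eq_add_neg, zpow_add₀ hqq, zpow_one, mul_right_comm, ← hy2, zpow_neg, zpow_natCast]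
      field_simp)
  refine ⟨-m, ?_⟩
  rw [hxy, norm_mul, hqm]
  suffices h : ‖y‖ = 1 by rw [h, mul_one]
  refine le_antisymm (norm_le_one_of_mem_zq hζ1' hy) (le_of_not_gt fun hlt => ?_)
  -- a contradiction
  have hyK : y ∈ ℚ_[q]⟮ζ⟯ := by
    have : y = x / (q : PadicAlgCl q) ^ m := by
      rw [hxy, mul_div_cancel_left₀ _ (zpow_ne_zero _ hqq)]
    rw [this]
    exact div_mem hx (zpow_mem hqK m)
  set t := n.totient with ht
  have ht0 : 0 < t := Nat.totient_pos.mpr (Nat.pos_of_ne_zero hn)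
  have hζt : ∀ j : ℕ, ζ ^ q ^ (t * j) = ζ := by
    intro j
    have h1 : q ^ (t * j) ≡ 1 [MOD n] := by
      have := (Nat.ModEq.pow_totient hqn).pow j
      rwa [one_pow, ← pow_mul] at this
    have h2 : ζ ^ q ^ (t * j) = ζ ^ 1 := by
      rw [pow_eq_pow_mod _ hζ, h1, ← pow_eq_pow_mod _ hζ]
    rwa [pow_one] at h2
  obtain ⟨j, hj⟩ := exists_pow_lt_of_lt_one hδ hlt
  have h1 : ‖y ^ q ^ (t * j)‖ < δ := by
    rw [norm_pow]
    refine lt_of_le_of_lt (pow_le_pow_of_le_one (norm_nonneg _) hlt.le ?_) hj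
    calc j ≤ t * j := Nat.le_mul_of_pos_left j ht0
      _ ≤ q ^ (t * j) := (Nat.lt_pow_self hq.out.one_lt).le
  obtain ⟨y1, hy1, hy2⟩ := hsmall _ (pow_mem hyK _) h1
  obtain ⟨y3, hy3, hy4⟩ := pow_sub_mem_zq (hζt j) hy
  have h2 := hmax (m + 1) ⟨y1 - y3, sub_mem hy1 hy3, by
    rw [zpow_add₀ hqq, zpow_one, mul_assoc, mul_sub, ← hy2, ← hy4, sub_sub_cancel, hxy]⟩
  omega

end UnrVal

end Fermat.Agent.CFT.Hasse
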