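import Mathlib
import Fermat.Agent.CFT.Hasse.UnrVal

/-!
# Norms from the degree `p` subextension of `ℚ_r(ζ_r)`
-/

set_option autoImplicit false
set_option linter.unusedSectionVars false

open Polynomial IntermediateField

namespace Fermat.Agent.CFT.Hasse

section OneUnits

variable {K : Type*} [NormedField K] [IsUltrametricDist K]

theorem norm_mul_sub_one_lt {x y : K} (hx : ‖x - 1‖ < 1) (hy : ‖y - 1‖ < 1) :
    ‖x * y - 1‖ < 1 := by
  have h1 : x * y - 1 = (x - 1) * (y - 1) + ((x - 1) + (y - 1)) := by ring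
  rw [h1]
  refine (IsUltrametricDist.norm_add_le_max _ _).trans_lt (max_lt ?_ ?_)
  · rw [norm_mul]
    exact mul_lt_one_of_nonneg_of_lt_one_left (norm_nonneg _) hx hy.le
  · exact (IsUltrametricDist.norm_add_le_max _ _).trans_lt (max_lt hx hy)

theorem norm_prod_sub_one_lt {ι : Type*} (s : Finset ι) (f : ι → K)
    (h : ∀ i ∈ s, ‖f i - 1‖ < 1) : ‖∏ i ∈ s, f i - 1‖ < 1 :=
  Finset.prod_induction f (fun x => ‖x - 1‖ < 1) (fun _ _ => norm_mul_sub_one_lt) (by simp) h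

theorem norm_eq_one_of_sub {x : K} (hx : ‖x - 1‖ < 1) : ‖x‖ = 1 := by
  have h1 : ‖x‖ = max ‖x - 1‖ ‖(1 : K)‖ := by
    conv_lhs => rw [← sub_add_cancel x 1]
    refine IsUltrametricDist.norm_add_eq_max_of_norm_ne_norm ?_
    rw [norm_one]
    exact hx.ne
  rw [h1, norm_one, max_eq_right hx.le]

end OneUnits

section Ramified

variable {r : ℕ} [hr : Fact r.Prime] {ζ : PadicAlgCl r}

theorem norm_one_sub_pow_le {η : PadicAlgCl r} (hη : ‖η‖ ≤ 1) (c : ℕ) :
    ‖1 - η ^ c‖ ≤ ‖1 - η‖ := by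
  rw [← mul_neg_geom_sum, norm_mul]
  refine mul_le_of_le_one_right (norm_nonneg _) ?_
  refine IsUltrametricDist.norm_sum_le_of_forall_le_of_nonneg zero_le_one fun i _ => ?_
  rw [norm_pow]
  exact pow_le_one₀ (norm_nonneg _) hη

variable (hζ : IsPrimitiveRoot ζ r)

include hζ

theorem norm_zeta : ‖ζ‖ = 1 := by
  have h1 : ‖ζ‖ ^ r = 1 := by rw [← norm_pow, hζ.pow_eq_one, norm_one]
  exact (pow_eq_one_iff_of_nonneg (norm_nonneg _) hr.out.ne_zero).mp h1

theorem norm_one_sub_pow_eq {c : ℕ} (hc : c.Coprime r) : ‖1 - ζ ^ c‖ = ‖1 - ζ‖ := by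
  have hz := (norm_zeta hζ).le
  refine le_antisymm (norm_one_sub_pow_le hz c) ?_
  obtain ⟨m, -, hm⟩ := Nat.exists_mul_mod_eq_one_of_coprime hc hr.out.one_lt
  have h1 : (ζ ^ c) ^ m = ζ := by
    rw [← pow_mul, pow_eq_pow_mod _ hζ.pow_eq_one, hm, pow_one]
  calc ‖1 - ζ‖ = ‖1 - (ζ ^ c) ^ m‖ := by rw [h1]
    _ ≤ ‖1 - ζ ^ c‖ := norm_one_sub_pow_le (by
      rw [norm_pow]; exact pow_le_one₀ (norm_nonneg _) hz) m

theorem prod_one_sub : ∏ k ∈ Finset.range (r - 1), (1 - ζ ^ (k + 1)) = (r : PadicAlgCl r) := by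
  have h1 : r = (r - 1) + 1 := (Nat.sub_add_cancel hr.out.one_le).symm
  have h2 : IsPrimitiveRoot ζ ((r - 1) + 1) := by rwa [← h1]
  rw [h2.prod_one_sub_pow_eq_order]
  exact_mod_cast congrArg (Nat.cast (R := PadicAlgCl r)) h1.symm

theorem norm_lambda_pow : ‖1 - ζ‖ ^ (r - 1) = (r : ℝ)⁻¹ := by
  rw [← norm_natCast_self, ← prod_one_sub hζ, norm_prod]
  have : ∀ k ∈ Finset.range (r - 1), ‖1 - ζ ^ (k + 1)‖ = ‖1 - ζ‖ := by
    intro k hk
    refine norm_one_sub_pow_eq hζ ((Nat.coprime_comm.mp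
      ((Nat.Prime.coprime_iff_not_dvd hr.out).mpr fun hd => ?_)))
    have := Nat.le_of_dvd (Nat.succ_pos k) hd
    rw [Finset.mem_range] at hk
    omega
  rw [Finset.prod_congr rfl this, Finset.prod_const, Finset.card_range]

theorem lambda_pos : 0 < ‖1 - ζ‖ := by
  rw [norm_pos_iff, sub_ne_zero]
  exact (hζ.ne_one hr.out.one_lt).symm

theorem lambda_lt_one : ‖1 - ζ‖ < 1 := by
  by_contra h
  rw [not_lt] at h
  have h1 := one_le_pow₀ h (n := r - 1)
  rw [norm_lambda_pow hζ] at h1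
  have h2 : (r : ℝ)⁻¹ < 1 := inv_lt_one_of_one_lt₀ (by exact_mod_cast hr.out.one_lt)
  linarith

/-- the norm of a term -/
theorem norm_term {a : ℚ_[r]} (ha : a ≠ 0) (i : ℕ) :
    ‖algebraMap ℚ_[r] (PadicAlgCl r) a * (1 - ζ) ^ i‖ =
      ‖1 - ζ‖ ^ (((r - 1 : ℕ) : ℤ) * a.valuation + i) := by
  have h0 := (lambda_pos hζ).ne'
  rw [norm_mul, norm_algebraMap', norm_pow, Padic.norm_eq_zpow_neg_valuation ha,
    zpow_add₀ h0, zpow_natCast, zpow_mul, zpow_natCast, norm_lambda_pow hζ, inv_zpow, zpow_neg]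

theorem norm_term_ne {a b : ℚ_[r]} (ha : a ≠ 0) (hb : b ≠ 0) {i j : ℕ} (hi : i < r - 1)
    (hj : j < r - 1) (hij : i ≠ j) :
    ‖algebraMap ℚ_[r] (PadicAlgCl r) a * (1 - ζ) ^ i‖ ≠
      ‖algebraMap ℚ_[r] (PadicAlgCl r) b * (1 - ζ) ^ j‖ := by
  rw [norm_term hζ ha, norm_term hζ hb]
  intro h
  have h1 := zpow_right_injective₀ (lambda_pos hζ) (lambda_lt_one hζ).ne h
  apply hij
  have h2 : (i : ℤ) = j := by
    have h3 : ((i : ℤ)) % ((r - 1 : ℕ) : ℤ) = (j : ℤ) % ((r - 1 : ℕ) : ℤ) := by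
      have := congrArg (· % ((r - 1 : ℕ) : ℤ)) h1
      simpa [Int.add_emod] using this
    rwa [Int.emod_eq_of_lt (by positivity) (by exact_mod_cast hi),
      Int.emod_eq_of_lt (by positivity) (by exact_mod_cast hj)] at h3
  exact_mod_cast h2

/-- the dominant term -/
theorem exists_dominant {c : Fin (r - 1) → ℚ_[r]} (hc : c ≠ 0) :
    ∃ i : Fin (r - 1), c i ≠ 0 ∧ ∃ w : PadicAlgCl r, ‖w - 1‖ < 1 ∧
      ∑ j, algebraMap ℚ_[r] (PadicAlgCl r) (c j) * (1 - ζ) ^ (j : ℕ) =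
        algebraMap ℚ_[r] (PadicAlgCl r) (c i) * (1 - ζ) ^ (i : ℕ) * w := by
  classical
  obtain ⟨i0, hi0⟩ : ∃ i, c i ≠ 0 := Function.ne_iff.mp hc
  set t : Fin (r - 1) → PadicAlgCl r :=
    fun j => algebraMap ℚ_[r] (PadicAlgCl r) (c j) * (1 - ζ) ^ (j : ℕ) with ht
  have hlam0 : (1 - ζ) ≠ 0 := norm_pos_iff.mp (lambda_pos hζ)
  have ht0 : ∀ j, c j ≠ 0 → t j ≠ 0 := fun j hj => mul_ne_zero
    ((map_ne_zero (algebraMap ℚ_[r] (PadicAlgCl r))).mpr hj) (pow_ne_zero _ hlam0)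
  obtain ⟨i, -, hi⟩ := Finset.exists_max_image Finset.univ (fun j => ‖t j‖) ⟨i0, Finset.mem_univ _⟩
  have hci : c i ≠ 0 := by
    intro h
    have h1 := hi i0 (Finset.mem_univ _)
    have h2 : t i = 0 := by simp [ht, h]
    rw [h2, norm_zero] at h1
    exact ht0 i0 hi0 (norm_le_zero_iff.mp h1)
  have hti := ht0 i hci
  refine ⟨i, hci, (∑ j, t j) / t i, ?_, ?_⟩
  · rw [← Finset.add_sum_erase _ _ (Finset.mem_univ i), add_div, div_self hti, add_sub_cancel_left,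
      norm_div, div_lt_one (norm_pos_iff.mpr hti)]
    refine Finset.sum_induction t (fun x => ‖x‖ < ‖t i‖)
      (fun x y hx hy => (IsUltrametricDist.norm_add_le_max _ _).trans_lt (max_lt hx hy))
      (by rw [norm_zero]; exact norm_pos_iff.mpr hti) fun j hj => ?_
    have hji := Finset.ne_of_mem_erase hj
    refine lt_of_le_of_ne (hi j (Finset.mem_univ _)) ?_
    by_cases hcj : c j = 0
    · have h2 : t j = 0 := by simp [ht, hcj]
      rw [h2, norm_zero]
      exact (norm_pos_iff.mpr hti).ne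
    · exact norm_term_ne hζ hcj hci j.2 i.2 fun h => hji (Fin.ext h)
  · exact (mul_div_cancel₀ _ hti).symm

theorem linearIndependent_lambda :
    LinearIndependent ℚ_[r] fun j : Fin (r - 1) => (1 - ζ) ^ (j : ℕ) := by
  rw [Fintype.linearIndependent_iff]
  intro c hc
  by_contra h
  have hc0 : c ≠ 0 := fun h0 => h fun i => congrFun h0 i
  obtain ⟨i, hi, w, hw, h1⟩ := exists_dominant hζ hc0
  simp only [Algebra.smul_def] at hc
  rw [hc] at h1
  have hlam0 : (1 - ζ) ≠ 0 := norm_pos_iff.mp (lambda_pos hζ)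
  have hw0 : w ≠ 0 := by
    rintro rfl
    simp at hw
  exact mul_ne_zero (mul_ne_zero ((map_ne_zero (algebraMap ℚ_[r] (PadicAlgCl r))).mpr hi)
    (pow_ne_zero _ hlam0)) hw0 h1.symm

theorem minpoly_dvd_cyclotomic : minpoly ℚ_[r] ζ ∣ cyclotomic r ℚ_[r] := by
  refine minpoly.dvd _ _ ?_
  have h1 := hζ.isRoot_cyclotomic hr.out.pos
  rw [← map_cyclotomic r (algebraMap ℚ_[r] (PadicAlgCl r)), IsRoot.def, eval_map_algebraMap] at h1
  exact h1

theorem natDegree_minpoly_le : (minpoly ℚ_[r] ζ).natDegree ≤ r - 1 := by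
  have h1 := natDegree_le_of_dvd (minpoly_dvd_cyclotomic hζ) (cyclotomic_ne_zero r _)
  rwa [natDegree_cyclotomic, Nat.totient_prime hr.out] at h1

theorem toSubmodule_eq_span : (ℚ_[r]⟮ζ⟯).toSubmodule =
    Submodule.span ℚ_[r] (Set.range fun j : Fin (r - 1) => (1 - ζ) ^ (j : ℕ)) := by
  have hint : IsIntegral ℚ_[r] ζ := Algebra.IsIntegral.isIntegral ζ
  have hfd : FiniteDimensional ℚ_[r] ℚ_[r]⟮ζ⟯ := adjoin.finiteDimensional hint
  have hfd' : FiniteDimensional ℚ_[r] (ℚ_[r]⟮ζ⟯).toSubmodule := hfd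
  symm
  refine Submodule.eq_of_le_of_finrank_le ?_ ?_
  · rw [Submodule.span_le]
    rintro _ ⟨j, rfl⟩
    exact pow_mem (sub_mem (one_mem _) (mem_adjoin_simple_self _ ζ)) _
  · rw [finrank_span_eq_card (linearIndependent_lambda hζ), Fintype.card_fin]
    have h1 : Module.finrank ℚ_[r] (ℚ_[r]⟮ζ⟯).toSubmodule = Module.finrank ℚ_[r] ℚ_[r]⟮ζ⟯ := rfl
    rw [h1, adjoin.finrank hint]
    exact natDegree_minpoly_le hζ

theorem natDegree_minpoly_eq : (minpoly ℚ_[r] ζ).natDegree = r - 1 := by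
  have hint : IsIntegral ℚ_[r] ζ := Algebra.IsIntegral.isIntegral ζ
  rw [← adjoin.finrank hint]
  have h1 : Module.finrank ℚ_[r] ℚ_[r]⟮ζ⟯ = Module.finrank ℚ_[r] (ℚ_[r]⟮ζ⟯).toSubmodule := rfl
  rw [h1, toSubmodule_eq_span hζ, finrank_span_eq_card (linearIndependent_lambda hζ),
    Fintype.card_fin]

theorem minpoly_eq_cyclotomic : minpoly ℚ_[r] ζ = cyclotomic r ℚ_[r] := by
  symm
  refine eq_of_monic_of_dvd_of_natDegree_le (minpoly.monic (Algebra.IsIntegral.isIntegral ζ))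
    (cyclotomic.monic _ _) (minpoly_dvd_cyclotomic hζ) ?_
  rw [natDegree_minpoly_eq hζ, natDegree_cyclotomic, Nat.totient_prime hr.out]

theorem exists_gal {c : ℕ} (hc : c.Coprime r) :
    ∃ σ : PadicAlgCl r ≃ₐ[ℚ_[r]] PadicAlgCl r, σ ζ = ζ ^ c := by
  rw [← isConjRoot_iff_exists_algEquiv, IsConjRoot, minpoly_eq_cyclotomic hζ,
    minpoly_eq_cyclotomic (hζ.pow_of_coprime c hc)]

/-- structure of the elements of `ℚ_r(ζ_r)` -/
theorem exists_eq_mul {b : PadicAlgCl r} (hb : b ∈ ℚ_[r]⟮ζ⟯) (hb0 : b ≠ 0) :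
    ∃ (α : ℚ_[r]) (i : ℕ) (w : PadicAlgCl r), α ≠ 0 ∧ ‖w - 1‖ < 1 ∧
      b = algebraMap ℚ_[r] (PadicAlgCl r) α * (1 - ζ) ^ i * w := by
  have h1 : b ∈ Submodule.span ℚ_[r] (Set.range fun j : Fin (r - 1) => (1 - ζ) ^ (j : ℕ)) := by
    rw [← toSubmodule_eq_span hζ]
    exact hb
  obtain ⟨c, hc⟩ := (Submodule.mem_span_range_iff_exists_fun _).mp h1
  have hc0 : c ≠ 0 := by
    rintro rfl
    apply hb0
    rw [← hc]
    simp
  obtain ⟨i, hi, w, hw, h2⟩ := exists_dominant hζ hc0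
  refine ⟨c i, i, w, hi, hw, ?_⟩
  rw [← h2, ← hc]
  simp only [Algebra.smul_def]

omit hζ in
/-- `(r-1)`-st powers of elements of `ℚ_r` -/
theorem exists_pow_eq {α : ℚ_[r]} (hα : α ≠ 0) :
    ∃ (m : ℤ) (w : ℚ_[r]), ‖w - 1‖ < 1 ∧ α ^ (r - 1) = (r : ℚ_[r]) ^ m * w := by
  have hrr : (r : ℚ_[r]) ≠ 0 := by exact_mod_cast hr.out.ne_zero
  have hr0 : (0 : ℝ) < r := by exact_mod_cast hr.out.pos
  set ε : ℚ_[r] := α * (r : ℚ_[r]) ^ (-α.valuation) with hε
  have hεn : ‖ε‖ = 1 := by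
    rw [hε, norm_mul, Padic.norm_eq_zpow_neg_valuation hα, norm_zpow, Padic.norm_p, inv_zpow,
      zpow_neg, inv_inv, inv_mul_cancel₀ (zpow_ne_zero _ hr0.ne')]
  refine ⟨(r - 1 : ℕ) * α.valuation, ε ^ (r - 1), ?_, ?_⟩
  · set e : ℤ_[r] := ⟨ε, hεn.le⟩ with he
    have h1 : PadicInt.toZMod e ≠ 0 := by
      intro h
      rw [← RingHom.mem_ker, PadicInt.ker_toZMod, PadicInt.maximalIdeal_eq_span_p,
        Ideal.mem_span_singleton, ← PadicInt.norm_lt_one_iff_dvd] at h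
      have h2 : ‖e‖ = 1 := hεn
      rw [h2] at h
      exact lt_irrefl _ h
    have h3 : PadicInt.toZMod (e ^ (r - 1) - 1) = 0 := by
      rw [map_sub, map_pow, map_one, ZMod.pow_card_sub_one_eq_one h1, sub_self]
    rw [← RingHom.mem_ker, PadicInt.ker_toZMod, PadicInt.maximalIdeal_eq_span_p,
      Ideal.mem_span_singleton, ← PadicInt.norm_lt_one_iff_dvd] at h3
    exact h3
  · rw [hε, mul_pow, mul_comm ((r - 1 : ℕ) : ℤ), zpow_mul, zpow_natCast, mul_comm, mul_assoc,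
      ← mul_pow, ← zpow_add₀ hrr, neg_add_cancel, zpow_zero, one_pow, mul_one]

omit hζ in
/-- the product over a character -/
theorem prod_char {p : ℕ} [hp : Fact p.Prime] {M : Type*} [CommMonoid M]
    (Λ : (ZMod r)ˣ →* Multiplicative (ZMod p)) (hΛ : Function.Surjective Λ)
    (f : Multiplicative (ZMod p) → M) :
    ∏ c : (ZMod r)ˣ, f (Λ c) = (∏ x, f x) ^ ((r - 1) / p) := by
  classical
  have hNe : NeZero p := ⟨hp.out.ne_zero⟩
  have hfib : ∀ x : Multiplicative (ZMod p),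
      (Finset.univ.filter fun c : (ZMod r)ˣ => Λ c = x).card =
        (Finset.univ.filter fun c : (ZMod r)ˣ => Λ c = 1).card := fun x =>
    MonoidHom.card_fiber_eq_of_mem_range Λ (hΛ x) ⟨1, map_one Λ⟩
  set k := (Finset.univ.filter fun c : (ZMod r)ˣ => Λ c = 1).card with hk
  have hcard : r - 1 = p * k := by
    have h1 : Finset.card (Finset.univ : Finset (ZMod r)ˣ) = r - 1 := by
      rw [Finset.card_univ, ZMod.card_units]
    rw [← h1, Finset.card_eq_sum_card_fiberwise (f := Λ) (t := Finset.univ)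
      (fun _ _ => Finset.mem_coe.mpr (Finset.mem_univ _)), Finset.sum_congr rfl fun x _ => hfib x,
      Finset.sum_const, smul_eq_mul, Finset.card_univ]
    congr 1
    rw [Fintype.card_multiplicative, ZMod.card]
  rw [hcard, Nat.mul_div_cancel_left k hp.out.pos, ← Finset.prod_fiberwise Finset.univ Λ]
  rw [← Finset.prod_pow]
  refine Finset.prod_congr rfl fun x _ => ?_
  rw [Finset.prod_congr rfl fun c hc => by rw [(Finset.mem_filter.mp hc).2], Finset.prod_const,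
    hfib x]

/-- **Norms in the ramified case.** -/
theorem ramified_norm {p : ℕ} [hp : Fact p.Prime]
    (Λ : (ZMod r)ˣ →* Multiplicative (ZMod p)) (hΛ : Function.Surjective Λ)
    (χ : (PadicAlgCl r ≃ₐ[ℚ_[r]] PadicAlgCl r) →* (ZMod r)ˣ)
    (hχ : ∀ σ, σ ζ = ζ ^ (χ σ : ZMod r).val) {b : PadicAlgCl r} (hb0 : b ≠ 0)
    (hb : ∀ v, Λ (χ v) = 1 → v b = b) {s : PadicAlgCl r ≃ₐ[ℚ_[r]] PadicAlgCl r}
    (hs : Λ (χ s) = Multiplicative.ofAdd 1) {a : ℚ_[r]}
    (hab : algebraMap ℚ_[r] (PadicAlgCl r) a = ∏ j ∈ Finset.range p, (s ^ j) b) :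
    ∃ v : ℤ, ‖(a * (r : ℚ_[r]) ^ (-v)) ^ ((r - 1) / p) - 1‖ < 1 := by
  classical
  have hNe : NeZero p := ⟨hp.out.ne_zero⟩
  have hrr : (r : ℚ_[r]) ≠ 0 := by exact_mod_cast hr.out.ne_zero
  have hrr' : (r : PadicAlgCl r) ≠ 0 := by exact_mod_cast hr.out.ne_zero
  have hr0 : (0 : ℝ) < r := by exact_mod_cast hr.out.pos
  have hpinj : ∀ {x y : ZMod r}, ζ ^ x.val = ζ ^ y.val → x = y := by
    intro x y h
    exact ZMod.val_injective r (hζ.pow_inj (ZMod.val_lt x) (ZMod.val_lt y) h)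
  -- `b` is in `ℚ_r(ζ)`
  have hbK : b ∈ ℚ_[r]⟮ζ⟯ := by
    have h1 : b ∈ fixedField (ℚ_[r]⟮ζ⟯).fixingSubgroup := by
      rintro ⟨v, hv⟩
      refine hb v ?_
      have h2 : v ζ = ζ := (mem_fixingSubgroup_iff _ _).mp hv ζ (mem_adjoin_simple_self _ ζ)
      have h3 : χ v = 1 := by
        apply Units.ext
        apply hpinj
        rw [← hχ, h2, Units.val_one, ZMod.val_one_eq_one_mod, Nat.mod_eq_of_lt hr.out.one_lt,
          pow_one]
      rw [h3, map_one]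
    rwa [InfiniteGalois.fixedField_fixingSubgroup] at h1
  obtain ⟨α, i, w, hα, hw, hbe⟩ := exists_eq_mul hζ hbK hb0
  -- the conjugates
  have hσ : ∀ c : (ZMod r)ˣ, ∃ σ : PadicAlgCl r ≃ₐ[ℚ_[r]] PadicAlgCl r, χ σ = c := by
    intro c
    obtain ⟨σ, hσ⟩ := exists_gal hζ (ZMod.val_coe_unit_coprime c)
    refine ⟨σ, Units.ext (hpinj ?_)⟩
    rw [← hχ, hσ]
  choose σ hσ using hσ
  -- the product of the conjugates of `b` : first computation
  have key : ∀ u : PadicAlgCl r ≃ₐ[ℚ_[r]] PadicAlgCl r,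
      u b = (s ^ (Multiplicative.toAdd (Λ (χ u))).val) b := by
    intro u
    set m := (Multiplicative.toAdd (Λ (χ u))).val with hm
    have h1 : (s ^ m)⁻¹ (u b) = b := by
      refine hb ((s ^ m)⁻¹ * u) ?_
      rw [map_mul, map_mul, map_inv, map_inv, map_pow, map_pow, hs, ← ofAdd_nsmul, nsmul_eq_mul,
        mul_one, hm, ZMod.natCast_zmod_val, ofAdd_toAdd, inv_mul_cancel]
    conv_rhs => rw [← h1]
    exact ((s ^ m).apply_symm_apply (u b)).symm
  have hprod1 : ∏ c, σ c b = algebraMap ℚ_[r] (PadicAlgCl r) a ^ ((r - 1) / p) := by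
    let F : Multiplicative (ZMod p) → PadicAlgCl r :=
      fun x => (s ^ (Multiplicative.toAdd x).val) b
    have h1 : ∀ c, σ c b = F (Λ c) := by
      intro c
      rw [key (σ c), hσ]
    rw [Finset.prod_congr rfl fun c _ => h1 c, prod_char Λ hΛ, hab]
    congr 1
    rw [Finset.prod_range]
    symm
    have e : Fin p ≃ Multiplicative (ZMod p) :=
      (ZMod.finEquiv p).toEquiv.trans Multiplicative.ofAdd
    refine Fintype.prod_equiv ((ZMod.finEquiv p).toEquiv.trans Multiplicative.ofAdd) _ _ ?_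
    intro j
    congr 2
    obtain ⟨p', rfl⟩ : ∃ p', p = p' + 1 := ⟨p - 1, (Nat.sub_add_cancel hp.out.one_le).symm⟩
    rfl
  -- second computation
  have hlam : ∏ c, σ c (1 - ζ) = (r : PadicAlgCl r) := by
    rw [← prod_one_sub hζ]
    have h1 : ∀ c, σ c (1 - ζ) = 1 - ζ ^ (c : ZMod r).val := by
      intro c
      rw [map_sub, map_one, hχ, hσ]
    rw [Finset.prod_congr rfl fun c _ => h1 c]
    symm
    refine Finset.prod_bij' (i := fun k hk => ZMod.unitOfCoprime (k + 1)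
        (Nat.coprime_comm.mp ((Nat.Prime.coprime_iff_not_dvd hr.out).mpr fun hd => by
          have := Nat.le_of_dvd (Nat.succ_pos k) hd
          rw [Finset.mem_range] at hk
          omega)))
      (j := fun c _ => (c : ZMod r).val - 1) ?_ ?_ ?_ ?_ ?_
    · intro k hk
      exact Finset.mem_univ _
    · intro c _
      have h1 := ZMod.val_lt (c : ZMod r)
      have h2 : (c : ZMod r).val ≠ 0 := by
        rw [Ne, ZMod.val_eq_zero]
        exact c.ne_zero
      rw [Finset.mem_range]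
      omega
    · intro k hk
      rw [Finset.mem_range] at hk
      simp only [ZMod.coe_unitOfCoprime]
      rw [ZMod.val_natCast, Nat.mod_eq_of_lt (by omega)]
      rfl
    · intro c _
      have h2 : (c : ZMod r).val ≠ 0 := by
        rw [Ne, ZMod.val_eq_zero]
        exact c.ne_zero
      apply Units.ext
      simp only [ZMod.coe_unitOfCoprime]
      rw [Nat.sub_add_cancel (Nat.pos_of_ne_zero h2), ZMod.natCast_zmod_val]
    · intro k hk
      rw [Finset.mem_range] at hk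
      simp only [ZMod.coe_unitOfCoprime]
      rw [ZMod.val_natCast, Nat.mod_eq_of_lt (by omega)]
  have hprod2 : ∏ c, σ c b = algebraMap ℚ_[r] (PadicAlgCl r) (α ^ (r - 1)) *
      (r : PadicAlgCl r) ^ i * ∏ c, σ c w := by
    simp only [hbe, map_mul, map_pow, AlgEquiv.commutes]
    rw [Finset.prod_mul_distrib, Finset.prod_mul_distrib, Finset.prod_const, Finset.prod_pow, hlam,
      Finset.card_univ, ZMod.card_units]
  set W := ∏ c, σ c w with hW
  have hW1 : ‖W - 1‖ < 1 := norm_prod_sub_one_lt _ _ fun c _ => by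
    rw [← map_one (σ c), ← map_sub, norm_gal]
    exact hw
  obtain ⟨m, ε, hε, hαe⟩ := exists_pow_eq hα
  have htot : algebraMap ℚ_[r] (PadicAlgCl r) a ^ ((r - 1) / p) =
      (r : PadicAlgCl r) ^ (m + i) * (algebraMap ℚ_[r] (PadicAlgCl r) ε * W) := by
    rw [← hprod1, hprod2, hαe, map_mul, map_zpow₀, map_natCast, zpow_add₀ hrr', zpow_natCast]
    ring
  have hεW : ‖algebraMap ℚ_[r] (PadicAlgCl r) ε * W - 1‖ < 1 := by
    refine norm_mul_sub_one_lt ?_ hW1
    rw [← map_one (algebraMap ℚ_[r] (PadicAlgCl r)), ← map_sub, norm_algebraMap']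
    exact hε
  have ha0 : a ≠ 0 := by
    rintro rfl
    rw [map_zero] at hab
    have h1 := Finset.prod_eq_zero_iff.mp hab.symm
    obtain ⟨j, -, hj⟩ := h1
    exact hb0 ((map_eq_zero _).mp hj)
  set k := (r - 1) / p with hk
  -- comparison of norms
  have hnorm := congrArg norm htot
  rw [norm_pow, norm_algebraMap', norm_mul, norm_eq_one_of_sub hεW, mul_one, norm_zpow,
    norm_natCast_self, Padic.norm_eq_zpow_neg_valuation ha0, inv_zpow, ← zpow_neg, ← zpow_natCast,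
    ← zpow_mul] at hnorm
  have hr1 : (r : ℝ) ≠ 1 := by exact_mod_cast hr.out.one_lt.ne'
  have hexp := zpow_right_injective₀ hr0 hr1 hnorm
  refine ⟨a.valuation, ?_⟩
  have h2 : algebraMap ℚ_[r] (PadicAlgCl r) ((a * (r : ℚ_[r]) ^ (-a.valuation)) ^ k) =
      algebraMap ℚ_[r] (PadicAlgCl r) ε * W := by
    rw [mul_pow, map_mul, map_pow, htot, ← zpow_natCast, ← zpow_mul, map_zpow₀, map_natCast,
      mul_comm, ← mul_assoc, ← zpow_add₀ hrr']
    have h3 : -a.valuation * (k : ℤ) + (m + i) = 0 := by rw [hexp]; ring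
    rw [h3, zpow_zero, one_mul]
  rw [← norm_algebraMap' (PadicAlgCl r), map_sub, map_one, h2]
  exact hεW

end Ramified

end Fermat.Agent.CFT.Hasse
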