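import Mathlib
import Fermat.Agent.CFT.LC.Basic

/-!
# Unramified classes are trivial: abstract form
-/

set_option autoImplicit false
set_option linter.unusedSectionVars false

namespace Fermat.Agent.CFT.Hasse

open Fermat.Agent.CFT.LC

/-- A 2-cocycle inflated from a finite cyclic quotient becomes trivial after inflation to
a cyclic quotient whose order is divisible by `p` times the order of the first one. -/
theorem unr_cob {p : ℕ} [hp : Fact p.Prime] {Γ : Type*} [Group Γ] (L : Lvl Γ)
    (χ : Γ →* (ZMod p)ˣ) {N N' : Subgroup Γ} (hN'L : N' ∈ L.levels) (hle : N' ≤ N)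
    (hχ : N ≤ χ.ker) (φ : Γ) {n : ℕ} (hn : φ ^ n ∈ N)
    (hgen : ∀ g, ∃ i : ℕ, (φ ^ i)⁻¹ * g ∈ N') (hord : ∀ i : ℕ, φ ^ i ∈ N' → p * n ∣ i)
    {z : Γ × Γ → ZMod p}
    (hz : ∀ g h j, z (g * h, j) + z (g, h) = (χ g : ZMod p) * z (h, j) + z (g, h * j))
    (hzN : ∀ g g' s, s ∈ N → ∀ s', s' ∈ N → z (g * s, g' * s') = z (g, g')) :
    ∃ w : Γ → ZMod p, IsLC₁ L w ∧
      ∀ g h, z (g, h) = (χ g : ZMod p) * w h - w (g * h) + w g := by
  have hN'n := L.normal N' hN'L
  set c := z (1, 1) with hc
  have hz1 : ∀ g, z (g, 1) = (χ g : ZMod p) * c := by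
    intro g
    have := hz g 1 1
    simp only [mul_one] at this
    linear_combination this
  set x : ZMod p := (χ φ : ZMod p) with hx
  have hxpow : ∀ a : ℕ, (χ (φ ^ a) : ZMod p) = x ^ a := by
    intro a
    rw [map_pow, Units.val_pow_eq_pow_val]
  set y : ℕ → ZMod p := fun j => z (φ ^ j, φ) - x ^ j * c with hy
  set F : ℕ → ZMod p := fun m => ∑ j ∈ Finset.range m, y j with hF
  have hF0 : F 0 = 0 := by simp [hF]
  have hFs : ∀ m, F (m + 1) = F m + y m := fun m => Finset.sum_range_succ y m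
  have hmain : ∀ a b : ℕ, z (φ ^ a, φ ^ b) = x ^ a * c - x ^ a * F b + F (a + b) - F a := by
    intro a b
    induction b with
    | zero =>
      rw [pow_zero, hz1, hxpow, hF0, add_zero]
      ring
    | succ b ih =>
      have h1 := hz (φ ^ a) (φ ^ b) φ
      rw [← pow_add, ← pow_succ, ih, hxpow] at h1
      rw [← add_assoc, hFs, hFs]
      simp only [hy]
      linear_combination -h1
  -- periodicity
  have hyn : ∀ j, y (n + j) = y j := by
    intro j
    have h1 : z (φ ^ (n + j), φ) = z (φ ^ j, φ) := by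
      have := hzN (φ ^ j) φ (φ ^ n) hn 1 N.one_mem
      rwa [← pow_add, mul_one, add_comm] at this
    have h2 : x ^ n = 1 := by
      rw [← hxpow, hχ hn, Units.val_one]
    simp only [hy]
    rw [h1, pow_add, h2, one_mul]
  have hFn : ∀ m k : ℕ, F (n * k + m) = k * F n + F m := by
    intro m k
    induction k with
    | zero => simp
    | succ k ih =>
      have h1 : n * (k + 1) + m = n + (n * k + m) := by ring
      have h2 : F (n + (n * k + m)) = F n + F (n * k + m) := by
        simp only [hF]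
        rw [Finset.sum_range_add]
        congr 1
        exact Finset.sum_congr rfl fun j _ => hyn j
      rw [h1, h2, ih]
      push_cast
      ring
  have hFper : ∀ m d : ℕ, φ ^ d ∈ N' → F (m + d) = F m := by
    intro m d hd
    obtain ⟨k, rfl⟩ := hord d hd
    have h1 : m + p * n * k = n * (p * k) + m := by ring
    rw [h1, hFn]
    push_cast
    rw [CharP.cast_eq_zero]
    ring
  have hFeq : ∀ a b : ℕ, (φ ^ a)⁻¹ * φ ^ b ∈ N' → F a = F b := by
    intro a b h
    rcases le_total a b with hab | hab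
    · obtain ⟨d, rfl⟩ := Nat.exists_eq_add_of_le hab
      rw [pow_add, inv_mul_cancel_left] at h
      exact (hFper a d h).symm
    · obtain ⟨d, rfl⟩ := Nat.exists_eq_add_of_le hab
      have h' := N'.inv_mem h
      rw [mul_inv_rev, inv_inv, pow_add, inv_mul_cancel_left] at h'
      exact hFper b d h'
  choose i hi using hgen
  refine ⟨fun g => c - F (i g), ⟨N', hN'L, fun g s hs => ?_⟩, fun g h => ?_⟩
  · show c - F (i (g * s)) = c - F (i g)
    rw [hFeq (i (g * s)) (i g)]
    have h1 := N'.mul_mem (N'.mul_mem (hi (g * s)) (N'.inv_mem hs)) (N'.inv_mem (hi g))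
    convert h1 using 1
    group
  · show z (g, h) = (χ g : ZMod p) * (c - F (i h)) - (c - F (i (g * h))) + (c - F (i g))
    have hg : g = φ ^ i g * ((φ ^ i g)⁻¹ * g) := (mul_inv_cancel_left _ _).symm
    have hh : h = φ ^ i h * ((φ ^ i h)⁻¹ * h) := (mul_inv_cancel_left _ _).symm
    have h1 : z (g, h) = z (φ ^ i g, φ ^ i h) := by
      conv_lhs => rw [hg, hh]
      exact hzN _ _ _ (hle (hi g)) _ (hle (hi h))
    have h2 : F (i (g * h)) = F (i g + i h) := by
      refine (hFeq _ _ ?_).symm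
      have h3 := N'.mul_mem (hN'n.conj_mem _ (hi g) (φ ^ i h)⁻¹) (hi h)
      have h4 := N'.mul_mem h3 (N'.inv_mem (hi (g * h)))
      convert h4 using 1
      rw [pow_add]
      group
    have h5 : (χ g : ZMod p) = x ^ i g := by
      rw [← hxpow]
      conv_lhs => rw [hg, map_mul]
      have : χ ((φ ^ i g)⁻¹ * g) = 1 := hχ (hle (hi g))
      rw [this, mul_one]
    rw [h1, hmain, h2, h5]
    ring

/-- Endomorphisms of a ring act on finite residue fields as powers of Frobenius. -/
theorem exists_pow_frob {R : Type*} [CommRing R] (P : Ideal R) [hP : P.IsMaximal]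
    [hfin : Finite (R ⧸ P)] {q : ℕ} [hq : Fact q.Prime] (hqP : (q : R) ∈ P) (T : R →+* R)
    (hT : P ≤ P.comap T) : ∃ i : ℕ, ∀ x, T x - x ^ q ^ i ∈ P := by
  let _ : Field (R ⧸ P) := Ideal.Quotient.field P
  have hchar : CharP (R ⧸ P) q := by
    have h0 : (q : R ⧸ P) = 0 := by
      rw [← map_natCast (Ideal.Quotient.mk P)]
      exact Ideal.Quotient.eq_zero_iff_mem.mpr hqP
    exact (CharP.charP_iff_prime_eq_zero hq.out).mpr h0
  let _ : Algebra (ZMod q) (R ⧸ P) := ZMod.algebra _ q
  let T' : (R ⧸ P) →ₐ[ZMod q] (R ⧸ P) :=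
    { Ideal.quotientMap P T hT with
      commutes' := fun c => by
        obtain ⟨m, rfl⟩ := ZMod.natCast_zmod_surjective c
        simp }
  obtain ⟨j, hj⟩ := (FiniteField.bijective_frobeniusAlgHom_pow (ZMod q) (R ⧸ P)).surjective T'
  refine ⟨j, fun x => ?_⟩
  have h1 := DFunLike.congr_fun hj (Ideal.Quotient.mk P x)
  have h2 : T' (Ideal.Quotient.mk P x) = Ideal.Quotient.mk P (T x) :=
    Ideal.quotientMap_mk (H := hT)
  have h3 : ∀ (k : ℕ) (y : R ⧸ P), ((FiniteField.frobeniusAlgHom (ZMod q) (R ⧸ P)) ^ k) y =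
      y ^ q ^ k := by
    intro k
    induction k with
    | zero => intro y; simp
    | succ k ih =>
      intro y
      rw [pow_succ, AlgHom.mul_apply, ih, FiniteField.frobeniusAlgHom_apply, ZMod.card, ← pow_mul,
        ← pow_succ']
  rw [h2, h3, ← map_pow] at h1
  rw [← Ideal.Quotient.eq]
  exact h1.symm

end Fermat.Agent.CFT.Hasse
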