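import Mathlib
import Fermat.Agent.CFT.Hasse.UnrClass
import Fermat.Agent.CFT.Hasse.Abstract
import Fermat.Agent.CFT.Hasse.UnrVal
import Fermat.Agent.CFT.W.Global
import Fermat.Agent.CFT.LC.Levels
import Fermat.Agent.CFT.LC.Criterion
import Fermat.Agent.FlatOrd.InertiaLift
import Fermat.Agent.Lib.Cyclotomic

/-!
# Unramified classes are locally trivial
-/

set_option autoImplicit false
set_option linter.unusedSectionVars false

open ExtCitation NumberField Pointwise

namespace Fermat.Agent.CFT.Hasse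

open Fermat.Agent.CFT.LC Fermat.Agent.CFT.W Fermat.Agent.FrobExists

/-- An algebraic closure of `ℚ`. -/
local notation "Qb" => AlgebraicClosure ℚ

section

variable (q : ℕ) [hq : Fact q.Prime]

theorem mem_padicPlace_nonunits_iff {x : Qb} :
    x ∈ (padicPlace q).nonunits ↔ ‖padicEmbedding q x‖ < 1 := by
  rw [padicPlace, mem_nonunits_comap]
  exact mem_padicIntegers_nonunits_iff q

theorem padicPlace_liesOverPrime : (padicPlace q).LiesOverPrime q := by
  unfold ValuationSubring.LiesOverPrime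
  rw [mem_padicPlace_nonunits_iff, map_natCast, norm_natCast_self]
  exact inv_lt_one_of_one_lt₀ (by exact_mod_cast hq.out.one_lt)

/-- Frobenius elements of the local Galois group, at a finite level. -/
theorem exists_frob_loc (E : IntermediateField ℚ Qb) (hE : IsFin E) :
    ∃ (φ : PadicAlgCl q ≃ₐ[ℚ_[q]] PadicAlgCl q) (σ : Qb ≃ₐ[ℚ] Qb),
      (padicPlace q).IsFrobeniusAt σ q ∧ ∀ x ∈ E, σ x = localGaloisToGlobal q φ x := by
  have : FiniteDimensional ℚ E := hE
  obtain ⟨σ, hσ⟩ := exists_isFrobeniusAt (padicPlace q) hq.out (padicPlace_liesOverPrime q)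
  obtain ⟨hσ1, hσ2⟩ := (Fermat.Agent.TWP.Place.isFrobeniusAt_iff _ _ _).mp hσ
  have h1 : pl (emb q E 1) = pl (emb q E σ) := by
    apply IsDedekindDomain.HeightOneSpectrum.ext
    ext x
    rw [mem_pl, mem_pl, emb_apply, emb_apply, ← mem_padicPlace_nonunits_iff,
      ← mem_padicPlace_nonunits_iff, ← hσ1]
    conv_rhs => rw [Fermat.Agent.TWP.Place.apply_mem_nonunits_smul]
    rw [hσ1]
    exact Iff.rfl
  obtain ⟨τ, u, hu, h2⟩ := (pl_emb_eq_iff q E 1 σ).mp h1
  refine ⟨τ, σ, hσ, fun x hx => ?_⟩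
  rw [mul_one] at h2
  rw [h2]
  show localGaloisToGlobal q τ (u x) = _
  rw [(IntermediateField.mem_fixingSubgroup_iff _ _).mp hu x hx]

variable {q} {E : IntermediateField ℚ Qb} {φ : PadicAlgCl q ≃ₐ[ℚ_[q]] PadicAlgCl q}
  {σ : Qb ≃ₐ[ℚ] Qb}

theorem norm_frob_sub (hσ : (padicPlace q).IsFrobeniusAt σ q)
    (h : ∀ x ∈ E, σ x = localGaloisToGlobal q φ x) {x : Qb} (hx : x ∈ E) (hxi : IsIntegral ℤ x) :
    ‖φ (padicEmbedding q x) - padicEmbedding q x ^ q‖ < 1 := by
  obtain ⟨hσ1, hσ2⟩ := (Fermat.Agent.TWP.Place.isFrobeniusAt_iff _ _ _).mp hσ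
  have h1 := hσ2 x (mem_of_isIntegral _ hxi)
  rw [h x hx, mem_padicPlace_nonunits_iff, map_sub, map_pow,
    padicEmbedding_localGaloisToGlobal] at h1
  exact h1

theorem norm_frob_pow_sub (hσ : (padicPlace q).IsFrobeniusAt σ q)
    (h : ∀ x ∈ E, σ x = localGaloisToGlobal q φ x) (i : ℕ) : ∀ {x : Qb}, x ∈ E → IsIntegral ℤ x →
    ‖(φ ^ i) (padicEmbedding q x) - padicEmbedding q x ^ q ^ i‖ < 1 := by
  induction i with
  | zero =>
    intro x hx hxi
    simp
  | succ i ih =>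
    intro x hx hxi
    have h1 : (φ ^ (i + 1)) (padicEmbedding q x) = (φ ^ i) (φ (padicEmbedding q x)) := by
      rw [pow_succ]
      rfl
    have h2 : (φ ^ i) (φ (padicEmbedding q x)) - padicEmbedding q x ^ q ^ (i + 1) =
        (φ ^ i) (φ (padicEmbedding q x) - padicEmbedding q x ^ q) +
          ((φ ^ i) (padicEmbedding q (x ^ q)) - padicEmbedding q (x ^ q) ^ q ^ i) := by
      rw [map_sub, map_pow (padicEmbedding q), ← pow_mul, ← pow_succ']
      ring
    rw [h1, h2]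
    refine (IsUltrametricDist.norm_add_le_max _ _).trans_lt (max_lt ?_ ?_)
    · rw [norm_gal]
      exact norm_frob_sub hσ h hx hxi
    · exact ih (pow_mem hx q) (hxi.pow q)

/-- At a finite level unramified at `q`, the local Galois group is generated by Frobenius. -/
theorem exists_frob_pow_mul_mem (hEf : IsFin E) (hEn : IsNorm E)
    (hE : (padicPlace q).inertiaSubgroupIn ℚ ≤ E.fixingSubgroup)
    (hσ : (padicPlace q).IsFrobeniusAt σ q)
    (h : ∀ x ∈ E, σ x = localGaloisToGlobal q φ x) (g : PadicAlgCl q ≃ₐ[ℚ_[q]] PadicAlgCl q) :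
    ∃ i : ℕ, (φ ^ i)⁻¹ * g ∈ E.fixingSubgroup.comap (localGaloisToGlobal q) := by
  have : FiniteDimensional ℚ E := hEf
  have hEn' : Normal ℚ E := hEn
  set P : Ideal (𝓞 E) := (pl (emb q E 1)).asIdeal with hP
  have hPmax : P.IsMaximal := (pl (emb q E 1)).isMaximal
  have hPfin : Finite (𝓞 E ⧸ P) := Ideal.finiteQuotientOfFreeOfNeBot _ (pl (emb q E 1)).ne_bot
  set t : E →ₐ[ℚ] E := ((localGaloisToGlobal q g).restrictNormal E : E →ₐ[ℚ] E) with ht
  have htx : ∀ x : E, emb q E 1 (t x) = g (emb q E 1 x) := by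
    intro x
    rw [emb_apply, emb_apply]
    have h1 : ((t x : E) : Qb) = localGaloisToGlobal q g x :=
      AlgEquiv.restrictNormal_commutes (localGaloisToGlobal q g) E x
    show padicEmbedding q (t x : Qb) = g (padicEmbedding q (x : Qb))
    rw [h1, padicEmbedding_localGaloisToGlobal]
  set T : 𝓞 E →+* 𝓞 E := RingOfIntegers.mapRingHom (t : E →+* E) with hT
  have hTx : ∀ x : 𝓞 E, ((T x : 𝓞 E) : E) = t x := fun x => rfl
  obtain ⟨i, hi⟩ := exists_pow_frob P (q := q) (natCast_mem_pl _) T (by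
    intro x hx
    rw [Ideal.mem_comap]
    rw [hP, mem_pl] at hx ⊢
    rw [hTx, htx, norm_gal]
    exact hx)
  refine ⟨i, ?_⟩
  rw [Subgroup.mem_comap]
  set γ := localGaloisToGlobal q ((φ ^ i)⁻¹ * g) with hγ
  have key : ∀ x : 𝓞 E, ‖((φ ^ i)⁻¹ * g) (emb q E 1 x) - emb q E 1 x‖ < 1 := by
    intro x
    have h1 := hi x
    rw [hP, mem_pl] at h1
    have hxi : IsIntegral ℤ ((x : E) : Qb) :=
      (RingOfIntegers.isIntegral_coe x).map (algebraMap E Qb).toIntAlgHom
    have h2 := norm_frob_pow_sub hσ h i (x : E).2 hxi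
    have h3 : padicEmbedding q ((x : E) : Qb) = emb q E 1 x := rfl
    rw [h3] at h2
    have h4 : emb q E 1 ((T x - x ^ q ^ i : 𝓞 E) : E) = g (emb q E 1 x) - emb q E 1 x ^ q ^ i := by
      have h5 : ((T x - x ^ q ^ i : 𝓞 E) : E) = t x - (x : E) ^ q ^ i := rfl
      rw [h5, map_sub, htx, map_pow]
    rw [h4] at h1
    have h6 : ‖g (emb q E 1 x) - (φ ^ i) (emb q E 1 x)‖ < 1 := by
      have h7 : g (emb q E 1 x) - (φ ^ i) (emb q E 1 x) =
          (g (emb q E 1 x) - emb q E 1 x ^ q ^ i) +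
            -((φ ^ i) (emb q E 1 x) - emb q E 1 x ^ q ^ i) := by ring
      rw [h7]
      refine (IsUltrametricDist.norm_add_le_max _ _).trans_lt (max_lt h1 ?_)
      rw [norm_neg]
      exact h2
    rw [← norm_gal (φ ^ i), map_sub]
    convert h6 using 3
    show (φ ^ i * ((φ ^ i)⁻¹ * g)) (emb q E 1 x) = _
    rw [mul_inv_cancel_left]
  obtain ⟨ι, hι, h1⟩ := Fermat.Agent.FlatOrd.InertiaLift.exists_mul_mem_inertia_of_intermediateField
    E (padicPlace q) hq.out (padicPlace_liesOverPrime q) γ (by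
      intro x hx
      rw [mem_center, mem_padicPlace_nonunits_iff]
      let x' : 𝓞 E := ⟨⟨x, hx⟩, (isIntegral_algebraMap_iff (algebraMap E Qb).injective).mp x.2⟩
      have h2 := key x'
      have h3 : emb q E 1 x' = padicEmbedding q (x : Qb) := rfl
      rw [h3, ← padicEmbedding_localGaloisToGlobal, ← map_sub] at h2
      exact h2)
  have h2 := hE hι
  rw [IntermediateField.mem_fixingSubgroup_iff] at h2 ⊢
  intro x hx
  rw [← h1 x hx, h2 x hx]

end

section Main

variable {p : ℕ} [hp : Fact p.Prime] (q : ℕ) [hq : Fact q.Prime]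

theorem dvd_of_pow_sub_one_dvd {a b c : ℕ} (ha : 1 < a)
    (h : a ^ b - 1 ∣ a ^ c - 1) : b ∣ c := by
  have h1 := Nat.gcd_eq_left h
  rw [Nat.pow_sub_one_gcd_pow_sub_one] at h1
  have h2 : 1 ≤ a ^ b.gcd c := Nat.one_le_pow _ _ (by omega)
  have h3 : 1 ≤ a ^ b := Nat.one_le_pow _ _ (by omega)
  have h4 : a ^ b.gcd c = a ^ b := by omega
  have h5 := Nat.pow_right_injective ha h4
  exact Nat.gcd_eq_left_iff_dvd.mp h5

/-- **Unramified classes are locally trivial.** -/
theorem unr_loc_cob (E : IntermediateField ℚ Qb) (hEf : IsFin E) (hEn : IsNorm E)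
    (hE : (padicPlace q).inertiaSubgroupIn ℚ ≤ E.fixingSubgroup)
    {χ : (Qb ≃ₐ[ℚ] Qb) →* (ZMod p)ˣ} (hEχ : E.fixingSubgroup ≤ χ.ker)
    {z : (Qb ≃ₐ[ℚ] Qb) × (Qb ≃ₐ[ℚ] Qb) → ZMod p}
    (hz : ∀ g h j, z (g * h, j) + z (g, h) = (χ g : ZMod p) * z (h, j) + z (g, h * j))
    (hzE : ∀ g g' s, s ∈ E.fixingSubgroup → ∀ s', s' ∈ E.fixingSubgroup →
      z (g * s, g' * s') = z (g, g'))
    (r : (PadicAlgCl q ≃ₐ[ℚ_[q]] PadicAlgCl q) →* (Qb ≃ₐ[ℚ] Qb))
    (hr : E.fixingSubgroup.comap (localGaloisToGlobal q) ≤ E.fixingSubgroup.comap r) :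
    ∃ w : (PadicAlgCl q ≃ₐ[ℚ_[q]] PadicAlgCl q) → ZMod p,
      IsLC₁ (lvlOver (localGaloisToGlobal q)) w ∧
      ∀ g h, z (r g, r h) = (χ (r g) : ZMod p) * w h - w (g * h) + w g := by
  have hEn' := hEn.normal_fixingSubgroup
  have hEfi := hEn.finiteIndex hEf
  set N := E.fixingSubgroup.comap (localGaloisToGlobal q) with hN
  have hNfi : N.FiniteIndex := by
    have := (lvlOver (localGaloisToGlobal q)).finiteIndex N ⟨_, ⟨E, hEf, hEn, rfl⟩, rfl⟩
    exact this
  have hNn : N.Normal := hEn'.comap _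
  set n := N.index with hn
  have hn0 : n ≠ 0 := hNfi.index_ne_zero
  have hpn : p * n ≠ 0 := mul_ne_zero hp.out.ne_zero hn0
  set M := q ^ (p * n) - 1 with hM
  have hM0 : M ≠ 0 := by
    have : 1 < q ^ (p * n) := Nat.one_lt_pow hpn hq.out.one_lt
    omega
  have hqM : ¬ q ∣ M := by
    intro h
    have h1 : q ∣ q ^ (p * n) := dvd_pow_self q hpn
    have h2 : 1 ≤ q ^ (p * n) := Nat.one_le_pow _ _ hq.out.pos
    have h3 := (Nat.dvd_sub_iff_right h2 h1).mp (by rw [← hM]; exact h)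
    exact hq.out.one_lt.ne' (Nat.dvd_one.mp h3)
  have hMz : NeZero M := ⟨hM0⟩
  obtain ⟨ζ, hζ⟩ := Fermat.Agent.Cyclotomic.exists_primitiveRoot M
  let C : IntermediateField ℚ Qb := IntermediateField.adjoin ℚ {ζ}
  have hCf : IsFin C := IntermediateField.adjoin.finiteDimensional (Algebra.IsIntegral.isIntegral ζ)
  have hCn : IsNorm C := by
    have h := hζ.intermediateField_adjoin_isCyclotomicExtension ℚ
    exact (@IsCyclotomicExtension.isGalois {M} ℚ C _ _ _ h).to_normal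
  have hζC : ζ ∈ C := IntermediateField.mem_adjoin_simple_self ℚ ζ
  have hfixC : ∀ σ : Qb ≃ₐ[ℚ] Qb, σ ζ = ζ → σ ∈ C.fixingSubgroup := by
    intro σ hσ
    have hle : C ≤ IntermediateField.fixedField (Subgroup.zpowers σ) := by
      rw [IntermediateField.adjoin_le_iff, Set.singleton_subset_iff]
      rw [SetLike.mem_coe, IntermediateField.mem_fixedField_iff]
      intro f hf
      obtain ⟨k, rfl⟩ := Subgroup.mem_zpowers_iff.1 hf
      have hst : σ ∈ MulAction.stabilizer (Qb ≃ₐ[ℚ] Qb) ζ := hσ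
      exact (MulAction.stabilizer (Qb ≃ₐ[ℚ] Qb) ζ).zpow_mem hst k
    exact (IntermediateField.le_iff_le _ _).mp hle (Subgroup.mem_zpowers σ)
  set E' := E ⊔ C with hE'
  have hEE' : E ≤ E' := le_sup_left
  have hCE' : C ≤ E' := le_sup_right
  have hE'f : IsFin E' := hEf.sup hCf
  have hE'n : IsNorm E' := hEn.sup hCn
  have hE'u : (padicPlace q).inertiaSubgroupIn ℚ ≤ E'.fixingSubgroup := by
    rw [hE', IntermediateField.fixingSubgroup_sup]
    refine le_inf hE fun σ hσ => hfixC σ ?_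
    rw [Fermat.Agent.Cyclotomic.cyc_spec M σ hζ.pow_eq_one,
      Fermat.Agent.Cyclotomic.cyc_inertia hq.out hqM _ (padicPlace_liesOverPrime q) hσ,
      Units.val_one, ← Nat.cast_one, Fermat.Agent.Cyclotomic.pow_val_natCast M hζ.pow_eq_one,
      pow_one]
  obtain ⟨φ, σ, hσ, hφ⟩ := exists_frob_loc q E' hE'f
  set N' := E'.fixingSubgroup.comap (localGaloisToGlobal q) with hN'
  have hN'L : N' ∈ (lvlOver (localGaloisToGlobal q)).levels := ⟨_, ⟨E', hE'f, hE'n, rfl⟩, rfl⟩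
  have hN'N : N' ≤ N := Subgroup.comap_mono (IntermediateField.fixingSubgroup_antitone hEE')
  have hcyc : (Fermat.Agent.Cyclotomic.cyc M (localGaloisToGlobal q φ) : ZMod M) = q := by
    rw [← Fermat.Agent.Cyclotomic.cyc_frobenius hq.out hqM _ (padicPlace_liesOverPrime q) hσ]
    congr 1
    have h1 : Fermat.Agent.Cyclotomic.cyc M (σ⁻¹ * localGaloisToGlobal q φ) = 1 := by
      refine Fermat.Agent.Cyclotomic.cyc_eq_one_of_fixes M _ hζ ?_
      show σ⁻¹ (localGaloisToGlobal q φ ζ) = ζ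
      rw [← hφ ζ (hCE' hζC)]
      exact σ.symm_apply_apply ζ
    rw [map_mul, map_inv, inv_mul_eq_one] at h1
    exact h1.symm
  refine unr_cob (lvlOver (localGaloisToGlobal q)) (χ.comp r) (N := N) (N' := N') hN'L hN'N
    (fun x hx => hEχ (hr hx)) φ (n := n) (Subgroup.pow_index_mem N φ)
    (fun g => exists_frob_pow_mul_mem hE'f hE'n hE'u hσ hφ g) ?_
    (z := fun x => z (r x.1, r x.2)) (fun g h j => ?_) (fun g g' s hs s' hs' => ?_)
  · intro i hi
    refine dvd_of_pow_sub_one_dvd hq.out.one_lt ?_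
    rw [← hM]
    have h1 : localGaloisToGlobal q (φ ^ i) ζ = ζ :=
      (IntermediateField.mem_fixingSubgroup_iff _ _).mp hi ζ (hCE' hζC)
    have h2 := Fermat.Agent.Cyclotomic.cyc_eq_one_of_fixes M _ hζ h1
    rw [map_pow, map_pow] at h2
    have h3 := congrArg Units.val h2
    rw [Units.val_pow_eq_pow_val, hcyc, Units.val_one] at h3
    have h4 : ((q ^ i : ℕ) : ZMod M) = ((1 : ℕ) : ZMod M) := by
      push_cast
      exact h3
    rw [ZMod.natCast_eq_natCast_iff] at h4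
    exact (Nat.modEq_iff_dvd' (Nat.one_le_pow _ _ hq.out.pos)).mp h4.symm
  · show z (r (g * h), r j) + z (r g, r h) = (χ (r g) : ZMod p) * z (r h, r j) + z (r g, r (h * j))
    rw [map_mul, map_mul]
    exact hz _ _ _
  · show z (r (g * s), r (g' * s')) = z (r g, r g')
    rw [map_mul, map_mul]
    exact hzE _ _ _ (hr hs) _ (hr hs')

end Main

end Fermat.Agent.CFT.Hasse
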