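import Mathlib
import Fermat.Agent.CFT.Hasse.Concrete
import Fermat.Agent.CFT.Hasse.CycRel
import Fermat.Agent.CFT.Hasse.Ramified
import Fermat.Agent.CFT.Hasse.UnrLocal
import Fermat.Agent.CFT.Hasse.Dlog
import Fermat.Agent.CFT.LD.Padic

/-!
# Local inputs for the reciprocity law over `ℚ`
-/

set_option autoImplicit false
set_option linter.unusedSectionVars false

open ExtCitation NumberField

namespace Fermat.Agent.CFT.Hasse

open Fermat.Agent.CFT.LC Fermat.Agent.CFT.D3 Fermat.Agent.CFT.PT Fermat.Agent.CFT.W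
open Fermat.Agent.Cyclotomic IntermediateField

/-- An algebraic closure of `ℚ`. -/
local notation "Qb" => AlgebraicClosure ℚ

section

variable {p r : ℕ} [hp : Fact p.Prime] [hr : Fact r.Prime] (q : ℕ) [hq : Fact q.Prime]

theorem h90Loc' (V : Subgroup (PadicAlgCl q ≃ₐ[ℚ_[q]] PadicAlgCl q)) :
    H90 (lvlOver (localGaloisToGlobal q)) V (PadicAlgCl q)ˣ := by
  refine h90_of_hom (MonoidHom.id _) (fun _ _ => rfl) (lvlOver (localGaloisToGlobal q)) ?_ V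
  rintro _ ⟨_, ⟨F, hF, -, rfl⟩, rfl⟩
  have : FiniteDimensional ℚ F := hF
  have hopen := Local.isOpen_comap_localGaloisToGlobal q F
  obtain ⟨E, hE, hle⟩ := (krullTopology_mem_nhds_one_iff ℚ_[q] (PadicAlgCl q) _).mp
    (hopen.mem_nhds (Subgroup.one_mem _))
  exact ⟨E, hE, fun x hx => hle hx⟩

theorem h90Q' (V : Subgroup (Qb ≃ₐ[ℚ] Qb)) : H90 (krull ℚ Qb) V Qbˣ := by
  refine h90_gal (krull ℚ Qb) ?_ V
  rintro _ ⟨F, hF, -, rfl⟩
  exact ⟨F, hF, le_rfl⟩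

/-- the mod `r` cyclotomic character -/
noncomputable def cycr (r : ℕ) [hr : Fact r.Prime] : (Qb ≃ₐ[ℚ] Qb) →* (ZMod r)ˣ :=
  have : NeZero r := ⟨hr.out.ne_zero⟩
  cyc r

theorem cycr_spec (σ : Qb ≃ₐ[ℚ] Qb) {ζ : Qb} (hζ : ζ ^ r = 1) :
    σ ζ = ζ ^ (cycr r σ : ZMod r).val :=
  have : NeZero r := ⟨hr.out.ne_zero⟩
  cyc_spec r σ hζ

theorem cycr_eq_one_of_fixes (σ : Qb ≃ₐ[ℚ] Qb) {ζ : Qb} (hζ : IsPrimitiveRoot ζ r)
    (h : σ ζ = ζ) : cycr r σ = 1 :=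
  have : NeZero r := ⟨hr.out.ne_zero⟩
  cyc_eq_one_of_fixes r σ hζ h

theorem exists_zeta_r : ∃ ζ : Qb, IsPrimitiveRoot ζ r :=
  have : NeZero r := ⟨hr.out.ne_zero⟩
  exists_primitiveRoot r

theorem isOpen_ker_cycr (r : ℕ) [hr : Fact r.Prime] : (krull ℚ Qb).IsOpen (cycr r).ker := by
  obtain ⟨ζ, hζ⟩ := exists_zeta_r (r := r)
  rw [isOpen_krull_iff]
  refine ⟨IntermediateField.adjoin ℚ {ζ},
    IntermediateField.adjoin.finiteDimensional (Algebra.IsIntegral.isIntegral ζ), fun σ hσ => ?_⟩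
  exact cycr_eq_one_of_fixes σ hζ ((IntermediateField.mem_fixingSubgroup_iff _ _).mp hσ ζ
    (IntermediateField.mem_adjoin_simple_self ℚ ζ))

/-- a Frobenius element at `q ≠ r` -/
theorem exists_frob_cycr (hqr : q ≠ r) :
    ∃ φ : PadicAlgCl q ≃ₐ[ℚ_[q]] PadicAlgCl q,
      (cycr r (localGaloisToGlobal q φ) : ZMod r) = q := by
  have : NeZero r := ⟨hr.out.ne_zero⟩
  obtain ⟨ζ, hζ⟩ := exists_zeta_r (r := r)
  obtain ⟨φ, σ, hσ, hφ⟩ := exists_frob_loc q (IntermediateField.adjoin ℚ {ζ})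
    (IntermediateField.adjoin.finiteDimensional (Algebra.IsIntegral.isIntegral ζ))
  refine ⟨φ, ?_⟩
  have hqr' : ¬ q ∣ r := fun h => hqr ((Nat.prime_dvd_prime_iff_eq hq.out hr.out).mp h)
  have h0 : (cycr r σ : ZMod r) = q :=
    cyc_frobenius hq.out hqr' _ (padicPlace_liesOverPrime q) hσ
  rw [← h0]
  congr 1
  have h1 : cycr r (σ⁻¹ * localGaloisToGlobal q φ) = 1 := by
    refine cycr_eq_one_of_fixes _ hζ ?_
    show σ⁻¹ (localGaloisToGlobal q φ ζ) = ζ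
    rw [← hφ ζ (IntermediateField.mem_adjoin_simple_self ℚ ζ)]
    exact σ.symm_apply_apply ζ
  rw [map_mul, map_inv, inv_mul_eq_one] at h1
  exact h1.symm

variable (Λ : (ZMod r)ˣ →* Multiplicative (ZMod p))

/-- the auxiliary character -/
noncomputable def chiF : (Qb ≃ₐ[ℚ] Qb) →* Multiplicative (ZMod p) := Λ.comp (cycr r)

theorem isOpen_ker_chiF : (krull ℚ Qb).IsOpen (chiF Λ).ker :=
  (isOpen_ker_cycr r).mono fun x hx => by
    rw [MonoidHom.mem_ker] at hx ⊢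
    show Λ (cycr r x) = 1
    rw [hx, map_one]

/-- the local auxiliary character -/
noncomputable def thF : (PadicAlgCl q ≃ₐ[ℚ_[q]] PadicAlgCl q) →* Multiplicative (ZMod p) :=
  (chiF Λ).comp (localGaloisToGlobal q)

theorem isOpen_ker_thF : (lvlOver (localGaloisToGlobal q)).IsOpen (thF q Λ).ker := by
  obtain ⟨N, hN, hle⟩ := isOpen_ker_chiF Λ
  exact ⟨_, ⟨N, hN, rfl⟩, fun x hx => hle hx⟩

theorem exists_thF_eq_one_of_ne (h : thF q Λ ≠ 1) :
    ∃ s : PadicAlgCl q ≃ₐ[ℚ_[q]] PadicAlgCl q, thF q Λ s = Multiplicative.ofAdd 1 := by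
  obtain ⟨g, hg⟩ : ∃ g, thF q Λ g ≠ 1 := by
    by_contra hcon
    push Not at hcon
    exact h (MonoidHom.ext hcon)
  set c : ZMod p := Multiplicative.toAdd (thF q Λ g) with hc
  have hc0 : c ≠ 0 := fun h => hg h
  have : NeZero p := ⟨hp.out.ne_zero⟩
  refine ⟨g ^ (c⁻¹).val, ?_⟩
  have h1 : thF q Λ g = Multiplicative.ofAdd c := rfl
  rw [map_pow, h1, ← ofAdd_nsmul, nsmul_eq_mul, ZMod.natCast_zmod_val, inv_mul_cancel₀ hc0]

theorem thF_ne_one_of_ell (hqr : q ≠ r) (h : ell Λ q ≠ 0) : thF q Λ ≠ 1 := by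
  intro h1
  apply h
  have hcop : q.Coprime r := (Nat.coprime_primes hq.out hr.out).mpr hqr
  obtain ⟨φ, hφ⟩ := exists_frob_cycr (r := r) q hqr
  have h2 : cycr r (localGaloisToGlobal q φ) = ZMod.unitOfCoprime q hcop := Units.ext hφ
  rw [ell_of_coprime Λ hcop, ← h2]
  exact DFunLike.congr_fun h1 φ

/-- the local cyclotomic field contains the elements fixed by the kernel -/
theorem mem_adjoin_of_fixed {ζ : Qb} (hζ : IsPrimitiveRoot ζ r) {b : PadicAlgCl q}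
    (hb : ∀ v, thF q Λ v = 1 → v b = b) : b ∈ ℚ_[q]⟮padicEmbedding q ζ⟯ := by
  have h1 : b ∈ fixedField (ℚ_[q]⟮padicEmbedding q ζ⟯).fixingSubgroup := by
    rintro ⟨v, hv⟩
    refine hb v ?_
    have h2 : v (padicEmbedding q ζ) = padicEmbedding q ζ :=
      (mem_fixingSubgroup_iff _ _).mp hv _ (mem_adjoin_simple_self _ _)
    rw [← padicEmbedding_localGaloisToGlobal] at h2
    have h3 := cycr_eq_one_of_fixes _ hζ ((padicEmbedding q).injective h2)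
    show Λ (cycr r (localGaloisToGlobal q v)) = 1
    rw [h3, map_one]
  rwa [InfiniteGalois.fixedField_fixingSubgroup] at h1

variable {q}

/-- the unit attached to a nonzero element of `ℚ_q` -/
noncomputable def uq {a : ℚ_[q]} (ha : a ≠ 0) : (PadicAlgCl q)ˣ :=
  Units.mk0 (algebraMap ℚ_[q] (PadicAlgCl q) a)
    ((map_ne_zero (algebraMap ℚ_[q] (PadicAlgCl q))).mpr ha)

@[simp] theorem coe_uq {a : ℚ_[q]} (ha : a ≠ 0) :
    ((uq ha : (PadicAlgCl q)ˣ) : PadicAlgCl q) = algebraMap ℚ_[q] (PadicAlgCl q) a := rfl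

theorem smul_uq {a : ℚ_[q]} (ha : a ≠ 0) (g : PadicAlgCl q ≃ₐ[ℚ_[q]] PadicAlgCl q) :
    g • uq ha = uq ha := Units.ext (g.commutes a)

theorem exists_uq {x : (PadicAlgCl q)ˣ}
    (hx : ∀ g : PadicAlgCl q ≃ₐ[ℚ_[q]] PadicAlgCl q, g • x = x) :
    ∃ (a : ℚ_[q]) (ha : a ≠ 0), x = uq ha := by
  have h1 : (x : PadicAlgCl q) ∈ (⊥ : IntermediateField ℚ_[q] (PadicAlgCl q)) := by
    rw [← InfiniteGalois.fixedField_bot (k := ℚ_[q]) (K := PadicAlgCl q)]
    rintro ⟨g, -⟩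
    exact congrArg Units.val (hx g)
  rw [IntermediateField.mem_bot] at h1
  obtain ⟨a, ha⟩ := h1
  have ha0 : a ≠ 0 := by
    rintro rfl
    rw [map_zero] at ha
    exact x.ne_zero ha.symm
  exact ⟨a, ha0, Units.ext ha.symm⟩

/-- **(V)** if the cyclic class of `a` for an unramified character is trivial then `p` divides
the valuation of `a`. -/
theorem dvd_valuation (hqr : q ≠ r) (h : thF q Λ ≠ 1) {a : ℚ_[q]} (ha : a ≠ 0)
    {f : (PadicAlgCl q ≃ₐ[ℚ_[q]] PadicAlgCl q) → (PadicAlgCl q)ˣ}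
    (hf : IsLC₁ (lvlOver (localGaloisToGlobal q)) f) (hcyc : cyc (thF q Λ) (uq ha) = mdiff f) :
    (p : ℤ) ∣ a.valuation := by
  obtain ⟨s, hs⟩ := exists_thF_eq_one_of_ne q Λ h
  obtain ⟨b, hb1, hb2⟩ := norm_of_cyc_eq_mdiff hs (h90Loc' q _) hf hcyc
  obtain ⟨ζ, hζ⟩ := exists_zeta_r (r := r)
  have hbK := mem_adjoin_of_fixed q Λ hζ (b := (b : PadicAlgCl q))
    (fun v hv => congrArg Units.val (hb1 v hv))
  have hcop : q.Coprime r := (Nat.coprime_primes hq.out hr.out).mpr hqr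
  obtain ⟨m, hm⟩ := exists_norm_eq_zpow (n := r) hr.out.ne_zero hcop
    (by rw [← map_pow, hζ.pow_eq_one, map_one]) hbK b.ne_zero
  have h1 := congrArg (fun x : (PadicAlgCl q)ˣ => ‖(x : PadicAlgCl q)‖) hb2
  simp only [coe_uq, norm_algebraMap', Units.coe_prod, norm_prod] at h1
  have h2 : ∀ j ∈ Finset.range p, ‖((s ^ j • b : (PadicAlgCl q)ˣ) : PadicAlgCl q)‖ =
      (q : ℝ) ^ m := fun j _ => (norm_gal (s ^ j) (b : PadicAlgCl q)).trans hm
  rw [Finset.prod_congr rfl h2, Finset.prod_const, Finset.card_range,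
    Padic.norm_eq_zpow_neg_valuation ha, ← zpow_natCast, ← zpow_mul] at h1
  have hq0 : (0 : ℝ) < q := by exact_mod_cast hq.out.pos
  have hq1 : (q : ℝ) ≠ 1 := by exact_mod_cast hq.out.one_lt.ne'
  have h3 := zpow_right_injective₀ hq0 hq1 h1
  exact ⟨-m, by linarith [mul_comm m (p : ℤ)]⟩

/-- **(R)** the ramified case -/
theorem ramified_input (hΛ : Function.Surjective Λ) {a : ℚ_[r]} (ha : a ≠ 0)
    {f : (PadicAlgCl r ≃ₐ[ℚ_[r]] PadicAlgCl r) → (PadicAlgCl r)ˣ}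
    (hf : IsLC₁ (lvlOver (localGaloisToGlobal r)) f) (hcyc : cyc (thF r Λ) (uq ha) = mdiff f) :
    ∃ v : ℤ, ‖(a * (r : ℚ_[r]) ^ (-v)) ^ ((r - 1) / p) - 1‖ < 1 := by
  obtain ⟨ζ, hζ⟩ := exists_zeta_r (r := r)
  have hζ' : IsPrimitiveRoot (padicEmbedding r ζ) r := hζ.map_of_injective (padicEmbedding r).injective
  obtain ⟨c, hc⟩ := hΛ (Multiplicative.ofAdd 1)
  obtain ⟨s, hs⟩ := exists_gal hζ' (ZMod.val_coe_unit_coprime c)
  have hχ : ∀ σ : PadicAlgCl r ≃ₐ[ℚ_[r]] PadicAlgCl r, σ (padicEmbedding r ζ) =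
      padicEmbedding r ζ ^ (((cycr r).comp (localGaloisToGlobal r)) σ : ZMod r).val := by
    intro σ
    rw [← padicEmbedding_localGaloisToGlobal, cycr_spec _ hζ.pow_eq_one, map_pow]
    rfl
  have hsc : cycr r (localGaloisToGlobal r s) = c := by
    apply Units.ext
    apply ZMod.val_injective r
    refine hζ'.pow_inj (ZMod.val_lt _) (ZMod.val_lt _) ?_
    rw [← hs, hχ]
    rfl
  have hs1 : thF r Λ s = Multiplicative.ofAdd 1 := by
    show Λ (cycr r (localGaloisToGlobal r s)) = _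
    rw [hsc, hc]
  obtain ⟨b, hb1, hb2⟩ := norm_of_cyc_eq_mdiff hs1 (h90Loc' r _) hf hcyc
  refine ramified_norm hζ' Λ hΛ ((cycr r).comp (localGaloisToGlobal r)) hχ b.ne_zero
    (fun v hv => congrArg Units.val (hb1 v hv)) (s := s) hs1 ?_
  have h1 := congrArg Units.val hb2
  rw [Units.coe_prod] at h1
  exact h1

theorem exists_thF_r (hΛ : Function.Surjective Λ) :
    ∃ s : PadicAlgCl r ≃ₐ[ℚ_[r]] PadicAlgCl r, thF r Λ s = Multiplicative.ofAdd 1 := by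
  obtain ⟨ζ, hζ⟩ := exists_zeta_r (r := r)
  have hζ' : IsPrimitiveRoot (padicEmbedding r ζ) r := hζ.map_of_injective (padicEmbedding r).injective
  obtain ⟨c, hc⟩ := hΛ (Multiplicative.ofAdd 1)
  obtain ⟨s, hs⟩ := exists_gal hζ' (ZMod.val_coe_unit_coprime c)
  refine ⟨s, ?_⟩
  have hsc : cycr r (localGaloisToGlobal r s) = c := by
    apply Units.ext
    apply ZMod.val_injective r
    refine hζ'.pow_inj (ZMod.val_lt _) (ZMod.val_lt _) ?_
    rw [← hs, ← padicEmbedding_localGaloisToGlobal, cycr_spec _ hζ.pow_eq_one, map_pow]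
  show Λ (cycr r (localGaloisToGlobal r s)) = _
  rw [hsc, hc]

end

end Fermat.Agent.CFT.Hasse
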