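import Mathlib
import Fermat.Agent.CFT.Hasse.LocFun
import Fermat.Agent.CFT.Hasse.Principle
import Fermat.Agent.CFT.Hasse.AuxPrime
import Fermat.Agent.CFT.LC.Frozen
import Fermat.Agent.CFT.PT.Inputs

/-!
# Reciprocity over `ℚ`
-/

set_option autoImplicit false
set_option linter.unusedSectionVars false

open ExtCitation NumberField

namespace Fermat.Agent.CFT.Hasse

open Fermat.Agent.CFT.LC Fermat.Agent.CFT.D3 Fermat.Agent.CFT.PT Fermat.Agent.CFT.W
open IntermediateField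

/-- An algebraic closure of `ℚ`. -/
local notation "Qb" => AlgebraicClosure ℚ

local instance instFactPrimes'' (q : Nat.Primes) : Fact (q : ℕ).Prime := ⟨q.2⟩

section

variable {p r : ℕ} [hp : Fact p.Prime] [hr : Fact r.Prime]
  (Λ : (ZMod r)ˣ →* Multiplicative (ZMod p))

theorem comap_locConj_ker_chiF (q : ℕ) [hq : Fact q.Prime] (g : Qb ≃ₐ[ℚ] Qb) :
    (chiF Λ).ker.comap (locConj q g) = (thF q Λ).ker := by
  ext τ
  rw [Subgroup.mem_comap, MonoidHom.mem_ker, MonoidHom.mem_ker, locConj_apply, map_mul, map_mul,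
    map_inv, mul_comm, mul_inv_cancel_left]
  rfl

theorem cycloChar_locConj (q : ℕ) [hq : Fact q.Prime] (g : Qb ≃ₐ[ℚ] Qb) :
    (cycloChar p).comp (locConj q g) = (cycloChar p).comp (localGaloisToGlobal q) := by
  ext τ
  rw [MonoidHom.comp_apply, MonoidHom.comp_apply, locConj_apply, map_mul, map_mul,
    map_inv, mul_comm, mul_inv_cancel_left]

/-- local triviality at the primes where `thF` is nontrivial -/
theorem cobOn_of_thF (hp2 : p ≠ 2) {q : ℕ} [hq : Fact q.Prime] (h : thF q Λ ≠ 1)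
    {z : (Qb ≃ₐ[ℚ] Qb) × (Qb ≃ₐ[ℚ] Qb) → ZMod p}
    (hz : ∀ g h j, z (g * h, j) + z (g, h) = (cycloChar p g : ZMod p) * z (h, j) + z (g, h * j))
    (hzl : IsLC₂ (krull ℚ Qb) z) (g : Qb ≃ₐ[ℚ] Qb) :
    CobOn (lvlOver (localGaloisToGlobal q)) ((cycloChar p).comp (locConj q g))
      ((chiF Λ).ker.comap (locConj q g)) (fun x => z (locConj q g x.1, locConj q g x.2)) := by
  rw [comap_locConj_ker_chiF, cycloChar_locConj]
  have hz2 : (fun x : (PadicAlgCl q ≃ₐ[ℚ_[q]] PadicAlgCl q) × (PadicAlgCl q ≃ₐ[ℚ_[q]] PadicAlgCl q)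
      => z (locConj q g x.1, locConj q g x.2)) ∈
      Z2 (mu ((cycloChar p).comp (localGaloisToGlobal q))) (lvlOver (localGaloisToGlobal q)) := by
    rw [mem_Z2]
    refine ⟨fun a b c => ?_, hzl.pullback (cont_locConj q g)⟩
    rw [mu_apply, ← cycloChar_locConj q g]
    show z (locConj q g (a * b), locConj q g c) + z (locConj q g a, locConj q g b) =
      (cycloChar p (locConj q g a) : ZMod p) * z (locConj q g b, locConj q g c) +
        z (locConj q g a, locConj q g (b * c))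
    rw [map_mul, map_mul]
    exact hz _ _ _
  have hres := (Local.formPadic q p hp2).res_ker_eq_zero (isOpen_ker_thF q Λ) h
    (H2.mk (mu ((cycloChar p).comp (localGaloisToGlobal q))) (lvlOver (localGaloisToGlobal q))
      ⟨_, hz2⟩)
  rw [Mor.H2_mk, H2.mk_eq_zero_iff] at hres
  obtain ⟨w, hwl, hw⟩ := hres
  refine ⟨w, hwl, fun a b => ?_⟩
  have h1 := congrFun hw (a, b)
  rw [d1_apply] at h1
  exact h1.symm

/-- local triviality at the primes outside `S` -/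
theorem exists_cob_outside {S : Finset Nat.Primes} {q : Nat.Primes} (hq : q ∉ S)
    (hpS : ∃ v ∈ S, (v : ℕ) = p) {z : (Qb ≃ₐ[ℚ] Qb) × (Qb ≃ₐ[ℚ] Qb) → ZMod p}
    (hz : ∀ g h j, z (g * h, j) + z (g, h) = (cycloChar p g : ZMod p) * z (h, j) + z (g, h * j))
    (hzl : IsLC₂ (unram S) z) (g : Qb ≃ₐ[ℚ] Qb) :
    ∃ w : (PadicAlgCl (q : ℕ) ≃ₐ[ℚ_[(q : ℕ)]] PadicAlgCl (q : ℕ)) → ZMod p,
      IsLC₁ (lvlOver (localGaloisToGlobal (q : ℕ))) w ∧
      ∀ a b, z (locConj (q : ℕ) g a, locConj (q : ℕ) g b) =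
        (cycloChar p (locConj (q : ℕ) g a) : ZMod p) * w b - w (a * b) + w a := by
  obtain ⟨N, hN, hzN⟩ := hzl
  obtain ⟨N', hN', hle'⟩ := isOpen_unram_ker_cycloChar (p := p) (S := S) (by
    obtain ⟨v, hv, rfl⟩ := hpS
    exact hv)
  obtain ⟨N1, ⟨E, hE, hEn, rfl⟩, hle1, hle2⟩ := (unram S).directed N hN N' hN'
  refine unr_loc_cob (q : ℕ) E hE.1 hEn (hE.2 q hq _ (padicPlace_liesOverPrime (q : ℕ)))
    (hle2.trans hle') hz
    (fun a b s hs t ht => hzN a b s (hle1 hs) t (hle1 ht)) (locConj (q : ℕ) g) ?_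
  have hEn' := hEn.normal_fixingSubgroup
  exact (comap_conjLoc q g hEn').ge

/-- The class of `z` is cyclic for the character `chiF`. -/
theorem exists_cycRel_global (hp2 : p ≠ 2) (hΛ : Function.Surjective Λ) {S : Finset Nat.Primes}
    (hpS : ∃ v ∈ S, (v : ℕ) = p) (hS : ∀ q ∈ S, thF (q : ℕ) Λ ≠ 1) {ζ : Qbˣ}
    (hζ : IsPrimitiveRoot ζ p)
    {z : (Qb ≃ₐ[ℚ] Qb) × (Qb ≃ₐ[ℚ] Qb) → ZMod p}
    (hz : ∀ g h j, z (g * h, j) + z (g, h) = (cycloChar p g : ZMod p) * z (h, j) + z (g, h * j))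
    (hzl : IsLC₂ (unram S) z) :
    ∃ x : Qbˣ, (∀ g : Qb ≃ₐ[ℚ] Qb, g • x = x) ∧ CycRel (krull ℚ Qb) (chiF Λ) ζ z x := by
  have K := kdataQ (p := p) hζ
  have hzl' : IsLC₂ (krull ℚ Qb) z := hzl.pullback (cont_krull_unram S)
  have hcob : CobOn (krull ℚ Qb) (cycloChar p) (chiF Λ).ker z := by
    refine hasse_Q hp2 (isOpen_ker_chiF Λ) ⟨?_, fun g _ k _ j _ => hz g k j⟩ ?_
    · exact hzl'.pullback ((krull ℚ Qb).cont_comap (chiF Λ).ker.subtype)
    · rintro ⟨q, g⟩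
      by_cases hq : q ∈ S
      · exact cobOn_of_thF Λ hp2 (hS q hq) hz hzl' g
      · obtain ⟨w, hw1, hw2⟩ := exists_cob_outside hq hpS hz hzl g
        exact ⟨fun x => w x, isLC₁_restrict hw1 _, fun a b => hw2 a b⟩
  obtain ⟨w, hwl, hw⟩ := hcob
  obtain ⟨s, hs⟩ := exists_thF_r Λ hΛ
  obtain ⟨x, hx, f, hf, hfe⟩ := exists_eq_cyc_mul_mdiff K.sm (isOpen_ker_chiF Λ)
    (σ := localGaloisToGlobal r s) hs (h90Q' _) (z := fun x => zp ζ (z x))
    (K.isCoc_zp hz) (hzl'.comp (zp ζ)) (w := fun v => zp ζ (w v)) (hwl.comp (zp ζ))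
    (fun v v' => by
      show zp ζ (z (_, _)) = _
      rw [hw v v', zp_add K.pow, zp_sub K.pow, ← K.smul_zp, div_mul_eq_mul_div])
  exact ⟨x, hx, f, hf, fun y => congrFun hfe y⟩

/-- the unit attached to a nonzero natural number -/
noncomputable def uN {n : ℕ} (hn : n ≠ 0) : Qbˣ := Units.mk0 (n : Qb) (by exact_mod_cast hn)

@[simp] theorem coe_uN {n : ℕ} (hn : n ≠ 0) : ((uN hn : Qbˣ) : Qb) = n := rfl

/-- We can take a positive integer as representative. -/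
theorem exists_natCast (hp2 : p ≠ 2) {ζ : Qbˣ} (hζ : IsPrimitiveRoot ζ p)
    {z : (Qb ≃ₐ[ℚ] Qb) × (Qb ≃ₐ[ℚ] Qb) → ZMod p} {x : Qbˣ} (hx : ∀ g : Qb ≃ₐ[ℚ] Qb, g • x = x)
    (h : CycRel (krull ℚ Qb) (chiF Λ) ζ z x) :
    ∃ (n : ℕ) (hn : n ≠ 0), CycRel (krull ℚ Qb) (chiF Λ) ζ z (uN hn) := by
  have K := kdataQ (p := p) hζ
  have h1 : (x : Qb) ∈ (⊥ : IntermediateField ℚ Qb) := by
    rw [← InfiniteGalois.fixedField_bot (k := ℚ) (K := Qb)]
    rintro ⟨g, -⟩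
    exact congrArg Units.val (hx g)
  rw [IntermediateField.mem_bot] at h1
  obtain ⟨a, ha⟩ := h1
  have ha' : (x : Qb) = (a : Qb) := by rw [← ha]; exact eq_ratCast _ a
  have ha0 : a ≠ 0 := by
    rintro rfl
    rw [map_zero] at ha
    exact x.ne_zero ha.symm
  have hodd : Odd p := hp.out.odd_of_ne_two hp2
  -- the sign
  obtain ⟨ε, hε, hnum⟩ : ∃ ε : ℤ, ε ≠ 0 ∧ a.num * ε ^ p = a.num.natAbs := by
    rcases le_total 0 a.num with h0 | h0
    · exact ⟨1, one_ne_zero, by rw [one_pow, mul_one, Int.natAbs_of_nonneg h0]⟩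
    · exact ⟨-1, by norm_num, by rw [hodd.neg_one_pow, Int.ofNat_natAbs_of_nonpos h0]; ring⟩
  have hden : a.den ≠ 0 := a.den_nz
  have hnum0 : a.num.natAbs ≠ 0 := by
    rw [Int.natAbs_ne_zero]
    exact Rat.num_ne_zero.mpr ha0
  have hn : a.num.natAbs * a.den ^ (p - 1) ≠ 0 := mul_ne_zero hnum0 (pow_ne_zero _ hden)
  refine ⟨a.num.natAbs * a.den ^ (p - 1), hn, ?_⟩
  have hc0 : ((ε * a.den : ℤ) : Qb) ≠ 0 := by
    have : (ε * a.den : ℤ) ≠ 0 := mul_ne_zero hε (by exact_mod_cast hden)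
    exact_mod_cast this
  let c : Qbˣ := Units.mk0 _ hc0
  have hc : ∀ g : Qb ≃ₐ[ℚ] Qb, g • c = c := fun g => Units.ext (map_intCast g _)
  have h2 := h.add K.pow (CycRel.pow_p (θ := chiF Λ) (ζ := ζ) (isOpen_ker_chiF Λ) hc)
  rw [add_zero] at h2
  convert h2 using 1
  apply Units.ext
  rw [coe_uN, Units.val_mul, Units.val_pow_eq_pow_val, ha']
  show _ = (a : Qb) * ((ε * a.den : ℤ) : Qb) ^ p
  have hd : (a : Qb) * (a.den : Qb) = (a.num : Qb) := by
    have := Rat.mul_den_eq_num a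
    exact_mod_cast congrArg (Rat.cast (K := Qb)) this
  have hp1 : p = (p - 1) + 1 := (Nat.sub_add_cancel hp.out.one_le).symm
  have h3 : ((a.num.natAbs : ℕ) : Qb) = (a.num : Qb) * (ε : Qb) ^ p := by
    rw [← Int.cast_natCast (R := Qb), ← hnum, Int.cast_mul, Int.cast_pow]
  rw [Nat.cast_mul, Nat.cast_pow, h3, Int.cast_mul, Int.cast_natCast, mul_pow, ← hd]
  have h4 : (a.den : Qb) ^ p = (a.den : Qb) ^ (p - 1) * a.den := by
    rw [← pow_succ, ← hp1]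
  rw [h4]
  ring

theorem chiF_comp_locConj (q : ℕ) [hq : Fact q.Prime] :
    (chiF Λ).comp (locConj q 1) = thF q Λ := by
  ext τ
  show chiF Λ (locConj q 1 τ) = chiF Λ (localGaloisToGlobal q τ)
  rw [locConj_apply, inv_one, one_mul, mul_one]

theorem locUnits_uN (q : ℕ) [hq : Fact q.Prime] {n : ℕ} (hn : n ≠ 0) :
    locUnits q 1 (uN hn) = uq (q := q) (a := (n : ℚ_[q])) (by exact_mod_cast hn) := by
  apply Units.ext
  rw [coe_locUnits, coe_uN, coe_uq, map_natCast, map_natCast, map_natCast]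

/-- localisation of the relation -/
theorem cycRel_loc (q : ℕ) [hq : Fact q.Prime] {ζ : Qbˣ}
    {z : (Qb ≃ₐ[ℚ] Qb) × (Qb ≃ₐ[ℚ] Qb) → ZMod p} {n : ℕ} (hn : n ≠ 0)
    (h : CycRel (krull ℚ Qb) (chiF Λ) ζ z (uN hn)) :
    CycRel (lvlOver (localGaloisToGlobal q)) (thF q Λ) (locUnits q 1 ζ)
      (fun x => z (locConj q 1 x.1, locConj q 1 x.2))
      (uq (q := q) (a := (n : ℚ_[q])) (by exact_mod_cast hn)) := by
  rw [← locUnits_uN q hn, ← chiF_comp_locConj]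
  exact h.pullback (cont_locConj q 1) (locUnits q 1) (locUnits_smul q 1)

/-- at the primes outside `S`, the cyclic class is trivial -/
theorem cyc_eq_mdiff_outside {S : Finset Nat.Primes} {q : Nat.Primes} (hq : q ∉ S)
    (hpS : ∃ v ∈ S, (v : ℕ) = p) {ζ : Qbˣ} (hζ : IsPrimitiveRoot ζ p)
    {z : (Qb ≃ₐ[ℚ] Qb) × (Qb ≃ₐ[ℚ] Qb) → ZMod p}
    (hz : ∀ g h j, z (g * h, j) + z (g, h) = (cycloChar p g : ZMod p) * z (h, j) + z (g, h * j))
    (hzl : IsLC₂ (unram S) z) {n : ℕ} (hn : n ≠ 0)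
    (h : CycRel (krull ℚ Qb) (chiF Λ) ζ z (uN hn)) :
    ∃ f : (PadicAlgCl (q : ℕ) ≃ₐ[ℚ_[(q : ℕ)]] PadicAlgCl (q : ℕ)) → (PadicAlgCl (q : ℕ))ˣ,
      IsLC₁ (lvlOver (localGaloisToGlobal (q : ℕ))) f ∧
      cyc (thF (q : ℕ) Λ) (uq (q := (q : ℕ)) (a := (n : ℚ_[(q : ℕ)])) (by exact_mod_cast hn)) =
        mdiff f := by
  have K := kdataLoc (p := p) (q : ℕ) hζ
  obtain ⟨w, hwl, hw⟩ := exists_cob_outside hq hpS hz hzl 1
  have h1 := cycRel_loc Λ (q : ℕ) hn h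
  have h2 : CycRel (lvlOver (localGaloisToGlobal (q : ℕ))) (thF (q : ℕ) Λ) (locUnits (q : ℕ) 1 ζ)
      (fun x => z (locConj (q : ℕ) 1 x.1, locConj (q : ℕ) 1 x.2)) 1 := by
    refine CycRel.of_cob K hwl fun a b => ?_
    rw [← cycloChar_locConj (q : ℕ) 1]
    exact hw a b
  have h3 := h1.sub K.pow h2
  rw [sub_self, div_one] at h3
  exact h3.exists_of_zero

theorem valuation_natCast' (q : ℕ) [hq : Fact q.Prime] (n : ℕ) :
    (n : ℚ_[q]).valuation = (n.factorization q : ℤ) := by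
  rw [Padic.valuation_natCast, Nat.factorization_def n hq.out]

/-- **The sum formula.** -/
theorem sum_eq_zero (hpr : p ∣ r - 1) (hΛ : Function.Surjective Λ)
    (hΛ' : ∀ x, Λ x = 1 ↔ x ^ ((r - 1) / p) = 1) {S : Finset Nat.Primes}
    (hrS : ∀ q ∈ S, (q : ℕ) ≠ r) (hpS : ∃ v ∈ S, (v : ℕ) = p) {ζ : Qbˣ}
    (hζ : IsPrimitiveRoot ζ p) {z : (Qb ≃ₐ[ℚ] Qb) × (Qb ≃ₐ[ℚ] Qb) → ZMod p}
    (hz : ∀ g h j, z (g * h, j) + z (g, h) = (cycloChar p g : ZMod p) * z (h, j) + z (g, h * j))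
    (hzl : IsLC₂ (unram S) z) {n : ℕ} (hn : n ≠ 0)
    (h : CycRel (krull ℚ Qb) (chiF Λ) ζ z (uN hn)) :
    ∑ q ∈ S, (n.factorization (q : ℕ) : ZMod p) * ell Λ (q : ℕ) = 0 := by
  classical
  -- the ramified prime
  have hrS' : (⟨r, hr.out⟩ : Nat.Primes) ∉ S := fun h => hrS _ h rfl
  obtain ⟨f, hf, hfe⟩ := cyc_eq_mdiff_outside Λ hrS' hpS hζ hz hzl hn h
  obtain ⟨v, hv⟩ := ramified_input Λ hΛ _ hf hfe
  set S' : Finset ℕ := S.image (fun q : Nat.Primes => (q : ℕ)) with hS'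
  have h1 := sum_ell_eq_zero Λ hΛ' hpr hn hv (n.primeFactors ∪ S') Finset.subset_union_left
  have h2 : ∑ q ∈ S', (n.factorization q : ZMod p) * ell Λ q =
      ∑ q ∈ n.primeFactors ∪ S', (n.factorization q : ZMod p) * ell Λ q := by
    refine Finset.sum_subset Finset.subset_union_right fun q hq hqS => ?_
    rw [Finset.mem_union, or_iff_left hqS] at hq
    have hqp : q.Prime := Nat.prime_of_mem_primeFactors hq
    have hqF : Fact q.Prime := ⟨hqp⟩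
    rcases eq_or_ne q r with rfl | hqr
    · rw [ell_self, mul_zero]
    by_cases hell : ell Λ q = 0
    · rw [hell, mul_zero]
    have hth := thF_ne_one_of_ell q Λ hqr hell
    have hqS' : (⟨q, hqp⟩ : Nat.Primes) ∉ S := fun h => hqS (Finset.mem_image.mpr ⟨_, h, rfl⟩)
    obtain ⟨f, hf, hfe⟩ := cyc_eq_mdiff_outside Λ hqS' hpS hζ hz hzl hn h
    have h3 := dvd_valuation (q := q) Λ hqr hth _ hf hfe
    rw [valuation_natCast'] at h3
    have h4 := (ZMod.intCast_zmod_eq_zero_iff_dvd _ p).mpr h3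
    push_cast at h4
    rw [h4, zero_mul]
  rw [h1] at h2
  rw [← h2, hS']
  exact (Finset.sum_image (f := fun q : ℕ => (n.factorization q : ZMod p) * ell Λ q)
    (g := fun q : Nat.Primes => (q : ℕ))
    (fun a _ b _ hab => Nat.Primes.coe_nat_injective hab)).symm

/-- the functional at a prime `v ≠ r` -/
theorem exists_lambda_prime (hp2 : p ≠ 2) (S : Finset Nat.Primes) (v : ↥S) (hvr : (v.1 : ℕ) ≠ r)
    (hth : thF (v.1 : ℕ) Λ ≠ 1) {ζ : Qbˣ} (hζ : IsPrimitiveRoot ζ p) :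
    ∃ l : LC.H2 (mu ((cycloChar p).comp (primeLocalToGlobal v.1)))
        (lvlOver (primeLocalToGlobal v.1)) →ₗ[ZMod p] ZMod p, l ≠ 0 ∧
      ∀ (z : Z2 (mu (cycloChar p)) (unram S)) (n : ℕ) (hn : n ≠ 0),
        CycRel (krull ℚ Qb) (chiF Λ) ζ z.1 (uN hn) →
          l ((resMu (cycloChar p) (primeLocalToGlobal v.1) (cont_locS S v)).H2
            (H2.mk (mu (cycloChar p)) (unram S) z)) = (n.factorization (v.1 : ℕ) : ZMod p) := by
  obtain ⟨l, hl0, hl⟩ := exists_lambda (q := (v.1 : ℕ)) Λ hp2 hvr hth hζ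
  refine ⟨l, hl0, fun z n hn h => ?_⟩
  have h1 := hl ((resMu (cycloChar p) (primeLocalToGlobal v.1) (cont_locS S v)).z2 z)
    (n : ℚ_[(v.1 : ℕ)]) (by exact_mod_cast hn) (by
      have h2 := cycRel_loc Λ (v.1 : ℕ) hn h
      have h3 : ∀ τ, locConj (v.1 : ℕ) 1 τ = localGaloisToGlobal (v.1 : ℕ) τ := fun τ => by
        rw [locConj_apply, inv_one, one_mul, mul_one]
      simp only [h3] at h2
      exact h2)
  rw [valuation_natCast', Int.cast_natCast] at h1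
  exact h1

/-- **Reciprocity over `ℚ`** (D4). -/
theorem exists_hrec (hp2 : p ≠ 2) (S : Finset Nat.Primes) (hpS : pPrime p ∈ S) :
    ∃ inv : ∀ v : ↥S, LC.H2 (mu ((cycloChar p).comp (primeLocalToGlobal v.1)))
        (lvlOver (primeLocalToGlobal v.1)) →ₗ[ZMod p] ZMod p,
      (∀ v, inv v ≠ 0) ∧
      PT.HRec (unram S) (cycloChar p) (fun v : ↥S => lvlOver (primeLocalToGlobal v.1))
        (fun v : ↥S => primeLocalToGlobal v.1) (cont_locS S) inv := by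
  classical
  obtain ⟨r, hr, hrS, -, hpr, hrS2⟩ := exists_aux_prime p
    (S.image (fun q : Nat.Primes => (q : ℕ))) (fun q hq => by
      obtain ⟨q', -, rfl⟩ := Finset.mem_image.mp hq
      exact q'.2)
  have hrF : Fact r.Prime := ⟨hr⟩
  obtain ⟨Λ, hΛ, hΛ'⟩ := exists_dlog (p := p) (r := r) hpr
  obtain ⟨ζ, hζ⟩ := exists_primitiveRoot_units (p := p)
  have hSr : ∀ q ∈ S, (q : ℕ) ≠ r := fun q hq h =>
    hrS (Finset.mem_image.mpr ⟨q, hq, h⟩)
  have hell : ∀ q ∈ S, ell Λ (q : ℕ) ≠ 0 := by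
    intro q hq h
    have hcop : (q : ℕ).Coprime r := (Nat.coprime_primes q.2 hr).mpr (hSr q hq)
    rw [ell_of_coprime Λ hcop] at h
    have h1 : Λ (ZMod.unitOfCoprime (q : ℕ) hcop) = 1 := h
    rw [hΛ'] at h1
    refine hrS2 (q : ℕ) (Finset.mem_image.mpr ⟨q, hq, rfl⟩) ?_
    have h2 := congrArg Units.val h1
    simpa using h2
  have hth : ∀ q ∈ S, thF (q : ℕ) Λ ≠ 1 := fun q hq =>
    thF_ne_one_of_ell (q : ℕ) Λ (hSr q hq) (hell q hq)
  have hpS' : ∃ v ∈ S, (v : ℕ) = p := ⟨_, hpS, rfl⟩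
  choose l hl0 hl using fun v : ↥S =>
    exists_lambda_prime Λ hp2 S v (hSr v.1 v.2) (hth v.1 v.2) hζ
  refine ⟨fun v => ell Λ (v.1 : ℕ) • l v, fun v => smul_ne_zero (hell v.1 v.2) (hl0 v), ?_⟩
  intro z
  obtain ⟨z, rfl⟩ := H2.mk_surjective z
  have hz := (mem_Z2 _ _).mp z.2
  have hz1 : ∀ g h j, z.1 (g * h, j) + z.1 (g, h) =
      (cycloChar p g : ZMod p) * z.1 (h, j) + z.1 (g, h * j) := by
    intro g h j
    have h1 := hz.1 g h j
    rw [mu_apply] at h1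
    exact h1
  obtain ⟨x, hx, h1⟩ := exists_cycRel_global Λ hp2 hΛ hpS' hth hζ hz1 hz.2
  obtain ⟨n, hn, h2⟩ := exists_natCast Λ hp2 hζ hx h1
  have h3 := sum_eq_zero Λ hpr hΛ hΛ' hSr hpS' hζ hz1 hz.2 hn h2
  rw [← h3, ← Finset.sum_coe_sort S]
  refine Finset.sum_congr rfl fun v _ => ?_
  rw [LinearMap.smul_apply, hl v z n hn h2, smul_eq_mul, mul_comm]

/-- **Reciprocity over `ℚ`** (D4), with isomorphisms. -/
theorem exists_hrec_equiv (hp2 : p ≠ 2) (S : Finset Nat.Primes) (hpS : pPrime p ∈ S) :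
    ∃ inv : ∀ v : ↥S, LC.H2 (mu ((cycloChar p).comp (primeLocalToGlobal v.1)))
        (lvlOver (primeLocalToGlobal v.1)) ≃ₗ[ZMod p] ZMod p,
      PT.HRec (unram S) (cycloChar p) (fun v : ↥S => lvlOver (primeLocalToGlobal v.1))
        (fun v : ↥S => primeLocalToGlobal v.1) (cont_locS S) (fun v => (inv v).toLinearMap) := by
  obtain ⟨inv, h0, h⟩ := exists_hrec hp2 S hpS
  have key : ∀ v : ↥S, ∃ e : LC.H2 (mu ((cycloChar p).comp (primeLocalToGlobal v.1)))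
        (lvlOver (primeLocalToGlobal v.1)) ≃ₗ[ZMod p] ZMod p, e.toLinearMap = inv v := by
    intro v
    have h1 := LD.finrank_H2_mu_prime v.1 p hp2
    have hfd := FiniteDimensional.of_finrank_eq_succ h1
    have hsurj : Function.Surjective (inv v) := by
      rw [← LinearMap.range_eq_top]
      have h2 : LinearMap.range (inv v) ≠ ⊥ := fun h3 => h0 v (LinearMap.range_eq_bot.mp h3)
      exact (eq_bot_or_eq_top _).resolve_left h2
    have hinj : Function.Injective (inv v) :=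
      (LinearMap.injective_iff_surjective_of_finrank_eq_finrank
        (h1.trans (Module.finrank_self (ZMod p)).symm)).mpr hsurj
    exact ⟨LinearEquiv.ofBijective (inv v) ⟨hinj, hsurj⟩, LinearMap.ext fun _ => rfl⟩
  choose e he using key
  refine ⟨e, ?_⟩
  have h1 : (fun v => (e v).toLinearMap) = inv := funext he
  rw [h1]
  exact h

end

end Fermat.Agent.CFT.Hasse
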